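/-
TW-S (S56, from deformations to Selmer classes) — the packaging of `ad⁰ ρ̄`.
Sub-captain: helper54.  Project TW (captain helper63), plan NOTES/S56-plan.md §2, NOTES/TW-S.md.

* `ad0Sub ρbar`      : the trace-zero `k`-endomorphisms of `V̄`, a `k`-subspace of `End_k V̄`;
* `Ad0 p ρbar`       : the same set as an `𝔽_p`-vector space (`CharP k p`);
* `ad0Rep p ρbar`    : `ad⁰ ρ̄` as a `Rep (ZMod p) G_ℚ` (conjugation action);
* `adRep p ρbar`     : `End_k V̄` as a `Rep (ZMod p) G_ℚ` and the inclusion `ad0Incl`.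
-/
import Mathlib
import Fermat.Prelude.Def_GaloisRep_Residual

set_option autoImplicit false
set_option linter.unusedSectionVars false

noncomputable section

namespace Fermat.Agent.TW.S

open CategoryTheory

/-- `G_ℚ` -/
abbrev GQ' : Type := AlgebraicClosure ℚ ≃ₐ[ℚ] AlgebraicClosure ℚ

variable {k : Type} [Field k] (p : ℕ) [Fact p.Prime] [CharP k p] (ρbar : ResidualGaloisRep k)

/-- The trace-zero endomorphisms of `V̄`. -/
def ad0Sub : Submodule k (Module.End k ρbar.V) := LinearMap.ker (LinearMap.trace k ρbar.V)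

lemma mem_ad0Sub (X : Module.End k ρbar.V) :
    X ∈ ad0Sub ρbar ↔ LinearMap.trace k ρbar.V X = 0 := LinearMap.mem_ker

/-- `ρ̄(g) ρ̄(g⁻¹) = 1`. -/
lemma rho_mul_inv (g : GQ') : ρbar.ρ g * ρbar.ρ g⁻¹ = 1 := by
  rw [← map_mul, mul_inv_cancel, map_one]

lemma rho_inv_mul (g : GQ') : ρbar.ρ g⁻¹ * ρbar.ρ g = 1 := by
  rw [← map_mul, inv_mul_cancel, map_one]

/-- Conjugation preserves the trace. -/
lemma trace_conj (g : GQ') (X : Module.End k ρbar.V) :
    LinearMap.trace k ρbar.V (ρbar.ρ g * X * ρbar.ρ g⁻¹) = LinearMap.trace k ρbar.V X := by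
  rw [LinearMap.trace_mul_comm, ← mul_assoc, rho_inv_mul, one_mul]

/-- The carrier of `End_k V̄` as an `𝔽_p`-vector space. -/
def Ad (_p : ℕ) (ρbar : ResidualGaloisRep k) : Type := Module.End k ρbar.V

/-- The carrier of `ad⁰ ρ̄` as an `𝔽_p`-vector space. -/
def Ad0 (_p : ℕ) (ρbar : ResidualGaloisRep k) : Type := ↥(ad0Sub ρbar)

instance : AddCommGroup (Ad p ρbar) := inferInstanceAs (AddCommGroup (Module.End k ρbar.V))

instance : AddCommGroup (Ad0 p ρbar) := inferInstanceAs (AddCommGroup ↥(ad0Sub ρbar))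

/-- the underlying endomorphism -/
def Ad.toEnd : Ad p ρbar →+ Module.End k ρbar.V := AddMonoidHom.id _

/-- an endomorphism as an element of `Ad` -/
def Ad.ofEnd : Module.End k ρbar.V →+ Ad p ρbar := AddMonoidHom.id _

@[simp] lemma Ad.toEnd_ofEnd (X : Module.End k ρbar.V) :
    Ad.toEnd p ρbar (Ad.ofEnd p ρbar X) = X := rfl

@[simp] lemma Ad.ofEnd_toEnd (x : Ad p ρbar) : Ad.ofEnd p ρbar (Ad.toEnd p ρbar x) = x := rfl

lemma Ad.toEnd_injective : Function.Injective (Ad.toEnd p ρbar) := fun _ _ h => h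

/-- the underlying endomorphism -/
def Ad0.toEnd : Ad0 p ρbar →+ Module.End k ρbar.V := (ad0Sub ρbar).subtype.toAddMonoidHom

lemma Ad0.toEnd_injective : Function.Injective (Ad0.toEnd p ρbar) :=
  Subtype.val_injective

lemma Ad0.trace_toEnd (x : Ad0 p ρbar) :
    LinearMap.trace k ρbar.V (Ad0.toEnd p ρbar x) = 0 := (mem_ad0Sub ρbar _).1 x.2

/-- a trace-zero endomorphism as an element of `Ad0` -/
def Ad0.mk (X : Module.End k ρbar.V) (hX : LinearMap.trace k ρbar.V X = 0) : Ad0 p ρbar :=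
  ⟨X, (mem_ad0Sub ρbar X).2 hX⟩

@[simp] lemma Ad0.toEnd_mk (X : Module.End k ρbar.V) (hX : LinearMap.trace k ρbar.V X = 0) :
    Ad0.toEnd p ρbar (Ad0.mk p ρbar X hX) = X := rfl

lemma end_nsmul_eq_zero (X : Module.End k ρbar.V) : p • X = 0 := by
  rw [← Nat.cast_smul_eq_nsmul k, CharP.cast_eq_zero, zero_smul]

lemma Ad.nsmul_eq_zero (x : Ad p ρbar) : p • x = 0 :=
  end_nsmul_eq_zero p ρbar x

lemma Ad0.nsmul_eq_zero (x : Ad0 p ρbar) : p • x = 0 := by
  apply Ad0.toEnd_injective p ρbar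
  rw [map_nsmul, map_zero]
  exact Ad.nsmul_eq_zero p ρbar (Ad0.toEnd p ρbar x)

instance : Module (ZMod p) (Ad p ρbar) := AddCommGroup.zmodModule (Ad.nsmul_eq_zero p ρbar)

instance : Module (ZMod p) (Ad0 p ρbar) := AddCommGroup.zmodModule (Ad0.nsmul_eq_zero p ρbar)

/-- conjugation by `ρ̄(g)` on `End_k V̄`, additively -/
def adConj (g : GQ') : Ad p ρbar →+ Ad p ρbar where
  toFun x := Ad.ofEnd p ρbar (ρbar.ρ g * Ad.toEnd p ρbar x * ρbar.ρ g⁻¹)
  map_zero' := by simp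
  map_add' x y := by
    show ρbar.ρ g * (Ad.toEnd p ρbar x + Ad.toEnd p ρbar y) * ρbar.ρ g⁻¹ = _
    rw [mul_add, add_mul]
    rfl

/-- conjugation by `ρ̄(g)` on `ad⁰`, additively -/
def ad0Conj (g : GQ') : Ad0 p ρbar →+ Ad0 p ρbar where
  toFun x := Ad0.mk p ρbar (ρbar.ρ g * Ad0.toEnd p ρbar x * ρbar.ρ g⁻¹)
    (by rw [trace_conj]; exact Ad0.trace_toEnd p ρbar x)
  map_zero' := by
    apply Ad0.toEnd_injective p ρbar
    simp
  map_add' x y := by
    apply Ad0.toEnd_injective p ρbar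
    show ρbar.ρ g * Ad0.toEnd p ρbar (x + y) * ρbar.ρ g⁻¹ =
      ρbar.ρ g * Ad0.toEnd p ρbar x * ρbar.ρ g⁻¹ + ρbar.ρ g * Ad0.toEnd p ρbar y * ρbar.ρ g⁻¹
    rw [map_add, mul_add, add_mul]

/-- The conjugation representation on `End_k V̄` (over `𝔽_p`). -/
def adRho : Representation (ZMod p) GQ' (Ad p ρbar) where
  toFun g := AddMonoidHom.toZModLinearMap p (adConj p ρbar g)
  map_one' := by
    ext x
    show ρbar.ρ 1 * Ad.toEnd p ρbar x * ρbar.ρ 1⁻¹ = _
    rw [inv_one, map_one, one_mul, mul_one]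
    rfl
  map_mul' g h := by
    ext x
    show ρbar.ρ (g * h) * Ad.toEnd p ρbar x * ρbar.ρ (g * h)⁻¹ =
      ρbar.ρ g * (ρbar.ρ h * Ad.toEnd p ρbar x * ρbar.ρ h⁻¹) * ρbar.ρ g⁻¹
    rw [mul_inv_rev, map_mul, map_mul]
    simp only [mul_assoc]

/-- The conjugation representation on `ad⁰ ρ̄` (over `𝔽_p`). -/
def ad0Rho : Representation (ZMod p) GQ' (Ad0 p ρbar) where
  toFun g := AddMonoidHom.toZModLinearMap p (ad0Conj p ρbar g)
  map_one' := by
    ext x
    apply Ad0.toEnd_injective p ρbar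
    show ρbar.ρ 1 * Ad0.toEnd p ρbar x * ρbar.ρ 1⁻¹ = _
    rw [inv_one, map_one, one_mul, mul_one]
    rfl
  map_mul' g h := by
    ext x
    apply Ad0.toEnd_injective p ρbar
    show ρbar.ρ (g * h) * Ad0.toEnd p ρbar x * ρbar.ρ (g * h)⁻¹ =
      ρbar.ρ g * (ρbar.ρ h * Ad0.toEnd p ρbar x * ρbar.ρ h⁻¹) * ρbar.ρ g⁻¹
    rw [mul_inv_rev, map_mul, map_mul]
    simp only [mul_assoc]

/-- **`End_k V̄`** as a representation of `G_ℚ` over `𝔽_p`. -/
def adRep : Rep.{0} (ZMod p) GQ' := Rep.of (adRho p ρbar)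

/-- **`ad⁰ ρ̄`** as a representation of `G_ℚ` over `𝔽_p`. -/
def ad0Rep : Rep.{0} (ZMod p) GQ' := Rep.of (ad0Rho p ρbar)

/-- the endomorphism underlying an element of `adRep` -/
def adVal : (adRep p ρbar).V →+ Module.End k ρbar.V := Ad.toEnd p ρbar

/-- the endomorphism underlying an element of `ad0Rep` -/
def ad0Val : (ad0Rep p ρbar).V →+ Module.End k ρbar.V := Ad0.toEnd p ρbar

lemma adVal_injective : Function.Injective (adVal p ρbar) := Ad.toEnd_injective p ρbar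

lemma ad0Val_injective : Function.Injective (ad0Val p ρbar) := Ad0.toEnd_injective p ρbar

lemma trace_ad0Val (x : (ad0Rep p ρbar).V) : LinearMap.trace k ρbar.V (ad0Val p ρbar x) = 0 :=
  Ad0.trace_toEnd p ρbar x

lemma exists_ad0Val_eq (X : Module.End k ρbar.V) (hX : LinearMap.trace k ρbar.V X = 0) :
    ∃ x : (ad0Rep p ρbar).V, ad0Val p ρbar x = X := ⟨Ad0.mk p ρbar X hX, rfl⟩

lemma exists_adVal_eq (X : Module.End k ρbar.V) :
    ∃ x : (adRep p ρbar).V, adVal p ρbar x = X := ⟨Ad.ofEnd p ρbar X, rfl⟩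

@[simp] lemma adVal_ρ (g : GQ') (x : (adRep p ρbar).V) :
    adVal p ρbar ((adRep p ρbar).ρ g x) = ρbar.ρ g * adVal p ρbar x * ρbar.ρ g⁻¹ := rfl

@[simp] lemma ad0Val_ρ (g : GQ') (x : (ad0Rep p ρbar).V) :
    ad0Val p ρbar ((ad0Rep p ρbar).ρ g x) = ρbar.ρ g * ad0Val p ρbar x * ρbar.ρ g⁻¹ := rfl

/-- the inclusion `ad⁰ ⊆ End` as a morphism of representations -/
def ad0Incl : ad0Rep p ρbar ⟶ adRep p ρbar :=
  Rep.ofHom ⟨AddMonoidHom.toZModLinearMap p
    ((Ad.ofEnd p ρbar).comp (Ad0.toEnd p ρbar)), fun _ => rfl⟩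

@[simp] lemma adVal_ad0Incl (x : (ad0Rep p ρbar).V) :
    adVal p ρbar ((ad0Incl p ρbar).hom x) = ad0Val p ρbar x := rfl

end Fermat.Agent.TW.S

end
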