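/-
TW-S (S56, from deformations to Selmer classes) — CORE DEFINITIONS.
Sub-captain: helper54.  Project TW (captain helper63), plan NOTES/S56-plan.md §2, NOTES/TW-S.md.

`k = ResidueField 𝒪` of characteristic `p`, `ρbar : ResidualGaloisRep k`, `D : S53.RigidDatum 𝒪 ρbar`
(a basis `D.b` of `V̄` and the matrix form `D.ρm` of `ρ̄`; exists by `S53` (Burnside) when `ρ̄` is
absolutely irreducible).

* `adMat p D x`       : the matrix of `x ∈ End_k V̄` in the basis `D.b`;
* `liftMat p D c σ`   : the matrix `(1 + ε c(σ)) ρ̄(σ)` over `k[ε]`;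
* `IsCocOf p D ρ c`   : the deformation `ρ` over `k[ε]` is equivalent to the matrix representation
                         `σ ↦ (1 + ε c(σ)) ρ̄(σ)`   (THE dictionary deformation ↔ cocycle);
* `locRep q A`        : the restriction of a `G_ℚ`-representation to `G_{ℚ_q}` (along
                         `localGaloisToGlobal q`), a `Rep` of `GQq q`;
* `IsOrdLine`, `ordSub`: the ordinary line of `ρ̄` at `p` and `N = Hom(V̄/L̄, L̄) ⊆ ad⁰`.
-/
import Fermat.Agent.TW.S.Ad
import Fermat.Agent.TW.L.Plan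
import Fermat.Agent.S53.Matrix

set_option autoImplicit false
set_option linter.unusedSectionVars false

noncomputable section

namespace Fermat.Agent.TW.S

open CategoryTheory groupCohomology IsLocalRing
open Fermat.Agent.PT Fermat.Agent.PT.B Fermat.Agent.S53 ExtCitation

section Cocycle

variable {𝒪 : Type} [CommRing 𝒪] [IsLocalRing 𝒪] (p : ℕ) [Fact p.Prime]
  [CharP (ResidueField 𝒪) p] {ρbar : ResidualGaloisRep (ResidueField 𝒪)}
  (D : RigidDatum 𝒪 ρbar)

/-- The matrix of an element of `End_k V̄` (as an element of `adRep`) in the basis `D.b`. -/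
def adMat (x : (adRep p ρbar).V) : M2 (ResidueField 𝒪) :=
  LinearMap.toMatrix D.b D.b (adVal p ρbar x)

/-- The matrix `(1 + ε c(σ)) ρ̄(σ)` over the dual numbers. -/
def liftMat (c : GQ → (adRep p ρbar).V) (σ : GQ) : M2 (DualNumber (ResidueField 𝒪)) :=
  (D.ρm σ).map (TrivSqZeroExt.inl : ResidueField 𝒪 → DualNumber (ResidueField 𝒪)) +
    (adMat p D (c σ) * D.ρm σ).map
      (TrivSqZeroExt.inr : ResidueField 𝒪 → DualNumber (ResidueField 𝒪))

/-- **`c` is a cocycle of the deformation `ρ`**: `ρ` is equivalent to the matrix representation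
`σ ↦ (1 + ε c(σ)) ρ̄(σ)` (matrices in the basis `D.b`). -/
def IsCocOf (ρ : GaloisRepAdic (DualNumber (ResidueField 𝒪))) (c : GQ → (adRep p ρbar).V) :
    Prop :=
  ∃ (r : Gal →* M2 (DualNumber (ResidueField 𝒪))) (hr : MatCont (DualNumber (ResidueField 𝒪)) r),
    ρ.IsEquiv (ofMatrix r hr) ∧ ∀ σ, r σ = liftMat p D c σ

end Cocycle

section Local

variable {R : Type} [CommRing R] (q : ℕ) [Fact q.Prime]

/-- The restriction of a representation of `G_ℚ` to `G_{ℚ_q}`. -/
abbrev locRep (A : Rep.{0} R GQ) : Rep.{0} R (GQq q) := Rep.res (localGaloisToGlobal q) A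

/-- The restriction of a function on `G_ℚ` to `G_{ℚ_q}`. -/
def locFun {X : Type*} (c : GQ → X) : GQq q → X := fun τ => c (localGaloisToGlobal q τ)

end Local

section Ord

variable {k : Type} [Field k] (p : ℕ) [Fact p.Prime] [CharP k p] (ρbar : ResidualGaloisRep k)

/-- `Lbar` is an ordinary line of `ρ̄` at the place `padicPlace p`: a line, stable under the
decomposition group, with trivial action of inertia on the quotient. -/
def IsOrdLine (Lbar : Submodule k ρbar.V) : Prop :=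
  Module.finrank k Lbar = 1 ∧
  (∀ σ ∈ (padicPlace p).decompositionSubgroup ℚ, ∀ v ∈ Lbar, ρbar.ρ σ v ∈ Lbar) ∧
  (∀ σ ∈ (padicPlace p).inertiaSubgroupIn ℚ, ∀ v : ρbar.V, ρbar.ρ σ v - v ∈ Lbar)

/-- `N = Hom(V̄/L̄, L̄)`: the endomorphisms with image in `L̄` which kill `L̄`, as a subgroup of
`ad⁰`. -/
def ordSub (Lbar : Submodule k ρbar.V) : Submodule (ZMod p) (ad0Rep p ρbar).V where
  carrier := {x | (∀ v : ρbar.V, ad0Val p ρbar x v ∈ Lbar) ∧ ∀ v ∈ Lbar, ad0Val p ρbar x v = 0}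
  add_mem' := by
    rintro x y ⟨h1, h2⟩ ⟨h1', h2'⟩
    refine ⟨fun v => ?_, fun v hv => ?_⟩
    · rw [map_add, LinearMap.add_apply]
      exact Lbar.add_mem (h1 v) (h1' v)
    · rw [map_add, LinearMap.add_apply, h2 v hv, h2' v hv, add_zero]
  zero_mem' := by
    refine ⟨fun v => ?_, fun v _ => ?_⟩
    · rw [map_zero, LinearMap.zero_apply]
      exact Lbar.zero_mem
    · rw [map_zero, LinearMap.zero_apply]
  smul_mem' := by
    rintro a x ⟨h1, h2⟩
    have ha : a • x = a.val • x := by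
      conv_lhs => rw [← ZMod.natCast_zmod_val a]
      exact Nat.cast_smul_eq_nsmul (ZMod p) a.val x
    refine ⟨fun v => ?_, fun v hv => ?_⟩
    · rw [ha, map_nsmul, LinearMap.smul_apply]
      exact Lbar.nsmul_mem (h1 v) _
    · rw [ha, map_nsmul, LinearMap.smul_apply, h2 v hv, smul_zero]

lemma mem_ordSub (Lbar : Submodule k ρbar.V) (x : (ad0Rep p ρbar).V) :
    x ∈ ordSub p ρbar Lbar ↔
      (∀ v : ρbar.V, ad0Val p ρbar x v ∈ Lbar) ∧ ∀ v ∈ Lbar, ad0Val p ρbar x v = 0 := Iff.rfl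

/-- The level cocycles of `G_{ℚ_q}` with values in `N = ordSub` (used for `q = p`). -/
def ordCocycles (Lbar : Submodule k ρbar.V) (q : ℕ) [Fact q.Prime] :
    Submodule (ZMod p) (cocycles₁ (locRep q (ad0Rep p ρbar))) where
  carrier := {c | IsLevel₁ (towerLoc q) (c : GQq q → (ad0Rep p ρbar).V) ∧
    ∀ τ, (c : GQq q → (ad0Rep p ρbar).V) τ ∈ ordSub p ρbar Lbar}
  add_mem' := by
    rintro c c' ⟨h1, h2⟩ ⟨h1', h2'⟩
    exact ⟨h1.add h1', fun τ => (ordSub p ρbar Lbar).add_mem (h2 τ) (h2' τ)⟩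
  zero_mem' := ⟨isLevel₁_const (towerLoc q) (0 : (ad0Rep p ρbar).V),
    fun _ => (ordSub p ρbar Lbar).zero_mem⟩
  smul_mem' := by
    rintro a c ⟨h1, h2⟩
    exact ⟨(h1.comp (a • ·) :), fun τ => (ordSub p ρbar Lbar).smul_mem a (h2 τ)⟩

/-- **The ordinary local condition** `L_p^{ord} ⊆ H¹(G_p, ad⁰)`: the classes of level cocycles with
values in `N = Hom(V̄/L̄, L̄)`.  (Stated at any prime `q`; used for `q = p`.) -/
def ordH1 (Lbar : Submodule k ρbar.V) (q : ℕ) [Fact q.Prime] :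
    Submodule (ZMod p) (H1 (locRep q (ad0Rep p ρbar))) :=
  (ordCocycles p ρbar Lbar q).map (H1π (locRep q (ad0Rep p ρbar))).hom

lemma mem_ordH1 (Lbar : Submodule k ρbar.V) (q : ℕ) [Fact q.Prime]
    (x : H1 (locRep q (ad0Rep p ρbar))) :
    x ∈ ordH1 p ρbar Lbar q ↔ ∃ c : cocycles₁ (locRep q (ad0Rep p ρbar)),
      IsLevel₁ (towerLoc q) (c : GQq q → (ad0Rep p ρbar).V) ∧
      (∀ τ, (c : GQq q → (ad0Rep p ρbar).V) τ ∈ ordSub p ρbar Lbar) ∧
      (H1π (locRep q (ad0Rep p ρbar))).hom c = x := by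
  simp only [ordH1, Submodule.mem_map]
  constructor
  · rintro ⟨c, ⟨h1, h2⟩, h3⟩
    exact ⟨c, h1, h2, h3⟩
  · rintro ⟨c, h1, h2, h3⟩
    exact ⟨c, ⟨h1, h2⟩, h3⟩

end Ord

end Fermat.Agent.TW.S

end
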