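/-
TW-S (S56, from deformations to Selmer classes) — INTERFACE FILE of the sub-captain (helper54).
Project TW = Taylor–Wiles primes (S56), captain helper63, plan NOTES/S56-plan.md §2; piece table
NOTES/TW-S.md.  Definitions and statements only.

Every `Stmt…` below is a `Prop`; the piece `X` is DONE when `theorem stmtX : StmtX` (or
`stmtX_of : deps → StmtX`) is landed, sorry-free, in its own file `Fermat/Agent/TW/S/<File>.lean`,
namespace `Fermat.Agent.TW.S`, private names prefixed by the piece id.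

THE DICTIONARY (TW/S/Defs.lean): `IsCocOf p D ρ c` — the deformation `ρ` of `ρ̄` to `k[ε]` is
equivalent to the matrix representation `σ ↦ (1 + ε c(σ)) ρ̄(σ)`, `c : G_ℚ → End_k V̄ = adRep`.
-/
import Fermat.Agent.TW.S.Defs
import Fermat.Agent.TW.L.Plan2
import Fermat.Agent.TW.Tan
import Fermat.Agent.PT.B.Concrete
import Fermat.Prelude.Def_GaloisRep_StrictOrdinary
import Fermat.Prelude.Def_GaloisRep_Flat

set_option autoImplicit false
set_option linter.unusedSectionVars false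

noncomputable section

namespace Fermat.Agent.TW.S

open CategoryTheory groupCohomology IsLocalRing
open Fermat.Agent.PT Fermat.Agent.PT.B Fermat.Agent.S53 Fermat.Agent.TW.L ExtCitation

/-! ### Global dictionary -/

/-- **S-frame**: every deformation of `ρ̄` to `k[ε]` has a cocycle.
(`S53.exists_framed_of_residual_isEquiv`; `c(σ) := ε-part of r(σ) · ρ̄(σ)⁻¹`.) -/
def StmtFrame : Prop :=
  ∀ (𝒪 : Type) [CommRing 𝒪] [IsLocalRing 𝒪] (p : ℕ) [Fact p.Prime] [CharP (ResidueField 𝒪) p]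
    (ρbar : ResidualGaloisRep (ResidueField 𝒪)) (D : RigidDatum 𝒪 ρbar)
    (ρ : GaloisRepAdic (DualNumber (ResidueField 𝒪))),
    (letI : Algebra (ResidueField 𝒪) (ResidueField (DualNumber (ResidueField 𝒪))) := dnResAlg 𝒪
     ρ.residual.IsEquiv (ρbar.baseChange (ResidueField (DualNumber (ResidueField 𝒪))))) →
    ∃ c : GQ → (adRep p ρbar).V, IsCocOf p D ρ c

/-- **S-coc**: a cocycle of a deformation is a 1-cocycle of `G_ℚ` with values in `End_k V̄`
(conjugation action), constant modulo `Gal(ℚ̄/F)` for some finite `F/ℚ`.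
(`r(gh) = r(g) r(h)`; `MatCont` with `n = 2`, `𝔪² = 0` in `k[ε]`.) -/
def StmtCoc : Prop :=
  ∀ (𝒪 : Type) [CommRing 𝒪] [IsLocalRing 𝒪] (p : ℕ) [Fact p.Prime] [CharP (ResidueField 𝒪) p]
    (ρbar : ResidualGaloisRep (ResidueField 𝒪)) (D : RigidDatum 𝒪 ρbar)
    (ρ : GaloisRepAdic (DualNumber (ResidueField 𝒪))) (c : GQ → (adRep p ρbar).V),
    IsCocOf p D ρ c →
    (∀ g h : GQ, c (g * h) = (adRep p ρbar).ρ g (c h) + c g) ∧
      ∃ F : QbarField, FiniteDimensional ℚ F ∧ ∀ g s : GQ, s ∈ F.fixingSubgroup → c (g * s) = c g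

/-- **S-unr**: where the deformation is trivial, so are `ρ̄` and the cocycle. -/
def StmtUnr : Prop :=
  ∀ (𝒪 : Type) [CommRing 𝒪] [IsLocalRing 𝒪] (p : ℕ) [Fact p.Prime] [CharP (ResidueField 𝒪) p]
    (ρbar : ResidualGaloisRep (ResidueField 𝒪)) (D : RigidDatum 𝒪 ρbar)
    (ρ : GaloisRepAdic (DualNumber (ResidueField 𝒪))) (c : GQ → (adRep p ρbar).V),
    IsCocOf p D ρ c → ∀ σ : GQ, ρ.ρ σ = 1 → ρbar.ρ σ = 1 ∧ c σ = 0

/-- **S-trace**: if the determinant of the deformation is cyclotomic, the cocycle has trace `0`.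
(`det((1 + εc)ρ̄) = det ρ̄ · (1 + ε tr c)` and `det ρ(σ) = a ∈ 𝔽_p`: `p = 0` in `k[ε]`, so
`(p^1) = 0`; every `σ` acts on `μ_p` by some `a`-th power.) -/
def StmtTrace : Prop :=
  ∀ (𝒪 : Type) [CommRing 𝒪] [IsLocalRing 𝒪] (p : ℕ) [Fact p.Prime] [CharP (ResidueField 𝒪) p]
    (ρbar : ResidualGaloisRep (ResidueField 𝒪)) (D : RigidDatum 𝒪 ρbar)
    (ρ : GaloisRepAdic (DualNumber (ResidueField 𝒪))) (c : GQ → (adRep p ρbar).V),
    IsCocOf p D ρ c → ρ.DetIsCyclotomic p →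
    ∀ σ : GQ, LinearMap.trace (ResidueField 𝒪) ρbar.V (adVal p ρbar (c σ)) = 0

/-- **S-iso**: cohomologous cocycles belong to equivalent deformations.
(Conjugate by `1 + εX`.) -/
def StmtIso : Prop :=
  ∀ (𝒪 : Type) [CommRing 𝒪] [IsLocalRing 𝒪] (p : ℕ) [Fact p.Prime] [CharP (ResidueField 𝒪) p]
    (ρbar : ResidualGaloisRep (ResidueField 𝒪)) (D : RigidDatum 𝒪 ρbar)
    (ρ ρ' : GaloisRepAdic (DualNumber (ResidueField 𝒪))) (c c' : GQ → (adRep p ρbar).V),
    IsCocOf p D ρ c → IsCocOf p D ρ' c' →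
    (∃ x : (adRep p ρbar).V, ∀ σ : GQ, c σ - c' σ = (adRep p ρbar).ρ σ x - x) →
    ρ.IsEquiv ρ'

/-- **S-lev**: the cocycle of a deformation unramified outside `T` is constant modulo a level of
the tower `towerS T`.  (`PT.B.stmtKernelField` for the `k`-representation `V_ρ`, then S-unr and
the cocycle identity.) -/
def StmtLev : Prop :=
  ∀ (𝒪 : Type) [CommRing 𝒪] [IsLocalRing 𝒪] (p : ℕ) [Fact p.Prime] [CharP (ResidueField 𝒪) p]
    [Finite (ResidueField 𝒪)]
    (ρbar : ResidualGaloisRep (ResidueField 𝒪)) (D : RigidDatum 𝒪 ρbar)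
    (ρ : GaloisRepAdic (DualNumber (ResidueField 𝒪))) (c : GQ → (adRep p ρbar).V)
    (T : Finset Nat.Primes),
    IsCocOf p D ρ c → (∀ q : Nat.Primes, q ∉ T → ρ.IsUnramifiedAt (q : ℕ)) →
    IsLevel₁ (towerS T) c

/-! ### Local conditions -/

/-- **S-min**: at `v ≠ p` where `ρ̄` is ramified, the cocycle of a deformation which is unipotent
on inertia is a coboundary on inertia: `c(τ) = τ·x - x` for `τ ∈ I_v`, with one `x ∈ ad⁰`.
(The image of `I_v` under `ρ` has exponent `p` (`(u - 1)² = 0`), so it is generated by `u = ρ(t)`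
(`TW.L.StmtTameGrp`); `ρ̄(t) = 1 + N`, `N ≠ 0`, `N² = 0`; `tr(c(t)) = 0 = tr(c(t) ρ̄(t))` gives
`c(t) = (a b; 0 -a)` in a basis with `N = (0 1; 0 0)`, which is `t·x - x`; then the cocycle
identity.) -/
def StmtMin : Prop :=
  ∀ (𝒪 : Type) [CommRing 𝒪] [IsLocalRing 𝒪] (p : ℕ) [Fact p.Prime] [CharP (ResidueField 𝒪) p]
    (ρbar : ResidualGaloisRep (ResidueField 𝒪)) (D : RigidDatum 𝒪 ρbar)
    (ρ : GaloisRepAdic (DualNumber (ResidueField 𝒪))) (c : GQ → (adRep p ρbar).V)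
    (v : ℕ) [Fact v.Prime], p ≠ 2 → v ≠ p →
    IsCocOf p D ρ c →
    (∀ σ : GQ, LinearMap.trace (ResidueField 𝒪) ρbar.V (adVal p ρbar (c σ)) = 0) →
    (∀ σ ∈ (padicPlace v).inertiaSubgroupIn ℚ,
      LinearMap.charpoly (ρ.ρ σ) = (Polynomial.X - 1) ^ 2) →
    (∃ σ ∈ (padicPlace v).inertiaSubgroupIn ℚ, ρbar.ρ σ ≠ 1) →
    ∃ x : (ad0Rep p ρbar).V, ∀ τ ∈ inertiaQ v,
      c (localGaloisToGlobal v τ) =
        (adRep p ρbar).ρ (localGaloisToGlobal v τ) ((ad0Incl p ρbar).hom x) -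
          (ad0Incl p ρbar).hom x

/-- **S-conj**: ramification of `ρ̄` at `v` is seen at the place `padicPlace v`.
(All places over `v` are conjugate, inertia groups are conjugate.) -/
def StmtConj : Prop :=
  ∀ (k : Type) [Field k] (ρbar : ResidualGaloisRep k) (v : ℕ) [Fact v.Prime],
    ¬ ρbar.IsUnramifiedAt v → ∃ σ ∈ (padicPlace v).inertiaSubgroupIn ℚ, ρbar.ρ σ ≠ 1

/-- **S-cycram**: the mod `p` cyclotomic character is ramified at `p` (`p` odd). -/
def StmtCycloRam : Prop :=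
  ∀ (p : ℕ) [Fact p.Prime], p ≠ 2 →
    ∃ σ ∈ (padicPlace p).inertiaSubgroupIn ℚ, cycloChar p σ ≠ 1

/-- **S-line**: the ordinary line of `ρ̄` at `p` is unique when `det ρ̄` is cyclotomic.
(Two lines ⇒ inertia acts trivially on `V̄` ⇒ `χ̄|_I = 1`, against S-cycram.) -/
def StmtLine : Prop :=
  ∀ (p : ℕ) [Fact p.Prime], p ≠ 2 → ∀ (k : Type) [Field k] [CharP k p]
    (ρbar : ResidualGaloisRep k),
    (GaloisRepAdic.ofResidualGaloisRep ρbar).DetIsCyclotomic p →
    ∀ L₁ L₂ : Submodule k ρbar.V, IsOrdLine p ρbar L₁ → IsOrdLine p ρbar L₂ → L₁ = L₂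

/-- **S-ord**: the cocycle of a strictly ordinary deformation with cyclotomic determinant is, on
`G_{ℚ_p}`, cohomologous to a cocycle with values in `N = Hom(V̄/L̄, L̄)`: there is `x ∈ ad⁰`
with `c(τ) - (τ·x - x) ∈ N` for all `τ ∈ G_{ℚ_p}`.
(In a basis adapted to the line `L ⊂ V_ρ`: `ρ(σ) = (χ̄ z, *; 0, z)` on `D_p`, and
`x = a z`, `x z = a` give `z² = 1`, so `z ∈ {±1} ⊂ k`, `x ∈ k`; the line `L` reduces to `L̄`
(S-line); move `L` to the constant line by `1 + εX`.) -/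
def StmtOrd : Prop :=
  ∀ (𝒪 : Type) [CommRing 𝒪] [IsLocalRing 𝒪] (p : ℕ) [Fact p.Prime] [CharP (ResidueField 𝒪) p]
    (ρbar : ResidualGaloisRep (ResidueField 𝒪)) (D : RigidDatum 𝒪 ρbar)
    (ρ : GaloisRepAdic (DualNumber (ResidueField 𝒪))) (c : GQ → (adRep p ρbar).V)
    (Lbar : Submodule (ResidueField 𝒪) ρbar.V), p ≠ 2 →
    IsCocOf p D ρ c → ρ.DetIsCyclotomic p → ρ.IsStrictOrdinaryAt p → IsOrdLine p ρbar Lbar →
    ∃ x : (ad0Rep p ρbar).V, ∀ τ : GQq p, ∃ n ∈ ordSub p ρbar Lbar,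
      c (localGaloisToGlobal p τ) =
        (adRep p ρbar).ρ (localGaloisToGlobal p τ) ((ad0Incl p ρbar).hom x) -
          (ad0Incl p ρbar).hom x + (ad0Incl p ρbar).hom n

/-- **S-res** (ordinary part of TW-res): if a strictly ordinary deformation with cyclotomic
determinant exists, `ρ̄` has an ordinary line at `p`. -/
def StmtResOrd : Prop :=
  ∀ (𝒪 : Type) [CommRing 𝒪] [IsLocalRing 𝒪] (p : ℕ) [Fact p.Prime] [CharP (ResidueField 𝒪) p]
    (ρbar : ResidualGaloisRep (ResidueField 𝒪))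
    (ρ : GaloisRepAdic (DualNumber (ResidueField 𝒪))),
    (letI : Algebra (ResidueField 𝒪) (ResidueField (DualNumber (ResidueField 𝒪))) := dnResAlg 𝒪
     ρ.residual.IsEquiv (ρbar.baseChange (ResidueField (DualNumber (ResidueField 𝒪))))) →
    ρ.IsStrictOrdinaryAt p → ∃ Lbar : Submodule (ResidueField 𝒪) ρbar.V, IsOrdLine p ρbar Lbar

/-- **S-tow** (change of tower): a level class for the big tower `towerS T'` of a representation
which is trivial on a level of the small tower `towerS T`, and which is unramified at the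
primes of `T' ∖ T`, is a level class for `towerS T`.
(`U := {g ∈ G_K | c(g) = 0}` is normal in `G_ℚ`, of finite index, and contains the inertia groups
at all places outside `T`; `PT.B.isTowerField_fixedField_of_normal`.) -/
def StmtTow : Prop :=
  ∀ (p : ℕ) [Fact p.Prime] (T T' : Finset Nat.Primes), T ⊆ T' →
    ∀ (A : Rep.{0} (ZMod p) GQ) [FiniteDimensional (ZMod p) A],
    (∃ U ∈ (towerS T).lev, ∀ s ∈ U, A.ρ s = 1) →
    ∀ x ∈ levH1 (towerS T') A,
    (∀ q : Nat.Primes, q ∈ T' → q ∉ T →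
      letI : Fact ((q : Nat.Primes) : ℕ).Prime := ⟨q.2⟩
      (groupCohomology.map (localGaloisToGlobal (q : ℕ)) (𝟙 (locRep (q : ℕ) A)) 1).hom x ∈
        unrH1 (q : ℕ) (locRep (q : ℕ) A)) →
    x ∈ levH1 (towerS T) A

/-! ### The Selmer group and the count -/

section Selmer

variable (p : ℕ) [Fact p.Prime] {k : Type} [Field k] [CharP k p] (ρbar : ResidualGaloisRep k)

/-- The primes of a finite set of natural numbers. -/
def primesOf (T : Finset ℕ) : Finset Nat.Primes := T.subtype Nat.Prime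

/-- The local condition at a prime `q`, for a given condition `Lp` at `p`:
`Lp` at `q = p`; unramified classes at `q ∈ Smin`, `q ≠ p`; all level classes otherwise. -/
def locCond (Smin : Finset ℕ)
    (Lp : Submodule (ZMod p) (H1 (locRep p (ad0Rep p ρbar)))) (q : ℕ) [Fact q.Prime] :
    Submodule (ZMod p) (H1 (locRep q (ad0Rep p ρbar))) :=
  open Classical in
  if h : q = p then
    (by subst h; exact Lp)
  else if q ∈ Smin then unrH1 q (locRep q (ad0Rep p ρbar))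
  else levH1 (towerLoc q) (locRep q (ad0Rep p ρbar))

lemma locCond_self (Smin : Finset ℕ)
    (Lp : Submodule (ZMod p) (H1 (locRep p (ad0Rep p ρbar)))) :
    locCond p ρbar Smin Lp p = Lp := by
  unfold locCond
  rw [dif_pos rfl]

lemma locCond_of_mem (Smin : Finset ℕ)
    (Lp : Submodule (ZMod p) (H1 (locRep p (ad0Rep p ρbar)))) (q : ℕ) [Fact q.Prime]
    (hq : q ≠ p) (hmem : q ∈ Smin) :
    locCond p ρbar Smin Lp q = unrH1 q (locRep q (ad0Rep p ρbar)) := by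
  unfold locCond
  rw [dif_neg hq, if_pos hmem]

lemma locCond_of_not_mem (Smin : Finset ℕ)
    (Lp : Submodule (ZMod p) (H1 (locRep p (ad0Rep p ρbar)))) (q : ℕ) [Fact q.Prime]
    (hq : q ≠ p) (hmem : q ∉ Smin) :
    locCond p ρbar Smin Lp q = levH1 (towerLoc q) (locRep q (ad0Rep p ρbar)) := by
  unfold locCond
  rw [dif_neg hq, if_neg hmem]

/-- The Selmer structure on the concrete datum for `T`. -/
def selCond (Smin : Finset ℕ) (Lp : Submodule (ZMod p) (H1 (locRep p (ad0Rep p ρbar))))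
    (T : Finset Nat.Primes) :
    ∀ v : ↥T, Submodule (ZMod p) (H1 (Rep.res (rS T v) (ad0Rep p ρbar))) := fun v =>
  letI : Fact ((v : Nat.Primes) : ℕ).Prime := ⟨(v : Nat.Primes).2⟩
  locCond p ρbar Smin Lp ((v : Nat.Primes) : ℕ)

/-- **The Selmer group** `Sel ⊆ H¹(G_ℚ, ad⁰)`: level classes for `towerS T` with the local
conditions `selCond`. -/
def selGroup (Smin : Finset ℕ) (Lp : Submodule (ZMod p) (H1 (locRep p (ad0Rep p ρbar))))
    (T : Finset Nat.Primes) : Submodule (ZMod p) (H1 (ad0Rep p ρbar)) :=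
  levH1 (towerS T) (ad0Rep p ρbar) ⊓
    groupCohomology.selmer (rS T) (ad0Rep p ρbar) (selCond p ρbar Smin Lp T)

end Selmer

/-- The ordinary deformation condition of S56 for the set `Smin ∪ Q`. -/
def condOrd (𝒪 : Type) [CommRing 𝒪] (p : ℕ) (Smin Q : Finset ℕ) :
    ∀ ⦃A : Type⦄ [CommRing A] [IsLocalRing A] [Algebra 𝒪 A], GaloisRepAdic A → Prop :=
  fun _A _ _ _ ρ => GaloisRep.strictOrdinaryCondition 𝒪 p (Smin ∪ Q) ρ ∧
    ∀ q ∈ Smin, q.Prime → q ≠ p → ρ.IsUnipotentOnInertiaAt q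

/-- The flat deformation condition of S56 for the set `Smin ∪ Q`. -/
def condFlat (𝒪 : Type) [CommRing 𝒪] (p : ℕ) (Smin Q : Finset ℕ) :
    ∀ ⦃A : Type⦄ [CommRing A] [IsLocalRing A] [Algebra 𝒪 A], GaloisRepAdic A → Prop :=
  fun _A _ _ _ ρ => GaloisRep.flatCondition 𝒪 p (Smin ∪ Q) ρ ∧
    ∀ q ∈ Smin, q.Prime → q ≠ p → ρ.IsUnipotentOnInertiaAt q

/-- **S-asm (ord)**: the number of pairwise inequivalent strictly ordinary deformations of type
`Smin ∪ Q` is at most the order of the Selmer group with the ordinary condition at `p`.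
(S-frame, S-coc, S-trace, S-lev, S-min, S-conj, S-ord give a class in `selGroup`; S-iso gives
injectivity.) -/
def StmtSelCardOrd : Prop :=
  ∀ (𝒪 : Type) [CommRing 𝒪] [IsDomain 𝒪] [IsDiscreteValuationRing 𝒪]
    [IsAdicComplete (maximalIdeal 𝒪) 𝒪] (p : ℕ) [Fact p.Prime] [CharP (ResidueField 𝒪) p]
    [Finite (ResidueField 𝒪)]
    (ρbar : ResidualGaloisRep (ResidueField 𝒪)), p ≠ 2 → ρbar.IsAbsolutelyIrreducible →
    ∀ (Smin Q : Finset ℕ), p ∈ Smin →
    (∀ q : ℕ, q.Prime → q ≠ p → (q ∈ Smin ↔ ¬ ρbar.IsUnramifiedAt q)) →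
    ∀ (Lbar : Submodule (ResidueField 𝒪) ρbar.V), IsOrdLine p ρbar Lbar →
    Finite ↥(selGroup p ρbar Smin (ordH1 p ρbar Lbar p) (primesOf (Smin ∪ Q))) →
    TwTanCard 𝒪 ρbar (condOrd 𝒪 p Smin Q)
      (Nat.card ↥(selGroup p ρbar Smin (ordH1 p ρbar Lbar p) (primesOf (Smin ∪ Q))))

/-- **S-asm (flat)**: the same for the flat condition, for ANY subspace `Lp ⊆ H¹(G_p, ad⁰)` which
contains the classes of the flat deformations (hypothesis `hflat`, to be supplied by TW-W). -/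
def StmtSelCardFlat : Prop :=
  ∀ (𝒪 : Type) [CommRing 𝒪] [IsDomain 𝒪] [IsDiscreteValuationRing 𝒪]
    [IsAdicComplete (maximalIdeal 𝒪) 𝒪] (p : ℕ) [Fact p.Prime] [CharP (ResidueField 𝒪) p]
    [Finite (ResidueField 𝒪)]
    (ρbar : ResidualGaloisRep (ResidueField 𝒪)) (D : RigidDatum 𝒪 ρbar), p ≠ 2 →
    ∀ (Smin Q : Finset ℕ), p ∈ Smin →
    (∀ q : ℕ, q.Prime → q ≠ p → (q ∈ Smin ↔ ¬ ρbar.IsUnramifiedAt q)) →
    ∀ (Lp : Submodule (ZMod p) (H1 (locRep p (ad0Rep p ρbar)))),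
    (∀ (ρ : GaloisRepAdic (DualNumber (ResidueField 𝒪))) (c : cocycles₁ (ad0Rep p ρbar)),
      IsCocOf p D ρ (fun σ => (ad0Incl p ρbar).hom ((c : GQ → (ad0Rep p ρbar).V) σ)) →
      ρ.DetIsCyclotomic p → ρ.IsFlatAt p →
      (groupCohomology.map (localGaloisToGlobal p) (𝟙 (locRep p (ad0Rep p ρbar))) 1).hom
        ((H1π (ad0Rep p ρbar)).hom c) ∈ Lp) →
    Finite ↥(selGroup p ρbar Smin Lp (primesOf (Smin ∪ Q))) →
    TwTanCard 𝒪 ρbar (condFlat 𝒪 p Smin Q)
      (Nat.card ↥(selGroup p ρbar Smin Lp (primesOf (Smin ∪ Q))))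

end Fermat.Agent.TW.S

end
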