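/-
TW-S piece S-cycram (helper87): the mod `p` cyclotomic character is ramified at `p` (`p` odd).

`stmtCycloRam : StmtCycloRam`: there is `σ` in the inertia group of `padicPlace p` with
`χ̄(σ) ≠ 1`.

Proof.  `σ₂` with `σ₂ ζ = ζ²` (irreducibility of the cyclotomic polynomial).  The integers of
`ℚ(ζ)` are `ℤ[ζ]` (Mathlib), and `ζ ≡ 1` modulo the maximal ideal of any place over `p`, so
`σ₂ x ≡ x` for every integer `x` of `ℚ(ζ)`; by the inertia lifting lemma
(`Common.exists_mem_inertiaSubgroupIn_of_congr`) some `σ'` in the inertia group agrees with `σ₂`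
on `ℚ(ζ)`.
-/
import Fermat.Agent.TW.S.Plan
import Fermat.Agent.TW.L.FrobExists
import Fermat.Agent.TW.L.GlobAdTwist
import Fermat.Agent.Common.InertiaLift

set_option autoImplicit false
set_option linter.style.haveILetI false

noncomputable section

namespace Fermat.Agent.TW.S

open Polynomial ExtCitation Fermat.Agent.TW.L

/-- A `p`-th root of unity is `≡ 1` modulo the maximal ideal of a place over `p`. -/
theorem scyc_sub_one_mem_nonunits (p : ℕ) [hp : Fact p.Prime]
    (A : ValuationSubring (AlgebraicClosure ℚ)) (hA : A.LiesOverPrime p)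
    {ζ : AlgebraicClosure ℚ} (hζ : ζ ^ p = 1) : ζ - 1 ∈ A.nonunits := by
  -- `ζ ∈ A`
  have hζA : ζ ∈ A := by
    rcases A.mem_or_inv_mem ζ with h | h
    · exact h
    · have hζ0 : ζ ≠ 0 := by
        rintro rfl
        rw [zero_pow hp.out.ne_zero] at hζ
        exact zero_ne_one hζ
      have h1 : ζ = ζ⁻¹ ^ (p - 1) := by
        have : ζ * ζ ^ (p - 1) = 1 := by
          rw [← pow_succ', Nat.sub_add_cancel hp.out.one_le, hζ]
        rw [inv_pow]
        exact eq_inv_of_mul_eq_one_left this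
      rw [h1]
      exact pow_mem h _
  -- the residue field has characteristic `p`
  have hp0 : IsLocalRing.residue A (p : A) = 0 := by
    rw [IsLocalRing.residue_eq_zero_iff]
    obtain ⟨hmem, hmax⟩ := (A.mem_nonunits_iff_exists_mem_maximalIdeal).mp hA
    have : (⟨(p : AlgebraicClosure ℚ), hmem⟩ : A) = (p : A) := Subtype.ext (by simp)
    rwa [this] at hmax
  haveI : CharP (IsLocalRing.ResidueField A) p := by
    rw [CharP.charP_iff_prime_eq_zero hp.out]
    simpa using hp0
  set z : A := ⟨ζ, hζA⟩ with hz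
  have hzp : z ^ p = 1 := Subtype.ext (by simpa [hz] using hζ)
  have h1 : (IsLocalRing.residue A z - 1) ^ p = 0 := by
    rw [sub_pow_char, one_pow, ← map_pow, hzp, map_one, sub_self]
  have h2 : IsLocalRing.residue A (z - 1) = 0 := by
    rw [map_sub, map_one]
    exact pow_eq_zero_iff (hp.out.ne_zero) |>.mp h1
  rw [IsLocalRing.residue_eq_zero_iff] at h2
  rw [A.mem_nonunits_iff_exists_mem_maximalIdeal]
  exact ⟨sub_mem hζA (one_mem A), h2⟩

/-- The elements `x ∈ A` with `σ x ≡ x` form a subring. -/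
def scycRing (A : ValuationSubring (AlgebraicClosure ℚ))
    (σ : AlgebraicClosure ℚ ≃ₐ[ℚ] AlgebraicClosure ℚ) : Subring (AlgebraicClosure ℚ) where
  carrier := {x | x ∈ A ∧ σ x - x ∈ A.nonunits}
  mul_mem' := by
    rintro x y ⟨hx, hx'⟩ ⟨hy, hy'⟩
    refine ⟨mul_mem hx hy, ?_⟩
    have hσx : σ x ∈ A := by
      have : σ x = x + (σ x - x) := by ring
      rw [this]
      exact add_mem hx (A.nonunits_le hx')
    have e : σ (x * y) - x * y = σ x * (σ y - y) + (σ x - x) * y := by
      rw [map_mul]; ring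
    rw [e, ValuationSubring.mem_nonunits_iff] at *
    refine lt_of_le_of_lt (A.valuation.map_add _ _) (max_lt ?_ ?_)
    · rw [map_mul]
      exact mul_lt_one_of_nonneg_of_lt_one_right ((A.valuation_le_one_iff _).mpr hσx)
        zero_le hy'
    · rw [map_mul]
      exact mul_lt_one_of_nonneg_of_lt_one_left zero_le hx'
        ((A.valuation_le_one_iff _).mpr hy)
  one_mem' := by
    refine ⟨one_mem A, ?_⟩
    rw [map_one, sub_self, ValuationSubring.mem_nonunits_iff, map_zero]
    exact zero_lt_one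
  add_mem' := by
    rintro x y ⟨hx, hx'⟩ ⟨hy, hy'⟩
    refine ⟨add_mem hx hy, ?_⟩
    have e : σ (x + y) - (x + y) = (σ x - x) + (σ y - y) := by
      rw [map_add]; ring
    rw [e, ValuationSubring.mem_nonunits_iff] at *
    exact lt_of_le_of_lt (A.valuation.map_add _ _) (max_lt hx' hy')
  zero_mem' := by
    refine ⟨zero_mem A, ?_⟩
    rw [map_zero, sub_self, ValuationSubring.mem_nonunits_iff, map_zero]
    exact zero_lt_one
  neg_mem' := by
    rintro x ⟨hx, hx'⟩
    refine ⟨neg_mem hx, ?_⟩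
    have e : σ (-x) - (-x) = -(σ x - x) := by
      rw [map_neg]; ring
    rw [e, ValuationSubring.mem_nonunits_iff, Valuation.map_neg] at *
    exact hx'

theorem scyc_intCast_mem (A : ValuationSubring (AlgebraicClosure ℚ))
    (σ : AlgebraicClosure ℚ ≃ₐ[ℚ] AlgebraicClosure ℚ) (n : ℤ) :
    (n : AlgebraicClosure ℚ) ∈ scycRing A σ := intCast_mem _ n

/-- **S-cycram**. -/
theorem stmtCycloRam : StmtCycloRam := by
  intro p _ hp2
  have hp : p.Prime := Fact.out
  haveI : NeZero p := ⟨hp.ne_zero⟩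
  haveI : NeZero (p : AlgebraicClosure ℚ) := ⟨Nat.cast_ne_zero.mpr hp.ne_zero⟩
  obtain ⟨ζ, hζ⟩ := HasEnoughRootsOfUnity.exists_primitiveRoot (AlgebraicClosure ℚ) p
  obtain ⟨σ, hσ⟩ := lglob1_exists_cycloChar_eq_two p hp2
  have h2p : 2 < p := lt_of_le_of_ne hp.two_le (Ne.symm hp2)
  have hspec : ∀ τ : AlgebraicClosure ℚ ≃ₐ[ℚ] AlgebraicClosure ℚ,
      τ ζ = ζ ^ ((cycloChar p τ : (ZMod p)ˣ) : ZMod p).val := by
    intro τ
    have h := modularCyclotomicCharacter.spec (AlgebraicClosure ℚ) (card_rootsOfUnity_eq_self p)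
      (τ : AlgebraicClosure ℚ ≃+* AlgebraicClosure ℚ)
      (t := hζ.toRootsOfUnity) (SetLike.coe_mem hζ.toRootsOfUnity)
    simpa [cycloChar] using h
  have hval2 : (2 : ZMod p).val = 2 := by
    have : ((2 : ℕ) : ZMod p).val = 2 := ZMod.val_natCast_of_lt h2p
    simpa using this
  have hσζ : σ ζ = ζ ^ 2 := by
    rw [hspec σ, hσ, hval2]
  have hA : (padicPlace p).LiesOverPrime p := lfrobex_liesOverPrime p
  -- `ζ` lies in the subring
  have h1 := scyc_sub_one_mem_nonunits p (padicPlace p) hA hζ.pow_eq_one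
  have hζA : ζ ∈ padicPlace p := by
    have : ζ = 1 + (ζ - 1) := by ring
    rw [this]
    exact add_mem (one_mem _) ((padicPlace p).nonunits_le h1)
  have hζB : ζ ∈ scycRing (padicPlace p) σ := by
    refine ⟨hζA, ?_⟩
    rw [hσζ]
    have e : ζ ^ 2 - ζ = ζ * (ζ - 1) := by ring
    rw [e, ValuationSubring.mem_nonunits_iff, map_mul]
    exact mul_lt_one_of_nonneg_of_lt_one_right
      (((padicPlace p).valuation_le_one_iff _).mpr hζA) zero_le
      (((padicPlace p).mem_nonunits_iff).mp h1)
  -- the cyclotomic field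
  haveI hnorm : Normal ℚ (AlgebraicClosure ℚ) := lglob1_qbar_normal
  haveI : Algebra.IsIntegral ℚ (AlgebraicClosure ℚ) := ⟨fun x => (hnorm.isAlgebraic x).isIntegral⟩
  haveI hcyc : IsCyclotomicExtension {p} ℚ (IntermediateField.adjoin ℚ {ζ}) :=
    hζ.intermediateField_adjoin_isCyclotomicExtension ℚ
  haveI : IsGalois ℚ (IntermediateField.adjoin ℚ {ζ}) :=
    IsCyclotomicExtension.isGalois {p} ℚ (IntermediateField.adjoin ℚ {ζ})
  have hcong : ∀ x ∈ IntermediateField.adjoin ℚ {ζ}, IsIntegral ℤ x →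
      σ x - x ∈ (padicPlace p).nonunits := by
    intro x hx hint
    let ζF : IntermediateField.adjoin ℚ {ζ} := ⟨ζ, IntermediateField.mem_adjoin_simple_self ℚ ζ⟩
    have hζF : IsPrimitiveRoot ζF p :=
      IsPrimitiveRoot.of_map_of_injective
        (f := algebraMap (IntermediateField.adjoin ℚ {ζ}) (AlgebraicClosure ℚ))
        (show IsPrimitiveRoot
          (algebraMap (IntermediateField.adjoin ℚ {ζ}) (AlgebraicClosure ℚ) ζF) p from hζ)
        (algebraMap (IntermediateField.adjoin ℚ {ζ}) (AlgebraicClosure ℚ)).injective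
    have hic := IsCyclotomicExtension.Rat.isIntegralClosure_adjoin_singleton_of_prime hζF
    have hintF : IsIntegral ℤ (⟨x, hx⟩ : IntermediateField.adjoin ℚ {ζ}) :=
      (isIntegral_algebraMap_iff
        (algebraMap (IntermediateField.adjoin ℚ {ζ}) (AlgebraicClosure ℚ)).injective).mp hint
    obtain ⟨y, hy⟩ := hic.isIntegral_iff.mp hintF
    have key : ∀ z ∈ Algebra.adjoin ℤ ({ζF} : Set (IntermediateField.adjoin ℚ {ζ})),
        ((z : IntermediateField.adjoin ℚ {ζ}) : AlgebraicClosure ℚ) ∈ scycRing (padicPlace p) σ := by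
      intro z hz
      induction hz using Algebra.adjoin_induction with
      | mem z hz =>
        rw [Set.mem_singleton_iff] at hz
        subst hz
        exact hζB
      | algebraMap r =>
        have : ((algebraMap ℤ (IntermediateField.adjoin ℚ {ζ}) r :
            IntermediateField.adjoin ℚ {ζ}) : AlgebraicClosure ℚ) = (r : AlgebraicClosure ℚ) := by
          simp
        rw [this]
        exact scyc_intCast_mem _ _ r
      | add a b _ _ ha hb =>
        have : ((a + b : IntermediateField.adjoin ℚ {ζ}) : AlgebraicClosure ℚ)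
            = (a : AlgebraicClosure ℚ) + b := rfl
        rw [this]
        exact add_mem ha hb
      | mul a b _ _ ha hb =>
        have : ((a * b : IntermediateField.adjoin ℚ {ζ}) : AlgebraicClosure ℚ)
            = (a : AlgebraicClosure ℚ) * b := rfl
        rw [this]
        exact mul_mem ha hb
    have hxy : x = ((y : IntermediateField.adjoin ℚ {ζ}) : AlgebraicClosure ℚ) := by
      have := congrArg (fun t : IntermediateField.adjoin ℚ {ζ} => (t : AlgebraicClosure ℚ)) hy
      exact this.symm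
    rw [hxy]
    exact (key y y.2).2
  obtain ⟨σ', hσ'I, hσ'F⟩ := Fermat.Agent.Common.exists_mem_inertiaSubgroupIn_of_congr
    (IntermediateField.adjoin ℚ {ζ}) p hp (padicPlace p) hA σ hcong
  refine ⟨σ', hσ'I, ?_⟩
  intro h1'
  have h3 : σ' ζ = ζ := by
    rw [hspec σ', h1', Units.val_one]
    have : (1 : ZMod p).val = 1 := by
      haveI : Fact (1 < p) := ⟨hp.one_lt⟩
      exact ZMod.val_one p
    rw [this, pow_one]
  have h4 : σ' ζ = ζ ^ 2 := by
    rw [hσ'F ζ (IntermediateField.mem_adjoin_simple_self ℚ ζ), hσζ]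
  rw [h3] at h4
  have h5 : ζ ^ 1 = ζ ^ 2 := by rw [pow_one]; exact h4
  have := hζ.pow_inj hp.one_lt h2p h5
  omega

end Fermat.Agent.TW.S

end
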