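/-
TW-S / conjugacy of places (helper32): any two places of `ℚ̄` over `v` are conjugate under `G_ℚ`
(`sconjp_exists_smul_eq`), and a representation trivial on the inertia group of ONE place over `v`
is unramified at `v` (`sconjp_isUnramifiedAt`).  (`stmtConj` itself is in `TW/S/Conj.lean`, helper87.)

Proof: a valuation subring `A` of `ℚ̄` over `v` contains exactly the rational numbers with
denominator prime to `v` (`sconjp_rat_mem_iff`), so any two such places have the same trace on `ℚ`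
and are conjugate under `G_ℚ` (`S14.exists_fixing_smul_eq` with `F = ⊥`); the inertia groups are
conjugate (`PT.B.conj_mem_inertiaSubgroupIn`) and `ρ̄` is a homomorphism.
-/
import Mathlib
import Fermat.Agent.TW.S.Plan
import Fermat.Agent.TW.L.FrobExists
import Fermat.Agent.S14.ValGalois
import Fermat.Agent.PT.B.NormalClosure

set_option autoImplicit false
set_option linter.unusedSectionVars false

namespace Fermat.Agent.TW.S

open scoped Pointwise
open Fermat.Agent.PT Fermat.Agent.PT.B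

section Rat

variable {L : Type*} [Field L] [CharZero L] (A : ValuationSubring L) {v : ℕ}

/-- integers are in `A` -/
lemma sconjp_intCast_mem (n : ℤ) : (n : L) ∈ A := by
  exact intCast_mem A n

/-- integers prime to `v` are not in the maximal ideal -/
lemma sconjp_intCast_not_mem_nonunits (hv : v.Prime) (hA : A.LiesOverPrime v) {n : ℤ}
    (h : ¬ (v : ℤ) ∣ n) : (n : L) ∉ A.nonunits := by
  intro hn
  have hcop : IsCoprime (v : ℤ) n :=
    (Prime.coprime_iff_not_dvd (Nat.prime_iff_prime_int.mp hv)).mpr h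
  obtain ⟨a, b, hab⟩ := hcop
  have h1 : (a : L) * ((v : ℕ) : L) + (b : L) * (n : L) = 1 := by
    have := congrArg (fun t : ℤ => (t : L)) hab
    simpa using this
  have hv' : ((v : ℕ) : L) ∈ A.nonunits := hA
  rw [ValuationSubring.mem_nonunits_iff] at hv' hn
  have ha : A.valuation (a : L) ≤ 1 := (A.valuation_le_one_iff _).2 (sconjp_intCast_mem A a)
  have hb : A.valuation (b : L) ≤ 1 := (A.valuation_le_one_iff _).2 (sconjp_intCast_mem A b)
  have h2 : A.valuation ((a : L) * ((v : ℕ) : L) + (b : L) * (n : L)) < 1 := by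
    refine lt_of_le_of_lt (Valuation.map_add _ _ _) (max_lt ?_ ?_)
    · rw [map_mul]
      exact mul_lt_one_of_nonneg_of_lt_one_right ha zero_le hv'
    · rw [map_mul]
      exact mul_lt_one_of_nonneg_of_lt_one_right hb zero_le hn
  rw [h1, map_one] at h2
  exact lt_irrefl _ h2

/-- the inverse of an integer prime to `v` is in `A` -/
lemma sconjp_inv_intCast_mem (hv : v.Prime) (hA : A.LiesOverPrime v) {n : ℤ}
    (h : ¬ (v : ℤ) ∣ n) : ((n : L))⁻¹ ∈ A := by
  have h1 := sconjp_intCast_not_mem_nonunits A hv hA h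
  rw [ValuationSubring.mem_nonunits_iff, not_lt] at h1
  rw [← ValuationSubring.valuation_le_one_iff, map_inv₀]
  exact inv_le_one_of_one_le₀ h1

/-- **The trace on `ℚ` of a place over `v`**: `r ∈ A ↔ v ∤ den r`. -/
lemma sconjp_rat_mem_iff (hv : v.Prime) (hA : A.LiesOverPrime v) (r : ℚ) :
    ((r : ℚ) : L) ∈ A ↔ ¬ (v : ℤ) ∣ (r.den : ℤ) := by
  have hr : ((r : ℚ) : L) = (r.num : L) * ((r.den : ℤ) : L)⁻¹ := by
    rw [Rat.cast_def, div_eq_mul_inv]
    simp
  constructor
  · intro hmem hdvd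
    -- `v ∤ num`
    have hnum : ¬ (v : ℤ) ∣ r.num := by
      intro hn
      have h1 : (v : ℤ) ∣ Int.gcd r.num (r.den : ℤ) := Int.dvd_coe_gcd hn hdvd
      have h2 : Int.gcd r.num (r.den : ℤ) = 1 := by
        have := r.reduced
        simpa [Nat.Coprime, Int.gcd] using this
      rw [h2] at h1
      have h3 : (v : ℤ) = 1 ∨ (v : ℤ) = -1 := Int.isUnit_iff.mp (isUnit_of_dvd_one h1)
      have hv1 := hv.one_lt
      omega
    have hden0 : ((r.den : ℤ) : L) ≠ 0 := by
      have := r.den_ne_zero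
      exact_mod_cast this
    have hnum0 : (r.num : L) ≠ 0 := by
      intro h
      apply hnum
      have : r.num = 0 := by exact_mod_cast h
      rw [this]
      exact dvd_zero _
    -- `den⁻¹ = r * num⁻¹ ∈ A`
    have h1 : (((r.den : ℤ) : L))⁻¹ = ((r : ℚ) : L) * ((r.num : L))⁻¹ := by
      rw [hr]
      field_simp
    have h2 : (((r.den : ℤ) : L))⁻¹ ∈ A := by
      rw [h1]
      exact A.mul_mem _ _ hmem (sconjp_inv_intCast_mem A hv hA hnum)
    -- so `den` is a unit, but it is in the maximal ideal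
    have h3 : ((r.den : ℤ) : L) ∈ A.nonunits := by
      obtain ⟨m, hm⟩ := hdvd
      have hv' : ((v : ℕ) : L) ∈ A.nonunits := hA
      rw [ValuationSubring.mem_nonunits_iff] at hv' ⊢
      have e : ((r.den : ℤ) : L) = (m : L) * ((v : ℕ) : L) := by
        rw [hm]; push_cast; ring
      rw [e, map_mul]
      exact mul_lt_one_of_nonneg_of_lt_one_right
        ((A.valuation_le_one_iff _).2 (sconjp_intCast_mem A m)) zero_le hv'
    rw [ValuationSubring.mem_nonunits_iff] at h3
    rw [← ValuationSubring.valuation_le_one_iff, map_inv₀] at h2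
    have h4 : 1 ≤ A.valuation ((r.den : ℤ) : L) := by
      have hne : A.valuation ((r.den : ℤ) : L) ≠ 0 := (Valuation.ne_zero_iff _).2 hden0
      exact (inv_le_one₀ (zero_lt_iff.mpr hne)).mp h2
    exact absurd h3 (not_lt.mpr h4)
  · intro h
    rw [hr]
    exact A.mul_mem _ _ (sconjp_intCast_mem A _) (sconjp_inv_intCast_mem A hv hA h)

end Rat

/-- Any two places of `ℚ̄` over `v` are conjugate under `G_ℚ`. -/
theorem sconjp_exists_smul_eq (v : ℕ) (hv : v.Prime)
    (A A' : ValuationSubring (AlgebraicClosure ℚ)) (hA : A.LiesOverPrime v)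
    (hA' : A'.LiesOverPrime v) :
    ∃ g : AlgebraicClosure ℚ ≃ₐ[ℚ] AlgebraicClosure ℚ, g • A = A' := by
  obtain ⟨g, -, hg⟩ := Fermat.Agent.S14.exists_fixing_smul_eq ⊥ A A' (fun x hx => by
    obtain ⟨r, rfl⟩ := IntermediateField.mem_bot.1 hx
    have e : algebraMap ℚ (AlgebraicClosure ℚ) r = ((r : ℚ) : AlgebraicClosure ℚ) :=
      (eq_ratCast (algebraMap ℚ (AlgebraicClosure ℚ)) r)
    rw [e, sconjp_rat_mem_iff A hv hA, sconjp_rat_mem_iff A' hv hA'])
  exact ⟨g, hg⟩

/-- If `ρ̄` is trivial on the inertia group of one place over `v`, it is unramified at `v`. -/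
theorem sconjp_isUnramifiedAt {k : Type} [Field k] (ρbar : ResidualGaloisRep k) (v : ℕ)
    (hv : v.Prime) (P : ValuationSubring (AlgebraicClosure ℚ)) (hP : P.LiesOverPrime v)
    (h : ∀ σ ∈ P.inertiaSubgroupIn ℚ, ρbar.ρ σ = 1) : ρbar.IsUnramifiedAt v := by
  intro A hA σ hσ
  obtain ⟨g, hg⟩ := sconjp_exists_smul_eq v hv A P hA hP
  have h1 : g * σ * g⁻¹ ∈ (g • A).inertiaSubgroupIn ℚ := conj_mem_inertiaSubgroupIn A g σ hσ
  rw [hg] at h1
  have h2 := h _ h1
  rw [map_mul, map_mul] at h2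
  have h3 : ρbar.ρ g⁻¹ * ρbar.ρ g = 1 := by rw [← map_mul, inv_mul_cancel, map_one]
  calc ρbar.ρ σ = (ρbar.ρ g⁻¹ * ρbar.ρ g) * ρbar.ρ σ * (ρbar.ρ g⁻¹ * ρbar.ρ g) := by
        rw [h3, one_mul, mul_one]
    _ = ρbar.ρ g⁻¹ * (ρbar.ρ g * ρbar.ρ σ * ρbar.ρ g⁻¹) * ρbar.ρ g := by
        simp only [mul_assoc]
    _ = 1 := by rw [h2, mul_one, h3]

end Fermat.Agent.TW.S
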