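/-
TW-Core, piece C-adlev (helper22): `ad⁰ ρ̄` and `ad⁰ ρ̄(1)` are trivial on a level of the tower of
`T` if `ρ̄` is unramified outside `T ∋ p`.
(The kernel `N` of `ρ̄` is a normal subgroup containing `Gal(ℚ̄/F)`, `F` finite, and all inertia
groups outside `T`: `PT.B.isTowerField_fixedField_of_normal`; then `PT.B.stmtDualTwist`.)
-/
import Fermat.Agent.TW.Core.Plan
import Fermat.Agent.PT.B.KernelField
import Fermat.Agent.PT.B.DualTwist

set_option autoImplicit false
set_option linter.unusedSectionVars false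
set_option linter.unusedVariables false

noncomputable section

namespace Fermat.Agent.TW.S

open CategoryTheory groupCohomology Module
open Fermat.Agent.PT Fermat.Agent.PT.B Fermat.Agent.TW.F ExtCitation

/-- the kernel of `ρ̄` -/
def sadl_ker {k : Type} [Field k] (ρbar : ResidualGaloisRep k) : Subgroup GQ where
  carrier := {g | ρbar.ρ g = 1}
  one_mem' := map_one _
  mul_mem' := fun {a b} ha hb => by
    show ρbar.ρ (a * b) = 1
    rw [map_mul, (ha : ρbar.ρ a = 1), (hb : ρbar.ρ b = 1), one_mul]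
  inv_mem' := fun {a} ha => by
    show ρbar.ρ a⁻¹ = 1
    have h1 : ρbar.ρ a⁻¹ * ρbar.ρ a = 1 := by rw [← map_mul, inv_mul_cancel, map_one]
    rw [(ha : ρbar.ρ a = 1), mul_one] at h1
    exact h1

theorem sadl_mem_ker {k : Type} [Field k] (ρbar : ResidualGaloisRep k) (g : GQ) :
    g ∈ sadl_ker ρbar ↔ ρbar.ρ g = 1 := Iff.rfl

instance sadl_ker_normal {k : Type} [Field k] (ρbar : ResidualGaloisRep k) :
    (sadl_ker ρbar).Normal :=
  ⟨fun n hn g => by
    show ρbar.ρ (g * n * g⁻¹) = 1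
    rw [map_mul, map_mul, (hn : ρbar.ρ n = 1), mul_one, ← map_mul, mul_inv_cancel, map_one]⟩

/-- `ad⁰ ρ̄` is trivial on the kernel of `ρ̄`. -/
theorem sadl_ad0_eq_one {k : Type} [Field k] (p : ℕ) [Fact p.Prime] [CharP k p]
    (ρbar : ResidualGaloisRep k) (s : GQ) (hs : ρbar.ρ s = 1) : (ad0Rep p ρbar).ρ s = 1 := by
  apply LinearMap.ext
  intro x
  apply ad0Val_injective p ρbar
  have hs' : ρbar.ρ s⁻¹ = 1 := (sadl_ker ρbar).inv_mem hs
  rw [ad0Val_ρ, hs, hs', one_mul, mul_one]
  rfl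

/-- the kernel field of `ρ̄` is in the tower of `T` -/
theorem sadl_tower {k : Type} [Field k] (ρbar : ResidualGaloisRep k) (T : Finset Nat.Primes)
    (hur : ∀ q : Nat.Primes, q ∉ T → ρbar.IsUnramifiedAt (q : ℕ)) :
    IsTowerField T (IntermediateField.fixedField (sadl_ker ρbar)) ∧
      (IntermediateField.fixedField (sadl_ker ρbar)).fixingSubgroup = sadl_ker ρbar := by
  obtain ⟨F, hF, h⟩ := ρbar.factorsThroughFiniteLevel
  refine isTowerField_fixedField_of_normal T (sadl_ker ρbar) F hF (fun s hs => ?_)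
    (fun q hq A hA g hg => hur q hq A hA g hg)
  refine h s (fun x hx => ?_)
  exact (IntermediateField.mem_fixingSubgroup_iff F s).1 hs x hx

/-- **C-adlev.** -/
theorem stmtAdLevel : Fermat.Agent.TW.Core.StmtAdLevel := by
  intro p _ k _ _ _ ρbar T hpT hur
  obtain ⟨hT, hfix⟩ := sadl_tower ρbar T hur
  have htriv : ∀ s ∈ (IntermediateField.fixedField (sadl_ker ρbar)).fixingSubgroup,
      (ad0Rep p ρbar).ρ s = 1 := by
    intro s hs
    rw [hfix] at hs
    exact sadl_ad0_eq_one p ρbar s hs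
  refine ⟨⟨_, ⟨IntermediateField.fixedField (sadl_ker ρbar), hT.1, rfl⟩, htriv⟩, ?_⟩
  haveI : Finite (Module.End k ρbar.V) := Module.finite_of_finite k
  haveI : Finite ↥(ad0Sub ρbar) := inferInstance
  haveI hfin : Finite (ad0Rep p ρbar).V := (inferInstance : Finite ↥(ad0Sub ρbar))
  haveI : FiniteDimensional (ZMod p) (ad0Rep p ρbar) := Module.Finite.of_finite
  obtain ⟨L', hLL', hL', hcyc, hdual⟩ :=
    stmtDualTwist p T hpT (ad0Rep p ρbar) (IntermediateField.fixedField (sadl_ker ρbar)) hT htriv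
  exact ⟨_, ⟨L', hL'.1, rfl⟩, hdual⟩

end Fermat.Agent.TW.S

end
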