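/-
TW-S piece S-line (helper35): the ordinary line of `ρ̄` at `p` is unique when `det ρ̄` is
cyclotomic (`p` odd).

`stmtLine_of : StmtCycloRam → StmtLine` and `stmtLine : StmtLine`.

Proof.  Two different lines `L₁ ≠ L₂` of `V̄` meet in `0`.  For `σ` in the inertia group of
`padicPlace p` and all `v`: `ρ̄(σ) v - v ∈ L₁ ∩ L₂ = 0`, so `ρ̄(σ) = 1` and `det ρ̄(σ) = 1`.  Since
`det ρ̄` is cyclotomic and `p = 0` in `k`, `χ̄(σ) = 1` for every such `σ`, against S-cycram.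
-/
import Fermat.Agent.TW.S.Plan
import Fermat.Agent.TW.S.CycloRam

set_option autoImplicit false

namespace Fermat.Agent.TW.S

open ExtCitation Fermat.Agent.PT Fermat.Agent.PT.B Fermat.Agent.TW.L

/-- Two submodules of dimension `1` of a vector space, one contained in the other, are equal. -/
theorem sline_eq_of_le {k V : Type*} [Field k] [AddCommGroup V] [Module k V]
    [FiniteDimensional k V] {L₁ L₂ : Submodule k V} (h₁ : Module.finrank k L₁ = 1)
    (h₂ : Module.finrank k L₂ = 1) (hle : L₁ ≤ L₂) : L₁ = L₂ :=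
  Submodule.eq_of_le_of_finrank_eq hle (h₁.trans h₂.symm)

/-- Two different lines meet in `0`. -/
theorem sline_inf_eq_bot {k V : Type*} [Field k] [AddCommGroup V] [Module k V]
    [FiniteDimensional k V] {L₁ L₂ : Submodule k V} (h₁ : Module.finrank k L₁ = 1)
    (h₂ : Module.finrank k L₂ = 1) (hne : L₁ ≠ L₂) : L₁ ⊓ L₂ = ⊥ := by
  by_contra hbot
  have hpos : 0 < Module.finrank k ↥(L₁ ⊓ L₂) := by
    rw [Module.finrank_pos_iff, Submodule.nontrivial_iff_ne_bot]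
    exact hbot
  have hle1 : Module.finrank k ↥(L₁ ⊓ L₂) ≤ 1 := by
    rw [← h₁]
    exact Submodule.finrank_mono inf_le_left
  have h1 : Module.finrank k ↥(L₁ ⊓ L₂) = 1 := le_antisymm hle1 hpos
  have e1 : L₁ ⊓ L₂ = L₁ := sline_eq_of_le h1 h₁ inf_le_left
  have e2 : L₁ ⊓ L₂ = L₂ := sline_eq_of_le h1 h₂ inf_le_right
  exact hne (e1.symm.trans e2)

/-- The action of `σ` on the `p`-th roots of unity is the `χ̄(σ)`-th power. -/
theorem sline_cycloChar_spec (p : ℕ) [Fact p.Prime] (σ : GQ) (μ : AlgebraicClosure ℚ)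
    (hμ : μ ^ p = 1) : σ μ = μ ^ ((cycloChar p σ : (ZMod p)ˣ) : ZMod p).val := by
  have hp : p.Prime := Fact.out
  have : NeZero p := ⟨hp.ne_zero⟩
  have hμ0 : μ ≠ 0 := by
    rintro rfl
    rw [zero_pow hp.ne_zero] at hμ
    exact zero_ne_one hμ
  set t : (AlgebraicClosure ℚ)ˣ := Units.mk0 μ hμ0 with ht
  have htmem : t ∈ rootsOfUnity p (AlgebraicClosure ℚ) := by
    rw [mem_rootsOfUnity]
    ext
    simpa [ht] using hμ
  have h := modularCyclotomicCharacter.spec (AlgebraicClosure ℚ) (card_rootsOfUnity_eq_self p)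
    (σ : AlgebraicClosure ℚ ≃+* AlgebraicClosure ℚ) htmem
  simpa [ht, cycloChar] using h

/-- If `det ρ̄` is cyclotomic, then `χ̄(σ) = 1` as soon as `ρ̄(σ) = 1`. -/
theorem sline_cycloChar_eq_one (p : ℕ) [Fact p.Prime] (k : Type) [Field k] [CharP k p]
    (ρbar : ResidualGaloisRep k)
    (hdet : (GaloisRepAdic.ofResidualGaloisRep ρbar).DetIsCyclotomic p) (σ : GQ)
    (hσ : ρbar.ρ σ = 1) : cycloChar p σ = 1 := by
  have hp : p.Prime := Fact.out
  have : NeZero p := ⟨hp.ne_zero⟩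
  set a : ℕ := ((cycloChar p σ : (ZMod p)ˣ) : ZMod p).val with ha
  have h1 := hdet.2 1 σ a (fun μ hμ => by
    rw [pow_one] at hμ
    exact sline_cycloChar_spec p σ μ hμ)
  have hρ : (GaloisRepAdic.ofResidualGaloisRep ρbar).ρ σ = 1 := hσ
  rw [hρ, map_one, pow_one, CharP.cast_eq_zero k p,
    Ideal.mem_span_singleton, zero_dvd_iff, sub_eq_zero] at h1
  -- `(a : k) = 1`, so `a ≡ 1 mod p`
  have h2 : ((a : ℕ) : k) = ((1 : ℕ) : k) := by rw [← h1, Nat.cast_one]
  have h3 : ((a : ℕ) : ZMod p) = ((1 : ℕ) : ZMod p) := by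
    rw [ZMod.natCast_eq_natCast_iff]
    exact (CharP.natCast_eq_natCast k p).mp h2
  apply Units.ext
  rw [Units.val_one, ← ZMod.natCast_zmod_val ((cycloChar p σ : (ZMod p)ˣ) : ZMod p), ← ha, h3,
    Nat.cast_one]

/-- **S-line** from S-cycram. -/
theorem stmtLine_of (hcyc : StmtCycloRam) : StmtLine := by
  intro p _ hp2 k _ _ ρbar hdet L₁ L₂ h₁ h₂
  by_contra hne
  have : Module.Finite k ρbar.V := Module.finite_of_finrank_eq_succ ρbar.finrank_eq
  have hbot : L₁ ⊓ L₂ = ⊥ := sline_inf_eq_bot h₁.1 h₂.1 hne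
  obtain ⟨σ, hσI, hσ⟩ := hcyc p hp2
  apply hσ
  apply sline_cycloChar_eq_one p k ρbar hdet σ
  apply LinearMap.ext
  intro v
  have hv : ρbar.ρ σ v - v ∈ L₁ ⊓ L₂ := ⟨h₁.2.2 σ hσI v, h₂.2.2 σ hσI v⟩
  rw [hbot, Submodule.mem_bot, sub_eq_zero] at hv
  rw [hv, Module.End.one_apply]

/-- **S-line**. -/
theorem stmtLine : StmtLine := stmtLine_of stmtCycloRam

end Fermat.Agent.TW.S
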