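/-
TW-Core, piece C-resstrict, abstract part (helper22): the reduction of a STRICTLY ordinary line.
Extends `sres_abs` of `TW/S/ResOrd.lean`: the scalars `x, z` by which `σ` acts on the line and on
the quotient reduce to scalars of `k` with the same properties.
-/
import Fermat.Agent.TW.S.ResOrd

set_option autoImplicit false
set_option linter.unusedSectionVars false
set_option linter.unusedVariables false

noncomputable section

namespace Fermat.Agent.TW.S

open scoped TensorProduct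

section

variable {A κ : Type} [CommRing A] [Field κ] [Algebra A κ] {M : Type} [AddCommGroup M]
  [Module A M]

/-- `c ⊗ (a • m) = ā • (c ⊗ m)`. -/
lemma srs_tmul_smul (a : A) (c : κ) (m : M) :
    c ⊗ₜ[A] (a • m) = (algebraMap A κ a) • (c ⊗ₜ[A] m) := by
  have h1 : c ⊗ₜ[A] (a • m) = (a • c) ⊗ₜ[A] m := by
    rw [TensorProduct.tmul_smul, TensorProduct.smul_tmul']
  have h2 : (algebraMap A κ a) • (c ⊗ₜ[A] m) = ((algebraMap A κ a) * c) ⊗ₜ[A] m := by
    rw [TensorProduct.smul_tmul', smul_eq_mul]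
  rw [h1, h2, Algebra.smul_def]

/-- If `f - a` has image in the line `A ∙ m₀`, then `f ⊗ κ - ā` has image in `κ ∙ (1 ⊗ m₀)`. -/
lemma srs_baseChange_sub (m₀ : M) (f : M →ₗ[A] M) (a : A)
    (h : ∀ m : M, f m - a • m ∈ A ∙ m₀) (y : κ ⊗[A] M) :
    ∃ d : κ, f.baseChange κ y - (algebraMap A κ a) • y = d • ((1 : κ) ⊗ₜ[A] m₀) := by
  induction y using TensorProduct.induction_on with
  | zero => exact ⟨0, by rw [map_zero, smul_zero, sub_zero, zero_smul]⟩
  | tmul c m =>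
    obtain ⟨t, ht⟩ := Submodule.mem_span_singleton.mp (h m)
    refine ⟨c * algebraMap A κ t, ?_⟩
    rw [LinearMap.baseChange_tmul, ← srs_tmul_smul, ← TensorProduct.tmul_sub, ← ht,
      srs_tmul_smul, TensorProduct.smul_tmul', smul_eq_mul, mul_comm, TensorProduct.smul_tmul',
      smul_eq_mul, mul_one]
  | add y y' hy hy' =>
    obtain ⟨d, hd⟩ := hy
    obtain ⟨d', hd'⟩ := hy'
    exact ⟨d + d', by rw [map_add, smul_add, add_sub_add_comm, hd, hd', add_smul]⟩

end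

/-- The abstract core of C-resstrict, in terms of tensor products only.  `Q` is any property of
the scalars, passed through. -/
theorem srs_abs {A κ k : Type} [CommRing A] [Field κ] [Field k] [Algebra A κ] [Algebra k κ]
    (hs : Function.Surjective (algebraMap k κ))
    {M : Type} [AddCommGroup M] [Module A M] {V : Type} [AddCommGroup V] [Module k V]
    {G : Type} (r : G → M →ₗ[A] M) (rb : G → V →ₗ[k] V)
    (e : (κ ⊗[A] M) ≃ₗ[κ] (κ ⊗[k] V))
    (he : ∀ (σ : G) (x : κ ⊗[A] M), e ((r σ).baseChange κ x) = (rb σ).baseChange κ (e x))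
    (DD II : Set G)
    (L : Submodule A M) (b : Module.Basis (Fin 2) A M) (hL : L = A ∙ b 0)
    (hD : ∀ σ ∈ DD, ∀ v ∈ L, r σ v ∈ L)
    (hI : ∀ σ ∈ II, ∀ v : M, r σ v - v ∈ L)
    (Q : G → A → A → Prop)
    (hstr : ∀ σ ∈ DD, ∃ x z : A, (∀ w ∈ L, r σ w = x • w) ∧ (∀ v : M, r σ v - z • v ∈ L) ∧
      Q σ x z) :
    ∃ Lbar : Submodule k V, Module.finrank k Lbar = 1 ∧
      (∀ σ ∈ DD, ∀ v ∈ Lbar, rb σ v ∈ Lbar) ∧
      (∀ σ ∈ II, ∀ v : V, rb σ v - v ∈ Lbar) ∧
      ∀ σ ∈ DD, ∃ (x z : A) (x' z' : k), algebraMap k κ x' = algebraMap A κ x ∧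
        algebraMap k κ z' = algebraMap A κ z ∧ Q σ x z ∧
        (∀ w ∈ Lbar, rb σ w = x' • w) ∧ (∀ v : V, rb σ v - z' • v ∈ Lbar) := by
  subst hL
  -- the generator of the reduced line
  have hu₀ne : (1 : κ) ⊗ₜ[A] b 0 ≠ 0 := by
    have := (b.baseChange κ).ne_zero 0
    rwa [Module.Basis.baseChange_apply] at this
  obtain ⟨v₀, hv₀⟩ := sres_one_tmul_surjective (V := V) hs (e ((1 : κ) ⊗ₜ[A] b 0))
  have hv₀ne : v₀ ≠ 0 := by
    rintro rfl
    rw [TensorProduct.tmul_zero] at hv₀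
    exact hu₀ne (e.map_eq_zero_iff.mp hv₀.symm)
  have hb0 : b 0 ∈ A ∙ b 0 := Submodule.mem_span_singleton_self _
  have hself : v₀ ∈ k ∙ v₀ := Submodule.mem_span_singleton_self _
  -- (E): eigenvector
  have hE : ∀ (σ : G) (a : A) (a' : k), algebraMap k κ a' = algebraMap A κ a →
      r σ (b 0) = a • b 0 → rb σ v₀ = a' • v₀ := by
    intro σ a a' ha hr
    apply sres_one_tmul_injective (k := k) (κ := κ) (V := V)
    show (1 : κ) ⊗ₜ[k] (rb σ v₀) = (1 : κ) ⊗ₜ[k] (a' • v₀)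
    calc (1 : κ) ⊗ₜ[k] (rb σ v₀) = (rb σ).baseChange κ ((1 : κ) ⊗ₜ[k] v₀) := by
          rw [LinearMap.baseChange_tmul]
      _ = e ((r σ).baseChange κ ((1 : κ) ⊗ₜ[A] b 0)) := by rw [hv₀, he]
      _ = e ((algebraMap A κ a) • ((1 : κ) ⊗ₜ[A] b 0)) := by
          rw [LinearMap.baseChange_tmul, hr, srs_tmul_smul]
      _ = (algebraMap k κ a') • ((1 : κ) ⊗ₜ[k] v₀) := by rw [map_smul, ← hv₀, ha]
      _ = (1 : κ) ⊗ₜ[k] (a' • v₀) := sres_smul_one_tmul a' v₀
  -- (K'): action on the quotient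
  have hK : ∀ (σ : G) (a : A) (a' : k), algebraMap k κ a' = algebraMap A κ a →
      (∀ m : M, r σ m - a • m ∈ A ∙ b 0) → ∀ v : V, rb σ v - a' • v ∈ k ∙ v₀ := by
    intro σ a a' ha hr v
    obtain ⟨d, hd⟩ := srs_baseChange_sub (κ := κ) (b 0) (r σ) a hr (e.symm ((1 : κ) ⊗ₜ[k] v))
    obtain ⟨c', hc'⟩ := hs d
    have h1 : (1 : κ) ⊗ₜ[k] (rb σ v - a' • v) = (1 : κ) ⊗ₜ[k] (c' • v₀) := by
      calc (1 : κ) ⊗ₜ[k] (rb σ v - a' • v)
          = (rb σ).baseChange κ ((1 : κ) ⊗ₜ[k] v) -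
              (algebraMap k κ a') • ((1 : κ) ⊗ₜ[k] v) := by
            rw [TensorProduct.tmul_sub, LinearMap.baseChange_tmul, sres_smul_one_tmul]
        _ = e ((r σ).baseChange κ (e.symm ((1 : κ) ⊗ₜ[k] v)) -
              (algebraMap A κ a) • (e.symm ((1 : κ) ⊗ₜ[k] v))) := by
            rw [map_sub, he, map_smul, LinearEquiv.apply_symm_apply, ha]
        _ = (algebraMap k κ c') • ((1 : κ) ⊗ₜ[k] v₀) := by
            rw [hd, map_smul, ← hv₀, hc']
        _ = (1 : κ) ⊗ₜ[k] (c' • v₀) := sres_smul_one_tmul c' v₀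
    rw [sres_one_tmul_injective h1]
    exact Submodule.smul_mem _ _ hself
  refine ⟨k ∙ v₀, finrank_span_singleton hv₀ne, ?_, ?_, ?_⟩
  · -- stability under the decomposition group
    intro σ hσ v hv
    obtain ⟨c, rfl⟩ := Submodule.mem_span_singleton.mp hv
    obtain ⟨a, ha⟩ := Submodule.mem_span_singleton.mp (hD σ hσ (b 0) hb0)
    obtain ⟨a', ha'⟩ := hs (algebraMap A κ a)
    rw [map_smul, hE σ a a' ha' ha.symm]
    exact Submodule.smul_mem _ _ (Submodule.smul_mem _ _ hself)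
  · -- inertia acts trivially on the quotient
    intro σ hσ v
    have := hK σ 1 1 (by rw [map_one, map_one]) (fun m => by rw [one_smul]; exact hI σ hσ m) v
    rwa [one_smul] at this
  · -- the scalars
    intro σ hσ
    obtain ⟨x, z, hx, hz, hQ⟩ := hstr σ hσ
    obtain ⟨x', hx'⟩ := hs (algebraMap A κ x)
    obtain ⟨z', hz'⟩ := hs (algebraMap A κ z)
    refine ⟨x, z, x', z', hx', hz', hQ, ?_, hK σ z z' hz' hz⟩
    intro w hw
    obtain ⟨t, rfl⟩ := Submodule.mem_span_singleton.mp hw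
    rw [map_smul, hE σ x x' hx' (hx _ hb0), smul_comm]

end Fermat.Agent.TW.S

end
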