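/-
TW-Core, piece C-resstrict, core (helper22): if a strictly ordinary deformation of `ρ̄` to `k[ε]`
exists, then `ρ̄` has a STRICTLY ordinary line at `p` (`TW.L.IsStrictOrdLine`).
-/
import Fermat.Agent.TW.S.ResStrictAbs
import Fermat.Agent.TW.S.Line
import Fermat.Agent.TW.L.Plan3

set_option autoImplicit false
set_option linter.unusedSectionVars false
set_option linter.unusedVariables false
set_option linter.style.haveILetI false

noncomputable section

namespace Fermat.Agent.TW.S

open CategoryTheory groupCohomology IsLocalRing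
open Fermat.Agent.PT Fermat.Agent.PT.B Fermat.Agent.S53 Fermat.Agent.TW.L ExtCitation
open scoped TensorProduct

/-- `p = 0` in `k[ε]`. -/
lemma srs_p_eq_zero {k : Type} [Field k] (p : ℕ) [CharP k p] : ((p : ℕ) : DualNumber k) = 0 := by
  apply TrivSqZeroExt.ext
  · rw [TrivSqZeroExt.fst_natCast, TrivSqZeroExt.fst_zero]
    exact CharP.cast_eq_zero k p
  · rw [TrivSqZeroExt.snd_natCast, TrivSqZeroExt.snd_zero]

/-- The core of C-resstrict, for any algebra structure `k → ResidueField (k[ε])` which is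
surjective. -/
theorem srs_core {k : Type} [Field k] (p : ℕ) [Fact p.Prime] [CharP k p] [Algebra (ZMod p) k]
    [Algebra k (ResidueField (DualNumber k))]
    (hs : Function.Surjective (algebraMap k (ResidueField (DualNumber k))))
    (ρbar : ResidualGaloisRep k) (ρ : GaloisRepAdic (DualNumber k))
    (hres : ρ.residual.IsEquiv (ρbar.baseChange (ResidueField (DualNumber k))))
    (hord : ρ.IsStrictOrdinaryAt p) :
    ∃ Lbar : Submodule k ρbar.V, IsStrictOrdLine p ρbar Lbar := by
  have hp : p.Prime := Fact.out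
  have : NeZero p := ⟨hp.ne_zero⟩
  obtain ⟨L, ⟨b, hb⟩, hD, hI, hstr⟩ := hord.2 (padicPlace p) (lfrobex_liesOverPrime p)
  obtain ⟨e⟩ := hres
  obtain ⟨Lbar, h1, h2, h3, h4⟩ := srs_abs (κ := ResidueField (DualNumber k)) hs
    (fun σ => ρ.ρ σ) (fun σ => ρbar.ρ σ) e.toLinearEquiv e.map_apply
    ((padicPlace p).decompositionSubgroup ℚ : Set _) ((padicPlace p).inertiaSubgroupIn ℚ : Set _)
    L b hb hD hI
    (fun σ x z => ∀ (n a : ℕ), (∀ μ : AlgebraicClosure ℚ, μ ^ p ^ n = 1 → σ μ = μ ^ a) →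
      x - (a : DualNumber k) * z ∈ Ideal.span {((p ^ n : ℕ) : DualNumber k)})
    hstr
  refine ⟨Lbar, ⟨h1, h2, h3⟩, fun σ hσ => ?_⟩
  obtain ⟨x, z, x', z', hx', hz', hQ, hx, hz⟩ := h4 σ hσ
  refine ⟨x', z', hx, hz, ?_⟩
  set a : ℕ := ((cycloChar p σ : (ZMod p)ˣ) : ZMod p).val with ha
  have h5 := hQ 1 a (fun μ hμ => by
    rw [pow_one] at hμ
    exact sline_cycloChar_spec p σ μ hμ)
  rw [pow_one, srs_p_eq_zero, Ideal.mem_span_singleton, zero_dvd_iff, sub_eq_zero] at h5
  -- `x = a z` in `k[ε]`, hence in the residue field, hence in `k`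
  have h6 : algebraMap k (ResidueField (DualNumber k)) x' =
      algebraMap k (ResidueField (DualNumber k)) ((a : k) * z') := by
    rw [hx', h5, map_mul, map_mul, hz', map_natCast, map_natCast]
  have h7 : x' = (a : k) * z' := (algebraMap k (ResidueField (DualNumber k))).injective h6
  rw [h7]
  congr 1
  rw [ha, ← map_natCast (algebraMap (ZMod p) k), ZMod.natCast_zmod_val]

/-- The concrete form for `k = ResidueField 𝒪` with the algebra structure `dnResAlg`. -/
theorem srs_main (𝒪 : Type) [CommRing 𝒪] [IsLocalRing 𝒪] (p : ℕ) [Fact p.Prime]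
    [CharP (ResidueField 𝒪) p] [Algebra (ZMod p) (ResidueField 𝒪)]
    (ρbar : ResidualGaloisRep (ResidueField 𝒪))
    (ρ : GaloisRepAdic (DualNumber (ResidueField 𝒪)))
    (hres : letI : Algebra (ResidueField 𝒪) (ResidueField (DualNumber (ResidueField 𝒪))) :=
        dnResAlg 𝒪
      ρ.residual.IsEquiv (ρbar.baseChange (ResidueField (DualNumber (ResidueField 𝒪)))))
    (hord : ρ.IsStrictOrdinaryAt p) :
    ∃ Lbar : Submodule (ResidueField 𝒪) ρbar.V, IsStrictOrdLine p ρbar Lbar := by
  letI := dnResAlg 𝒪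
  exact srs_core p (sres_dnRes_surjective 𝒪) ρbar ρ hres hord

end Fermat.Agent.TW.S

end
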