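/-
TW-Core, piece C-resstrict (helper22): if a strictly ordinary deformation of `ρ̄` to `k[ε]`
exists, then `ρ̄` has a STRICTLY ordinary line at `p`.
`stmtResStrict : TW.Core.StmtResStrict` (from `srs_main` in `TW/S/ResStrictCore.lean`).
-/
import Fermat.Agent.TW.Core.Plan
import Fermat.Agent.TW.S.ResStrictCore

set_option autoImplicit false

namespace Fermat.Agent.TW.S

/-- **C-resstrict.** -/
theorem stmtResStrict : Fermat.Agent.TW.Core.StmtResStrict :=
  fun 𝒪 _ _ p _ _ _ ρbar ρ hres hord => srs_main 𝒪 p ρbar ρ hres hord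

end Fermat.Agent.TW.S
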