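/-
TW-S (helper54): matrix calculus over the dual numbers for the dictionary `IsCocOf`.
Shared by the pieces S-frame, S-coc, S-unr, S-trace, S-iso, S-min, S-ord.

For `M : M₂(k[ε])` write `M = M₀ + ε M₁`, `M₀ = dnFst M`, `M₁ = dnSnd M`.
* `dn_ext`                       : `M = N ↔ M₀ = N₀ ∧ M₁ = N₁`;
* `dnFst_mul`, `dnSnd_mul`       : `(MN)₀ = M₀N₀`, `(MN)₁ = M₀N₁ + M₁N₀`;
* `dnFst_liftMat`, `dnSnd_liftMat`: the parts of `(1 + εc)ρ̄`;
* `rhom_mul_inv`                 : `ρm σ * ρm σ⁻¹ = 1`;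
* `adMat_injective`, `adMat_ρ`   : `adMat` is injective, `adMat (σ·x) = ρm σ · adMat x · ρm σ⁻¹`;
* `isCocOf_iff_parts`            : `r σ = liftMat c σ ↔ (r σ)₀ = ρm σ ∧ (r σ)₁ = adMat (c σ) · ρm σ`.
-/
import Fermat.Agent.TW.S.Defs

set_option autoImplicit false
set_option linter.unusedSectionVars false

noncomputable section

namespace Fermat.Agent.TW.S

open CategoryTheory groupCohomology IsLocalRing
open Fermat.Agent.PT Fermat.Agent.PT.B Fermat.Agent.S53 ExtCitation

section DN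

variable {k : Type} [Field k]

/-- the constant part of a matrix over the dual numbers -/
def dnFst (M : M2 (DualNumber k)) : M2 k := M.map TrivSqZeroExt.fst

/-- the `ε`-part of a matrix over the dual numbers -/
def dnSnd (M : M2 (DualNumber k)) : M2 k := M.map TrivSqZeroExt.snd

@[simp] lemma dnFst_apply (M : M2 (DualNumber k)) (i j : Fin 2) :
    dnFst M i j = (M i j).fst := rfl

@[simp] lemma dnSnd_apply (M : M2 (DualNumber k)) (i j : Fin 2) :
    dnSnd M i j = (M i j).snd := rfl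

lemma dn_ext {M N : M2 (DualNumber k)} (h0 : dnFst M = dnFst N) (h1 : dnSnd M = dnSnd N) :
    M = N := by
  ext i j
  · exact congrFun (congrFun h0 i) j
  · exact congrFun (congrFun h1 i) j

lemma dnFst_mul (M N : M2 (DualNumber k)) : dnFst (M * N) = dnFst M * dnFst N := by
  ext i j
  simp [Matrix.mul_apply]

lemma dnSnd_mul (M N : M2 (DualNumber k)) :
    dnSnd (M * N) = dnFst M * dnSnd N + dnSnd M * dnFst N := by
  ext i j
  simp only [dnSnd_apply, Matrix.mul_apply, Matrix.add_apply, dnFst_apply,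
    TrivSqZeroExt.snd_sum, TrivSqZeroExt.snd_mul, smul_eq_mul, MulOpposite.smul_eq_mul_unop,
    MulOpposite.unop_op, Finset.sum_add_distrib]

@[simp] lemma dnFst_one : dnFst (1 : M2 (DualNumber k)) = 1 := by
  ext i j
  by_cases h : i = j
  · subst h; simp
  · simp [Matrix.one_apply_ne h]

@[simp] lemma dnSnd_one : dnSnd (1 : M2 (DualNumber k)) = 0 := by
  ext i j
  by_cases h : i = j
  · subst h; simp
  · simp [Matrix.one_apply_ne h]

lemma dnFst_add (M N : M2 (DualNumber k)) : dnFst (M + N) = dnFst M + dnFst N := by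
  ext i j; simp

lemma dnSnd_add (M N : M2 (DualNumber k)) : dnSnd (M + N) = dnSnd M + dnSnd N := by
  ext i j; simp

@[simp] lemma dnFst_map_inl (M : M2 k) :
    dnFst (M.map (TrivSqZeroExt.inl : k → DualNumber k)) = M := by
  ext i j; simp

@[simp] lemma dnSnd_map_inl (M : M2 k) :
    dnSnd (M.map (TrivSqZeroExt.inl : k → DualNumber k)) = 0 := by
  ext i j; simp

@[simp] lemma dnFst_map_inr (M : M2 k) :
    dnFst (M.map (TrivSqZeroExt.inr : k → DualNumber k)) = 0 := by
  ext i j; simp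

@[simp] lemma dnSnd_map_inr (M : M2 k) :
    dnSnd (M.map (TrivSqZeroExt.inr : k → DualNumber k)) = M := by
  ext i j; simp

/-- `M = M₀ + ε M₁` -/
lemma dn_eq_parts (M : M2 (DualNumber k)) :
    M = (dnFst M).map (TrivSqZeroExt.inl : k → DualNumber k) +
      (dnSnd M).map (TrivSqZeroExt.inr : k → DualNumber k) := by
  apply dn_ext
  · rw [dnFst_add, dnFst_map_inl, dnFst_map_inr, add_zero]
  · rw [dnSnd_add, dnSnd_map_inl, dnSnd_map_inr, zero_add]

end DN

section Lift

variable {𝒪 : Type} [CommRing 𝒪] [IsLocalRing 𝒪] (p : ℕ) [Fact p.Prime]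
  [CharP (ResidueField 𝒪) p] {ρbar : ResidualGaloisRep (ResidueField 𝒪)}
  (D : RigidDatum 𝒪 ρbar)

lemma dnFst_liftMat (c : GQ → (adRep p ρbar).V) (σ : GQ) :
    dnFst (liftMat p D c σ) = D.ρm σ := by
  unfold liftMat
  rw [dnFst_add, dnFst_map_inl, dnFst_map_inr, add_zero]

lemma dnSnd_liftMat (c : GQ → (adRep p ρbar).V) (σ : GQ) :
    dnSnd (liftMat p D c σ) = adMat p D (c σ) * D.ρm σ := by
  unfold liftMat
  rw [dnSnd_add, dnSnd_map_inl, dnSnd_map_inr, zero_add]

lemma rhom_mul_inv (σ : GQ) : D.ρm σ * D.ρm σ⁻¹ = 1 := by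
  rw [← map_mul, mul_inv_cancel, map_one]

lemma rhom_inv_mul (σ : GQ) : D.ρm σ⁻¹ * D.ρm σ = 1 := by
  rw [← map_mul, inv_mul_cancel, map_one]

lemma adMat_injective : Function.Injective (adMat p D : (adRep p ρbar).V → M2 (ResidueField 𝒪)) :=
  fun _ _ h => adVal_injective p ρbar ((LinearMap.toMatrix D.b D.b).injective h)

lemma adMat_add (x y : (adRep p ρbar).V) : adMat p D (x + y) = adMat p D x + adMat p D y := by
  unfold adMat
  rw [map_add, map_add]

lemma adMat_sub (x y : (adRep p ρbar).V) : adMat p D (x - y) = adMat p D x - adMat p D y := by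
  unfold adMat
  rw [map_sub, map_sub]

@[simp] lemma adMat_zero : adMat p D (0 : (adRep p ρbar).V) = 0 := by
  unfold adMat
  rw [map_zero, map_zero]

lemma adMat_eq_zero_iff (x : (adRep p ρbar).V) : adMat p D x = 0 ↔ x = 0 := by
  constructor
  · intro h
    exact adMat_injective p D (h.trans (adMat_zero p D).symm)
  · rintro rfl
    exact adMat_zero p D

lemma adMat_surjective (M : M2 (ResidueField 𝒪)) : ∃ x : (adRep p ρbar).V, adMat p D x = M := by
  obtain ⟨x, hx⟩ := exists_adVal_eq p ρbar ((LinearMap.toMatrix D.b D.b).symm M)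
  exact ⟨x, by unfold adMat; rw [hx, LinearEquiv.apply_symm_apply]⟩

lemma toMatrix_rho (σ : GQ) : LinearMap.toMatrix D.b D.b (ρbar.ρ σ) = D.ρm σ := (D.ρm_eq σ).symm

/-- `adMat (σ·x) = ρm σ · adMat x · ρm σ⁻¹` -/
lemma adMat_ρ (σ : GQ) (x : (adRep p ρbar).V) :
    adMat p D ((adRep p ρbar).ρ σ x) = D.ρm σ * adMat p D x * D.ρm σ⁻¹ := by
  unfold adMat
  rw [adVal_ρ, LinearMap.toMatrix_mul, LinearMap.toMatrix_mul, toMatrix_rho, toMatrix_rho]

/-- the trace of `adVal x` is the trace of its matrix -/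
lemma trace_adVal (x : (adRep p ρbar).V) :
    LinearMap.trace (ResidueField 𝒪) ρbar.V (adVal p ρbar x) = (adMat p D x).trace := by
  unfold adMat
  rw [LinearMap.trace_eq_matrix_trace (ResidueField 𝒪) D.b]

/-- `r σ = (1 + ε c(σ)) ρ̄(σ)` in terms of the two parts -/
lemma eq_liftMat_iff (c : GQ → (adRep p ρbar).V) (σ : GQ)
    (M : M2 (DualNumber (ResidueField 𝒪))) :
    M = liftMat p D c σ ↔ dnFst M = D.ρm σ ∧ dnSnd M = adMat p D (c σ) * D.ρm σ := by
  constructor
  · rintro rfl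
    exact ⟨dnFst_liftMat p D c σ, dnSnd_liftMat p D c σ⟩
  · rintro ⟨h0, h1⟩
    apply dn_ext
    · rw [h0, dnFst_liftMat]
    · rw [h1, dnSnd_liftMat]

/-- the matrix of the cocycle from the two parts -/
lemma adMat_eq_of_liftMat (c : GQ → (adRep p ρbar).V) (σ : GQ) :
    adMat p D (c σ) = dnSnd (liftMat p D c σ) * D.ρm σ⁻¹ := by
  rw [dnSnd_liftMat, mul_assoc, rhom_mul_inv, mul_one]

end Lift

end Fermat.Agent.TW.S

end
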