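/-
TW-S (helper54): transfer between a deformation `ρ` and its matrix form `(1 + εc)ρ̄`.
Shared by the pieces S-unr, S-trace, S-min, S-ord.

For `IsCocOf p D ρ c`:
* `isCocOf_conj`       : `ρ σ = e⁻¹ ∘ toLin'(liftMat c σ) ∘ e` for a linear equivalence `e`;
* `isCocOf_rho_eq_one_iff` : `ρ σ = 1 ↔ liftMat c σ = 1`;
* `isCocOf_det`, `isCocOf_charpoly` : determinant and characteristic polynomial of `ρ σ`;
* `isCocOf_mul`        : `liftMat c (g h) = liftMat c g * liftMat c h`;
* `isCocOf_matCont`    : the continuity of the matrix form.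
-/
import Fermat.Agent.TW.S.LiftMat

set_option autoImplicit false
set_option linter.unusedSectionVars false

noncomputable section

namespace Fermat.Agent.TW.S

open CategoryTheory groupCohomology IsLocalRing
open Fermat.Agent.PT Fermat.Agent.PT.B Fermat.Agent.S53 ExtCitation

variable {𝒪 : Type} [CommRing 𝒪] [IsLocalRing 𝒪] (p : ℕ) [Fact p.Prime]
  [CharP (ResidueField 𝒪) p] {ρbar : ResidualGaloisRep (ResidueField 𝒪)}
  (D : RigidDatum 𝒪 ρbar)
  {ρ : GaloisRepAdic (DualNumber (ResidueField 𝒪))} {c : GQ → (adRep p ρbar).V}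

/-- the deformation is conjugate to its matrix form -/
lemma isCocOf_conj (h : IsCocOf p D ρ c) :
    ∃ e : ρ.V ≃ₗ[DualNumber (ResidueField 𝒪)] (Fin 2 → DualNumber (ResidueField 𝒪)),
      ∀ σ : GQ, ρ.ρ σ = e.symm.conj (Matrix.toLin' (liftMat p D c σ)) := by
  obtain ⟨r, hr, ⟨e⟩, hlift⟩ := h
  refine ⟨e.toLinearEquiv, fun σ => ?_⟩
  apply LinearMap.ext
  intro x
  rw [LinearEquiv.conj_apply_apply, LinearEquiv.symm_symm, ← hlift σ]
  apply e.toLinearEquiv.injective
  rw [LinearEquiv.apply_symm_apply]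
  exact e.map_apply σ x

lemma isCocOf_rho_eq_one_iff (h : IsCocOf p D ρ c) (σ : GQ) :
    ρ.ρ σ = 1 ↔ liftMat p D c σ = 1 := by
  obtain ⟨e, he⟩ := isCocOf_conj p D h
  rw [he σ]
  constructor
  · intro h1
    have h2 : Matrix.toLin' (liftMat p D c σ) = 1 := by
      apply LinearMap.ext
      intro x
      have h4 := LinearMap.congr_fun h1 (e.symm x)
      rw [LinearEquiv.conj_apply_apply, LinearEquiv.symm_symm, LinearEquiv.apply_symm_apply,
        Module.End.one_apply] at h4
      rw [Module.End.one_apply]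
      exact e.symm.injective h4
    have h3 := congrArg LinearMap.toMatrix' h2
    rw [LinearMap.toMatrix'_toLin'] at h3
    rw [h3]
    exact LinearMap.toMatrix'_one
  · intro h1
    rw [h1, Matrix.toLin'_one]
    ext x
    simp [LinearEquiv.conj_apply]

lemma isCocOf_det (h : IsCocOf p D ρ c) (σ : GQ) :
    LinearMap.det (ρ.ρ σ) = (liftMat p D c σ).det := by
  obtain ⟨e, he⟩ := isCocOf_conj p D h
  rw [he σ, LinearEquiv.conj_apply, LinearMap.comp_assoc, LinearMap.det_conj,
    LinearMap.det_toLin']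

lemma isCocOf_charpoly (h : IsCocOf p D ρ c) (σ : GQ) :
    LinearMap.charpoly (ρ.ρ σ) = (liftMat p D c σ).charpoly := by
  obtain ⟨e, he⟩ := isCocOf_conj p D h
  rw [he σ, LinearEquiv.charpoly_conj, Matrix.charpoly_toLin']

lemma isCocOf_mul (h : IsCocOf p D ρ c) (g g' : GQ) :
    liftMat p D c (g * g') = liftMat p D c g * liftMat p D c g' := by
  obtain ⟨r, hr, -, hlift⟩ := h
  rw [← hlift, ← hlift, ← hlift, map_mul]

lemma isCocOf_one (h : IsCocOf p D ρ c) : liftMat p D c 1 = 1 := by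
  obtain ⟨r, hr, -, hlift⟩ := h
  rw [← hlift, map_one]

/-- the matrix form is trivial on `Gal(ℚ̄/F)` for some finite `F/ℚ` -/
lemma isCocOf_exists_level (h : IsCocOf p D ρ c) :
    ∃ F : QbarField, FiniteDimensional ℚ F ∧
      ∀ s : GQ, s ∈ F.fixingSubgroup → liftMat p D c s = 1 := by
  obtain ⟨r, hr, -, hlift⟩ := h
  obtain ⟨F, hF, hF2⟩ := hr 2
  refine ⟨F, hF, fun s hs => ?_⟩
  have hm : maximalIdeal (DualNumber (ResidueField 𝒪)) ^ 2 = ⊥ := by
    rw [eq_bot_iff]
    intro x hx
    rw [pow_two] at hx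
    refine Submodule.mul_induction_on hx ?_ ?_
    · intro a ha b hb
      rw [Ideal.mem_bot]
      have ha' : a.fst = 0 := by
        by_contra hne
        exact ha ((TrivSqZeroExt.isUnit_iff_isUnit_fst).2 (IsUnit.mk0 _ hne))
      have hb' : b.fst = 0 := by
        by_contra hne
        exact hb ((TrivSqZeroExt.isUnit_iff_isUnit_fst).2 (IsUnit.mk0 _ hne))
      apply TrivSqZeroExt.ext
      · simp [ha']
      · simp [ha', hb']
    · intro a b ha hb
      rw [Ideal.mem_bot] at ha hb ⊢
      rw [ha, hb, add_zero]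
  have h1 : ∀ i j, (r s - 1) i j = 0 := by
    intro i j
    have := hF2 s (fun x hx => (IntermediateField.mem_fixingSubgroup_iff F s).1 hs x hx) i j
    rw [hm] at this
    exact this
  rw [← hlift s]
  have h2 : r s - 1 = 0 := by
    apply Matrix.ext
    intro i j
    exact h1 i j
  exact sub_eq_zero.1 h2

end Fermat.Agent.TW.S

end
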