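import Fermat.Agent.TW.S.Plan
import Fermat.Agent.TW.S.Core

/-!
# TW-S / S-ord: interface of the split O1 – O4 (owner helper24)

* **O1** (helper48, `TW/S/OrdScalar.lean`): `stmtOrdScalar`, of type `StmtOrdScalar` below:
  the line `L` of a strictly ordinary deformation with cyclotomic determinant over `k[ε]`
  (at the place `padicPlace p`), with the two characters of the decomposition group in `k`.
* **O2** (helper22, `TW/S/OrdRed.lean`): `stmtOrdRed_of : StmtOrdScalar → StmtOrdRed`: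
  the line in the coordinates of the matrix form `(1 + ε c) ρ̄`, generated by `w₀ + ε w₁`, with
  `w₀` a generator of `L̄` (transport by `isCocOf_conj`, then `stmtLine`).
* **O3 + O4** (helper24, `TW/S/Ord.lean`): `stmtOrd_of_red : StmtOrdRed → StmtOrd` and the final
  `stmtOrd : StmtOrd`.
-/

set_option autoImplicit false

noncomputable section

namespace Fermat.Agent.TW.S

open CategoryTheory groupCohomology IsLocalRing
open Fermat.Agent.PT Fermat.Agent.PT.B Fermat.Agent.S53 Fermat.Agent.TW.L ExtCitation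

/-- the vector `w₀ + ε w₁` of `k[ε]²` -/
def sordVec {k : Type} [Field k] (w0 w1 : Fin 2 → k) : Fin 2 → DualNumber k :=
  fun i => TrivSqZeroExt.inl (w0 i) + TrivSqZeroExt.inr (w1 i)

/-- **O1** (the statement of helper48's `stmtOrdScalar`). -/
def StmtOrdScalar : Prop :=
  ∀ (k : Type) [Field k] (p : ℕ) [Fact p.Prime] [CharP k p], p ≠ 2 →
    ∀ (ρ : GaloisRepAdic (DualNumber k)), ρ.DetIsCyclotomic p → ρ.IsStrictOrdinaryAt p →
    ∃ L : Submodule (DualNumber k) ρ.V,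
      (∃ b : Module.Basis (Fin 2) (DualNumber k) ρ.V, L = DualNumber k ∙ b 0) ∧
      (∀ σ ∈ (padicPlace p).decompositionSubgroup ℚ, ∀ v ∈ L, ρ.ρ σ v ∈ L) ∧
      (∀ σ ∈ (padicPlace p).inertiaSubgroupIn ℚ, ∀ v : ρ.V, ρ.ρ σ v - v ∈ L) ∧
      ∀ σ ∈ (padicPlace p).decompositionSubgroup ℚ, ∃ x z : k, x ≠ 0 ∧ z ≠ 0 ∧
        (∀ w ∈ L, ρ.ρ σ w = (TrivSqZeroExt.inl x : DualNumber k) • w) ∧
        (∀ v : ρ.V, ρ.ρ σ v - (TrivSqZeroExt.inl z : DualNumber k) • v ∈ L)

/-- **O2**: the ordinary line of the deformation in the coordinates of the matrix form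
`r σ = liftMat p D c σ = (1 + ε c(σ)) ρ̄(σ)`: it is generated by `w = w₀ + ε w₁`, where `w₀ ≠ 0`
are the coordinates (basis `D.b`) of a vector of `L̄`; every `σ` of the decomposition group at
`padicPlace p` acts on `w` by a scalar `x ∈ kˣ` and on the quotient by a scalar `z ∈ kˣ`. -/
def StmtOrdRed : Prop :=
  ∀ (𝒪 : Type) [CommRing 𝒪] [IsLocalRing 𝒪] (p : ℕ) [Fact p.Prime] [CharP (ResidueField 𝒪) p]
    (ρbar : ResidualGaloisRep (ResidueField 𝒪)) (D : RigidDatum 𝒪 ρbar)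
    (ρ : GaloisRepAdic (DualNumber (ResidueField 𝒪))) (c : GQ → (adRep p ρbar).V)
    (Lbar : Submodule (ResidueField 𝒪) ρbar.V), p ≠ 2 →
    IsCocOf p D ρ c → ρ.DetIsCyclotomic p → ρ.IsStrictOrdinaryAt p → IsOrdLine p ρbar Lbar →
    ∃ w0 w1 : Fin 2 → ResidueField 𝒪, w0 ≠ 0 ∧ D.b.equivFun.symm w0 ∈ Lbar ∧
      ∀ σ ∈ (padicPlace p).decompositionSubgroup ℚ, ∃ x z : ResidueField 𝒪, x ≠ 0 ∧ z ≠ 0 ∧
        (liftMat p D c σ).mulVec (sordVec w0 w1) =
          (TrivSqZeroExt.inl x : DualNumber (ResidueField 𝒪)) • sordVec w0 w1 ∧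
        ∀ v : Fin 2 → DualNumber (ResidueField 𝒪), ∃ t : DualNumber (ResidueField 𝒪),
          (liftMat p D c σ).mulVec v - (TrivSqZeroExt.inl z : DualNumber (ResidueField 𝒪)) • v =
            t • sordVec w0 w1

end Fermat.Agent.TW.S

end
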