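/-
TW-S / S-ord, GLUE (helper48): `StmtOrdRed` from O1 (`stmtOrdScalar`), the conjugation
`isCocOf_conj` and O2 (helper22's `sord_red`, taken here as the hypothesis `hred`).

`sord_glue_core` : the statement for given `e`, `L`, `b`;
`stmtOrdRed_of`  : `StmtOrdScalar → (hred) → StmtOrdRed`.
-/
import Fermat.Agent.TW.S.OrdPlan

set_option autoImplicit false
set_option linter.unusedSectionVars false
set_option linter.style.haveILetI false

noncomputable section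

namespace Fermat.Agent.TW.S

open CategoryTheory groupCohomology IsLocalRing
open Fermat.Agent.PT Fermat.Agent.PT.B Fermat.Agent.S53 Fermat.Agent.TW.L ExtCitation

section sordGlue

variable {𝒪 : Type} [CommRing 𝒪] [IsLocalRing 𝒪] (p : ℕ) [Fact p.Prime]
  [CharP (ResidueField 𝒪) p] {ρbar : ResidualGaloisRep (ResidueField 𝒪)}
  (D : RigidDatum 𝒪 ρbar)
  {ρ : GaloisRepAdic (DualNumber (ResidueField 𝒪))} {c : GQ → (adRep p ρbar).V}

/-- a vector of `k[ε]²` is `w₀ + ε w₁` -/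
lemma sordVec_fst_snd {k : Type} [Field k] (w : Fin 2 → DualNumber k) :
    sordVec (fun i => (w i).fst) (fun i => (w i).snd) = w := by
  funext i
  exact TrivSqZeroExt.inl_fst_add_inr_snd_eq (w i)

/-- the conjugation `e` intertwines `ρ σ` and the matrix form -/
lemma sord_glue_conj (e : ρ.V ≃ₗ[DualNumber (ResidueField 𝒪)]
      (Fin 2 → DualNumber (ResidueField 𝒪)))
    (he : ∀ σ : GQ, ρ.ρ σ = e.symm.conj (Matrix.toLin' (liftMat p D c σ))) (σ : GQ) (v : ρ.V) :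
    e (ρ.ρ σ v) = (liftMat p D c σ).mulVec (e v) := by
  rw [he σ, LinearEquiv.conj_apply_apply, LinearEquiv.symm_symm, LinearEquiv.apply_symm_apply,
    Matrix.toLin'_apply]

/-- **The glue of S-ord**, for a given conjugation and a given line. -/
theorem sord_glue_core (Lbar : Submodule (ResidueField 𝒪) ρbar.V)
    (e : ρ.V ≃ₗ[DualNumber (ResidueField 𝒪)] (Fin 2 → DualNumber (ResidueField 𝒪)))
    (he : ∀ σ : GQ, ρ.ρ σ = e.symm.conj (Matrix.toLin' (liftMat p D c σ)))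
    (L : Submodule (DualNumber (ResidueField 𝒪)) ρ.V)
    (b : Module.Basis (Fin 2) (DualNumber (ResidueField 𝒪)) ρ.V)
    (hL : L = DualNumber (ResidueField 𝒪) ∙ b 0)
    (hscal : ∀ σ ∈ (padicPlace p).decompositionSubgroup ℚ, ∃ x z : ResidueField 𝒪,
      x ≠ 0 ∧ z ≠ 0 ∧
      (∀ w ∈ L, ρ.ρ σ w = (TrivSqZeroExt.inl x : DualNumber (ResidueField 𝒪)) • w) ∧
      (∀ v : ρ.V, ρ.ρ σ v - (TrivSqZeroExt.inl z : DualNumber (ResidueField 𝒪)) • v ∈ L))
    (hred : (∑ i, (e (b 0) i).fst • D.b i) ≠ 0 ∧ (∑ i, (e (b 0) i).fst • D.b i) ∈ Lbar) :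
    ∃ w0 w1 : Fin 2 → ResidueField 𝒪, w0 ≠ 0 ∧ D.b.equivFun.symm w0 ∈ Lbar ∧
      ∀ σ ∈ (padicPlace p).decompositionSubgroup ℚ, ∃ x z : ResidueField 𝒪, x ≠ 0 ∧ z ≠ 0 ∧
        (liftMat p D c σ).mulVec (sordVec w0 w1) =
          (TrivSqZeroExt.inl x : DualNumber (ResidueField 𝒪)) • sordVec w0 w1 ∧
        ∀ v : Fin 2 → DualNumber (ResidueField 𝒪), ∃ t : DualNumber (ResidueField 𝒪),
          (liftMat p D c σ).mulVec v - (TrivSqZeroExt.inl z : DualNumber (ResidueField 𝒪)) • v =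
            t • sordVec w0 w1 := by
  have hb0 : b 0 ∈ L := by rw [hL]; exact Submodule.mem_span_singleton_self _
  have hsum : D.b.equivFun.symm (fun i => (e (b 0) i).fst) = ∑ i, (e (b 0) i).fst • D.b i :=
    Module.Basis.equivFun_symm_apply D.b _
  refine ⟨fun i => (e (b 0) i).fst, fun i => (e (b 0) i).snd, ?_, ?_, ?_⟩
  · intro h0
    apply hred.1
    rw [← hsum, h0, map_zero]
  · rw [hsum]
    exact hred.2
  · intro σ hσ
    obtain ⟨x, z, hx0, hz0, hx, hz⟩ := hscal σ hσ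
    refine ⟨x, z, hx0, hz0, ?_, fun v => ?_⟩
    · rw [sordVec_fst_snd, ← sord_glue_conj p D e he, hx _ hb0, map_smul]
    · have h1 := hz (e.symm v)
      rw [hL, Submodule.mem_span_singleton] at h1
      obtain ⟨t, ht⟩ := h1
      refine ⟨t, ?_⟩
      rw [sordVec_fst_snd]
      have h2 := congrArg e ht
      rw [map_smul, map_sub, map_smul, sord_glue_conj p D e he, LinearEquiv.apply_symm_apply]
        at h2
      exact h2.symm

end sordGlue

/-- **GLUE of S-ord**: `StmtOrdRed` from O1 and O2 (O2 in the form of helper22's `sord_red`). -/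
theorem stmtOrdRed_of (hscal : StmtOrdScalar)
    (hred : ∀ (𝒪 : Type) [CommRing 𝒪] [IsLocalRing 𝒪] (p : ℕ) [Fact p.Prime]
      [CharP (ResidueField 𝒪) p] (ρbar : ResidualGaloisRep (ResidueField 𝒪))
      (D : RigidDatum 𝒪 ρbar) (ρ : GaloisRepAdic (DualNumber (ResidueField 𝒪)))
      (c : GQ → (adRep p ρbar).V) (Lbar : Submodule (ResidueField 𝒪) ρbar.V),
      p ≠ 2 → ρ.DetIsCyclotomic p → IsOrdLine p ρbar Lbar →
      ∀ (e : ρ.V ≃ₗ[DualNumber (ResidueField 𝒪)] (Fin 2 → DualNumber (ResidueField 𝒪))),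
      (∀ σ : GQ, ρ.ρ σ = e.symm.conj (Matrix.toLin' (liftMat p D c σ))) →
      ∀ (L : Submodule (DualNumber (ResidueField 𝒪)) ρ.V)
        (b : Module.Basis (Fin 2) (DualNumber (ResidueField 𝒪)) ρ.V),
      L = DualNumber (ResidueField 𝒪) ∙ b 0 →
      (∀ σ ∈ (padicPlace p).decompositionSubgroup ℚ, ∀ v ∈ L, ρ.ρ σ v ∈ L) →
      (∀ σ ∈ (padicPlace p).inertiaSubgroupIn ℚ, ∀ v : ρ.V, ρ.ρ σ v - v ∈ L) →
      (∑ i, (e (b 0) i).fst • D.b i) ≠ 0 ∧ (∑ i, (e (b 0) i).fst • D.b i) ∈ Lbar) :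
    StmtOrdRed := by
  intro 𝒪 _ _ p _ _ ρbar D ρ c Lbar hp2 hcoc hdet hord hLbar
  obtain ⟨L, ⟨b, hb⟩, hD, hI, hS⟩ := hscal (ResidueField 𝒪) p hp2 ρ hdet hord
  obtain ⟨e, he⟩ := isCocOf_conj p D hcoc
  exact sord_glue_core p D Lbar e he L b hb hS
    (hred 𝒪 p ρbar D ρ c Lbar hp2 hdet hLbar e he L b hb hD hI)

end Fermat.Agent.TW.S

end
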