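/-
TW-S, piece S-ord / O2 (helper22): the ordinary line of a strictly ordinary deformation `ρ` of
`ρ̄` to `k[ε]` reduces modulo `ε` to THE ordinary line `L̄` of `ρ̄`.

* `sordRed D w = Σ (w i).fst • D.b i` : reduction modulo `ε` of coordinates, read in the basis
  `D.b` of `V̄`;
* `sordRed_add`, `sordRed_sub`, `sordRed_smul`, `sordRed_mulVec`, `sordRed_liftMat`,
  `sordRed_surjective`, `sordRed_eq_zero_iff`;
* `sord_det_residual` : `det ρ` cyclotomic ⇒ `det ρ̄` cyclotomic;
* `sord_red_line`     : the reduction of an ordinary line of `ρ` is an ordinary line of `ρ̄`;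
* `sord_red`          : for ANY `e` conjugating `ρ` to `(1 + εc)ρ̄` and ANY ordinary line
  `L = A ∙ b 0` of `ρ` at `padicPlace p`: `sordRed D (e (b 0)) ≠ 0` and `∈ L̄`.
-/
import Fermat.Agent.TW.S.Core
import Fermat.Agent.TW.S.Line

set_option autoImplicit false
set_option linter.unusedSectionVars false
set_option linter.unusedVariables false
set_option linter.style.haveILetI false

noncomputable section

namespace Fermat.Agent.TW.S

open CategoryTheory groupCohomology IsLocalRing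
open Fermat.Agent.PT Fermat.Agent.PT.B Fermat.Agent.S53 Fermat.Agent.TW.L ExtCitation

section Red

variable {𝒪 : Type} [CommRing 𝒪] [IsLocalRing 𝒪]
  {ρbar : ResidualGaloisRep (ResidueField 𝒪)} (D : RigidDatum 𝒪 ρbar)

/-- Reduction modulo `ε` of coordinates, read in the basis `D.b` of `V̄`. -/
def sordRed (w : Fin 2 → DualNumber (ResidueField 𝒪)) : ρbar.V :=
  ∑ i, (w i).fst • D.b i

lemma sordRed_eq (w : Fin 2 → DualNumber (ResidueField 𝒪)) :
    sordRed D w = D.b.equivFun.symm (fun i => (w i).fst) := by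
  rw [Module.Basis.equivFun_symm_apply]
  rfl

lemma sordRed_add (w w' : Fin 2 → DualNumber (ResidueField 𝒪)) :
    sordRed D (w + w') = sordRed D w + sordRed D w' := by
  simp only [sordRed, Pi.add_apply, TrivSqZeroExt.fst_add, add_smul, Finset.sum_add_distrib]

lemma sordRed_zero : sordRed D (0 : Fin 2 → DualNumber (ResidueField 𝒪)) = 0 := by
  simp only [sordRed, Pi.zero_apply, TrivSqZeroExt.fst_zero, zero_smul, Finset.sum_const_zero]

lemma sordRed_smul (a : DualNumber (ResidueField 𝒪)) (w : Fin 2 → DualNumber (ResidueField 𝒪)) :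
    sordRed D (a • w) = a.fst • sordRed D w := by
  simp only [sordRed, Pi.smul_apply, smul_eq_mul, TrivSqZeroExt.fst_mul, Finset.smul_sum,
    mul_smul]

lemma sordRed_neg (w : Fin 2 → DualNumber (ResidueField 𝒪)) :
    sordRed D (-w) = - sordRed D w := by
  simp only [sordRed, Pi.neg_apply, TrivSqZeroExt.fst_neg, neg_smul, Finset.sum_neg_distrib]

lemma sordRed_sub (w w' : Fin 2 → DualNumber (ResidueField 𝒪)) :
    sordRed D (w - w') = sordRed D w - sordRed D w' := by
  rw [sub_eq_add_neg, sordRed_add, sordRed_neg, ← sub_eq_add_neg]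

lemma sordRed_eq_zero_iff (w : Fin 2 → DualNumber (ResidueField 𝒪)) :
    sordRed D w = 0 ↔ ∀ i, (w i).fst = 0 := by
  rw [sordRed_eq, LinearEquiv.map_eq_zero_iff]
  constructor
  · intro h i
    exact congrFun h i
  · intro h
    funext i
    exact h i

lemma sordRed_surjective (v : ρbar.V) :
    ∃ w : Fin 2 → DualNumber (ResidueField 𝒪), sordRed D w = v := by
  refine ⟨fun i => TrivSqZeroExt.inl (D.b.equivFun v i), ?_⟩
  rw [sordRed_eq]
  simp only [TrivSqZeroExt.fst_inl]
  exact D.b.equivFun.symm_apply_apply v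

/-- Reduction commutes with matrices. -/
lemma sordRed_mulVec (M : M2 (DualNumber (ResidueField 𝒪)))
    (w : Fin 2 → DualNumber (ResidueField 𝒪)) :
    sordRed D (M.mulVec w) = Matrix.toLin D.b D.b (dnFst M) (sordRed D w) := by
  rw [Matrix.toLin_apply, sordRed_eq D w]
  have h1 : ∀ j, D.b.repr (D.b.equivFun.symm (fun i => (w i).fst)) j = (w j).fst := by
    intro j
    have := congrFun (D.b.equivFun.apply_symm_apply (fun i => (w i).fst)) j
    simpa [Module.Basis.equivFun_apply] using this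
  unfold sordRed
  refine Finset.sum_congr rfl (fun i _ => ?_)
  congr 1
  simp only [Matrix.mulVec, dotProduct, TrivSqZeroExt.fst_sum, TrivSqZeroExt.fst_mul,
    dnFst_apply, h1]

end Red

section Lift

variable {𝒪 : Type} [CommRing 𝒪] [IsLocalRing 𝒪] (p : ℕ) [Fact p.Prime]
  [CharP (ResidueField 𝒪) p] {ρbar : ResidualGaloisRep (ResidueField 𝒪)}
  (D : RigidDatum 𝒪 ρbar)

/-- Reduction intertwines `(1 + εc)ρ̄` and `ρ̄`. -/
lemma sordRed_liftMat (c : GQ → (adRep p ρbar).V) (σ : GQ)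
    (w : Fin 2 → DualNumber (ResidueField 𝒪)) :
    sordRed D ((liftMat p D c σ).mulVec w) = ρbar.ρ σ (sordRed D w) := by
  rw [sordRed_mulVec, dnFst_liftMat, D.ρm_eq σ, Matrix.toLin_toMatrix]

/-- `ε ≠ 0`. -/
lemma sord_eps_ne_zero : (TrivSqZeroExt.inr 1 : DualNumber (ResidueField 𝒪)) ≠ 0 := by
  intro h
  have := congrArg TrivSqZeroExt.snd h
  rw [TrivSqZeroExt.snd_inr, TrivSqZeroExt.snd_zero] at this
  exact one_ne_zero this

/-- `det ρ` cyclotomic ⇒ `det ρ̄` cyclotomic. -/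
theorem sord_det_residual (ρ : GaloisRepAdic (DualNumber (ResidueField 𝒪)))
    (c : GQ → (adRep p ρbar).V) (hdet : ρ.DetIsCyclotomic p)
    (hdetρ : ∀ σ : GQ, LinearMap.det (ρ.ρ σ) = (liftMat p D c σ).det) :
    (GaloisRepAdic.ofResidualGaloisRep ρbar).DetIsCyclotomic p := by
  have hp0 : ((p : ℕ) : ResidueField 𝒪) = 0 := CharP.cast_eq_zero _ p
  refine ⟨?_, fun n σ a ha => ?_⟩
  · rw [hp0]
    exact Ideal.zero_mem _
  · have h1 := hdet.2 n σ a ha
    rw [Ideal.mem_span_singleton] at h1 ⊢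
    obtain ⟨t, ht⟩ := h1
    refine ⟨t.fst, ?_⟩
    have h2 := congrArg TrivSqZeroExt.fst ht
    rw [TrivSqZeroExt.fst_sub, TrivSqZeroExt.fst_mul, TrivSqZeroExt.fst_natCast,
      TrivSqZeroExt.fst_natCast, hdetρ σ] at h2
    have h3 : ((liftMat p D c σ).det).fst = LinearMap.det (ρbar.ρ σ) := by
      have e1 := RingHom.map_det
        (TrivSqZeroExt.fstHom (ResidueField 𝒪) (ResidueField 𝒪) (ResidueField 𝒪)).toRingHom
        (liftMat p D c σ)
      have e2 : (TrivSqZeroExt.fstHom (ResidueField 𝒪) (ResidueField 𝒪)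
          (ResidueField 𝒪)).toRingHom.mapMatrix (liftMat p D c σ) = D.ρm σ :=
        dnFst_liftMat p D c σ
      rw [e2] at e1
      have e3 : ((liftMat p D c σ).det).fst = (D.ρm σ).det := e1
      rw [e3, D.ρm_eq σ, LinearMap.det_toMatrix]
    rw [h3] at h2
    exact h2

end Lift

section Line

variable {k : Type} [Field k] {A : Type} [CommRing A]
  {M : Type} [AddCommGroup M] [Module A M] {V : Type} [AddCommGroup V] [Module k V]
  {G : Type}

/-- Abstract form: a semilinear surjection `π : M → V` over `φ : A → k`, equivariant, maps an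
ordinary line `A ∙ m₀` with `π m₀ ≠ 0` onto an ordinary line. -/
theorem sord_red_line_abs (φ : A → k) (π : M → V)
    (hadd : ∀ x y, π (x - y) = π x - π y) (hsmul : ∀ (a : A) (x : M), π (a • x) = φ a • π x)
    (hsurj : Function.Surjective π)
    (r : G → M →ₗ[A] M) (rb : G → V →ₗ[k] V) (heq : ∀ σ x, π (r σ x) = rb σ (π x))
    (DD II : Set G) (L : Submodule A M) (m₀ : M) (hL : L = A ∙ m₀) (hm₀ : π m₀ ≠ 0)
    (hD : ∀ σ ∈ DD, ∀ v ∈ L, r σ v ∈ L)
    (hI : ∀ σ ∈ II, ∀ v : M, r σ v - v ∈ L) :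
    Module.finrank k (k ∙ π m₀) = 1 ∧
      (∀ σ ∈ DD, ∀ v ∈ k ∙ π m₀, rb σ v ∈ k ∙ π m₀) ∧
      (∀ σ ∈ II, ∀ v : V, rb σ v - v ∈ k ∙ π m₀) := by
  have hLπ : ∀ x ∈ L, π x ∈ k ∙ π m₀ := by
    intro x hx
    rw [hL, Submodule.mem_span_singleton] at hx
    obtain ⟨a, rfl⟩ := hx
    rw [hsmul]
    exact Submodule.smul_mem _ _ (Submodule.mem_span_singleton_self _)
  refine ⟨finrank_span_singleton hm₀, ?_, ?_⟩
  · intro σ hσ v hv
    rw [Submodule.mem_span_singleton] at hv
    obtain ⟨t, rfl⟩ := hv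
    rw [map_smul]
    refine Submodule.smul_mem _ _ ?_
    rw [← heq]
    exact hLπ _ (hD σ hσ m₀ (by rw [hL]; exact Submodule.mem_span_singleton_self _))
  · intro σ hσ v
    obtain ⟨x, rfl⟩ := hsurj v
    rw [← heq, ← hadd]
    exact hLπ _ (hI σ hσ x)

end Line

/-- **S-ord / O2**: for any `e` conjugating `ρ` to its matrix form `(1 + εc)ρ̄` and any ordinary
line `L = A ∙ b 0` of `ρ` at `padicPlace p`, the reduction modulo `ε` of the coordinates of the
generator is a nonzero vector of THE ordinary line `L̄` of `ρ̄`. -/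
theorem sord_red (𝒪 : Type) [CommRing 𝒪] [IsLocalRing 𝒪] (p : ℕ) [Fact p.Prime]
    [CharP (ResidueField 𝒪) p] (ρbar : ResidualGaloisRep (ResidueField 𝒪))
    (D : RigidDatum 𝒪 ρbar) (ρ : GaloisRepAdic (DualNumber (ResidueField 𝒪)))
    (c : GQ → (adRep p ρbar).V) (Lbar : Submodule (ResidueField 𝒪) ρbar.V)
    (hp2 : p ≠ 2) (hdet : ρ.DetIsCyclotomic p) (hLbar : IsOrdLine p ρbar Lbar)
    (e : ρ.V ≃ₗ[DualNumber (ResidueField 𝒪)] (Fin 2 → DualNumber (ResidueField 𝒪)))
    (he : ∀ σ : GQ, ρ.ρ σ = e.symm.conj (Matrix.toLin' (liftMat p D c σ)))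
    (L : Submodule (DualNumber (ResidueField 𝒪)) ρ.V)
    (b : Module.Basis (Fin 2) (DualNumber (ResidueField 𝒪)) ρ.V)
    (hL : L = DualNumber (ResidueField 𝒪) ∙ b 0)
    (hD : ∀ σ ∈ (padicPlace p).decompositionSubgroup ℚ, ∀ v ∈ L, ρ.ρ σ v ∈ L)
    (hI : ∀ σ ∈ (padicPlace p).inertiaSubgroupIn ℚ, ∀ v : ρ.V, ρ.ρ σ v - v ∈ L) :
    sordRed D (e (b 0)) ≠ 0 ∧ sordRed D (e (b 0)) ∈ Lbar := by
  -- equivariance of `e`
  have hee : ∀ (σ : GQ) (x : ρ.V), e (ρ.ρ σ x) = (liftMat p D c σ).mulVec (e x) := by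
    intro σ x
    rw [he σ, LinearEquiv.conj_apply_apply, LinearEquiv.symm_symm, LinearEquiv.apply_symm_apply,
      Matrix.toLin'_apply]
  -- the determinant
  have hdetρ : ∀ σ : GQ, LinearMap.det (ρ.ρ σ) = (liftMat p D c σ).det := by
    intro σ
    rw [he σ, LinearEquiv.conj_apply, LinearMap.comp_assoc, LinearMap.det_conj,
      LinearMap.det_toLin']
  have hdetbar := sord_det_residual p D ρ c hdet hdetρ
  -- the generator reduces to a nonzero vector
  have hne : sordRed D (e (b 0)) ≠ 0 := by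
    intro h0
    rw [sordRed_eq_zero_iff] at h0
    have h1 : (TrivSqZeroExt.inr 1 : DualNumber (ResidueField 𝒪)) • e (b 0) = 0 := by
      funext i
      rw [Pi.smul_apply, smul_eq_mul, Pi.zero_apply]
      apply TrivSqZeroExt.ext
      · rw [TrivSqZeroExt.fst_mul, TrivSqZeroExt.fst_inr, zero_mul, TrivSqZeroExt.fst_zero]
      · rw [TrivSqZeroExt.snd_mul, TrivSqZeroExt.fst_inr, h0 i, TrivSqZeroExt.snd_zero]
        simp
    rw [← map_smul, LinearEquiv.map_eq_zero_iff] at h1
    have h2 := congrArg (fun x => b.repr x 0) h1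
    simp only [map_smul, Module.Basis.repr_self, Finsupp.smul_single, smul_eq_mul, mul_one,
      Finsupp.single_eq_same, map_zero, Finsupp.coe_zero, Pi.zero_apply] at h2
    exact sord_eps_ne_zero h2
  -- the reduced line is ordinary
  obtain ⟨h1, h2, h3⟩ := sord_red_line_abs (k := ResidueField 𝒪)
    (fun a : DualNumber (ResidueField 𝒪) => a.fst) (fun x : ρ.V => sordRed D (e x))
    (fun x y => by
      show sordRed D (e (x - y)) = sordRed D (e x) - sordRed D (e y)
      rw [map_sub, sordRed_sub])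
    (fun a x => by
      show sordRed D (e (a • x)) = a.fst • sordRed D (e x)
      rw [map_smul, sordRed_smul])
    (fun v => by
      obtain ⟨w, hw⟩ := sordRed_surjective D v
      refine ⟨e.symm w, ?_⟩
      show sordRed D (e (e.symm w)) = v
      rw [LinearEquiv.apply_symm_apply, hw])
    (fun σ => ρ.ρ σ) (fun σ => ρbar.ρ σ)
    (fun σ x => by
      show sordRed D (e (ρ.ρ σ x)) = ρbar.ρ σ (sordRed D (e x))
      rw [hee, sordRed_liftMat])
    ((padicPlace p).decompositionSubgroup ℚ : Set GQ)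
    ((padicPlace p).inertiaSubgroupIn ℚ : Set GQ) L (b 0) hL hne hD hI
  have hline : IsOrdLine p ρbar ((ResidueField 𝒪) ∙ sordRed D (e (b 0))) := ⟨h1, h2, h3⟩
  have heq := stmtLine p hp2 (ResidueField 𝒪) ρbar hdetbar _ _ hline hLbar
  exact ⟨hne, heq ▸ Submodule.mem_span_singleton_self _⟩

end Fermat.Agent.TW.S

end
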