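import Fermat.Agent.TW.S.Plan

/-!
# TW-S / S-trace

`stmtTrace : StmtTrace`: the cocycle of a deformation of `ρ̄` to `k[ε]` with cyclotomic
determinant has trace `0`.

Proof.  Every `σ` acts on `μ_p` by an `a`-th power (`strace_exists_exp`), and `p = 0` in `k[ε]`,
so `det ρ(σ) = a` is a constant: its `ε`-part vanishes.  On the other hand
`det ((1 + ε c) ρ̄) = det ρ̄ + ε · det ρ̄ · tr c` (`strace_snd_det`), and `det ρ̄(σ)` is a unit.
-/

set_option autoImplicit false

noncomputable section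

namespace Fermat.Agent.TW.S

open CategoryTheory groupCohomology IsLocalRing
open Fermat.Agent.PT Fermat.Agent.PT.B Fermat.Agent.S53 Fermat.Agent.TW.L ExtCitation

/-- every `σ` acts on the `n`-th roots of unity by an `a`-th power -/
theorem strace_exists_exp (n : ℕ) [NeZero n] (σ : GQ) :
    ∃ a : ℕ, ∀ μ : AlgebraicClosure ℚ, μ ^ n = 1 → σ μ = μ ^ a := by
  refine ⟨(modularCyclotomicCharacter.toFun n
    (σ : AlgebraicClosure ℚ ≃+* AlgebraicClosure ℚ)).val, fun μ hμ => ?_⟩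
  have hu : IsUnit μ := IsUnit.of_pow_eq_one hμ (NeZero.ne n)
  obtain ⟨u, rfl⟩ := hu
  have hmem : u ∈ rootsOfUnity n (AlgebraicClosure ℚ) := by
    rw [mem_rootsOfUnity]
    exact Units.ext (by simpa using hμ)
  have := modularCyclotomicCharacter.toFun_spec
    (σ : AlgebraicClosure ℚ ≃+* AlgebraicClosure ℚ) (n := n) ⟨u, hmem⟩
  simpa using this

/-- the `ε`-part of `det (P + ε C P)` for `2 × 2` matrices -/
theorem strace_snd_det {k : Type} [Field k] (P C : M2 k) :
    (Matrix.det (P.map (TrivSqZeroExt.inl : k → DualNumber k) +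
      (C * P).map (TrivSqZeroExt.inr : k → DualNumber k))).snd = P.det * C.trace := by
  simp only [Matrix.det_fin_two, Matrix.trace_fin_two, Matrix.add_apply, Matrix.map_apply,
    Matrix.mul_apply, Fin.sum_univ_two, TrivSqZeroExt.snd_sub, TrivSqZeroExt.snd_mul,
    TrivSqZeroExt.fst_add, TrivSqZeroExt.snd_add, TrivSqZeroExt.fst_inl, TrivSqZeroExt.snd_inl,
    TrivSqZeroExt.fst_inr, TrivSqZeroExt.snd_inr, smul_eq_mul, MulOpposite.smul_eq_mul_unop,
    MulOpposite.unop_op, add_zero, zero_add]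
  ring

/-- **S-trace.** -/
theorem stmtTrace : StmtTrace := by
  intro 𝒪 _ _ p _ _ ρbar D ρ c hcoc hdet σ
  obtain ⟨r, hr, ⟨e⟩, hrσ⟩ := hcoc
  have : NeZero (p ^ 1) := ⟨pow_ne_zero _ (Fact.out : p.Prime).ne_zero⟩
  obtain ⟨a, ha⟩ := strace_exists_exp (p ^ 1) σ
  have h1 := hdet.2 1 σ a ha
  have hp0 : (((p ^ 1 : ℕ)) : DualNumber (ResidueField 𝒪)) = 0 := by
    rw [pow_one]
    refine TrivSqZeroExt.ext ?_ ?_
    · rw [TrivSqZeroExt.fst_natCast, CharP.cast_eq_zero, TrivSqZeroExt.fst_zero]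
    · rw [TrivSqZeroExt.snd_natCast, TrivSqZeroExt.snd_zero]
  rw [hp0, Ideal.span_singleton_eq_bot.mpr rfl, Ideal.mem_bot, sub_eq_zero] at h1
  -- the determinant of `ρ σ` is that of the matrix
  have hconj : (ofMatrix r hr).ρ σ =
      (e.toLinearEquiv : ρ.V →ₗ[_] _) ∘ₗ ρ.ρ σ ∘ₗ (e.toLinearEquiv.symm : _ →ₗ[_] ρ.V) := by
    refine LinearMap.ext fun v => ?_
    rw [LinearMap.comp_apply, LinearMap.comp_apply, LinearEquiv.coe_coe, LinearEquiv.coe_coe,
      e.map_apply, LinearEquiv.apply_symm_apply]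
  have hdetr : LinearMap.det (ρ.ρ σ) = Matrix.det (r σ) := by
    rw [← LinearMap.det_conj (ρ.ρ σ) e.toLinearEquiv, ← hconj]
    exact LinearMap.det_toLin' (r σ)
  rw [hdetr, hrσ] at h1
  have h2 := congrArg TrivSqZeroExt.snd h1
  rw [liftMat, strace_snd_det, TrivSqZeroExt.snd_natCast] at h2
  have hunit : (D.ρm σ).det ≠ 0 := by
    have h3 : (D.ρm σ).det * (D.ρm σ⁻¹).det = 1 := by
      rw [← Matrix.det_mul, ← map_mul, mul_inv_cancel, map_one, Matrix.det_one]
    exact left_ne_zero_of_mul_eq_one h3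
  rw [LinearMap.trace_eq_matrix_trace _ D.b]
  exact (mul_eq_zero.mp h2).resolve_left hunit

end Fermat.Agent.TW.S

end
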