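/-
TW-S / S-ord, piece O1 (helper48): for a strictly ordinary deformation `ρ` over `k[ε]` with
cyclotomic determinant (`p` odd), the two characters of the decomposition group at `p` on the
line `L` and on `V/L` take values in `k` (no `ε`-part).

Proof.  `x = a z` (strictness, `n = 1`, `p = 0` in `k[ε]`) and `x z = det ρ(σ) = a`
(basis adapted to `L`; cyclotomic determinant); `a` is a unit, so `z² = 1`, whose `ε`-part is
`2 z₀ z₁ = 0`.
-/
import Fermat.Agent.TW.S.Trace
import Fermat.Agent.TW.L.FrobExists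

set_option autoImplicit false
set_option linter.unusedSectionVars false
set_option linter.style.haveILetI false

noncomputable section

namespace Fermat.Agent.TW.S

open CategoryTheory groupCohomology IsLocalRing
open Fermat.Agent.PT Fermat.Agent.PT.B Fermat.Agent.S53 Fermat.Agent.TW.L ExtCitation

section sordScalar

variable {k : Type} [Field k]

/-- the determinant of an endomorphism which is triangular in a basis adapted to a line -/
theorem sord_det_eq_mul {A : Type} [CommRing A] {V : Type} [AddCommGroup V] [Module A V]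
    (b : Module.Basis (Fin 2) A V) (f : Module.End A V) (x z : A)
    (hx : f (b 0) = x • b 0) (hz : ∃ c : A, f (b 1) - z • b 1 = c • b 0) :
    LinearMap.det f = x * z := by
  obtain ⟨c, hc⟩ := hz
  have h1 : f (b 1) = z • b 1 + c • b 0 := by
    rw [← hc]; abel
  rw [← LinearMap.det_toMatrix b, Matrix.det_fin_two, LinearMap.toMatrix_apply,
    LinearMap.toMatrix_apply, LinearMap.toMatrix_apply, LinearMap.toMatrix_apply, hx, h1]
  simp

/-- `p = 0` in the dual numbers -/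
lemma sord_p_eq_zero (p : ℕ) [CharP k p] : ((p : ℕ) : DualNumber k) = 0 := by
  refine TrivSqZeroExt.ext ?_ ?_
  · rw [TrivSqZeroExt.fst_natCast, CharP.cast_eq_zero, TrivSqZeroExt.fst_zero]
  · rw [TrivSqZeroExt.snd_natCast, TrivSqZeroExt.snd_zero]

/-- **O1**, for a given line. -/
theorem sord_scalar (p : ℕ) [Fact p.Prime] [CharP k p] (hp2 : p ≠ 2)
    (ρ : GaloisRepAdic (DualNumber k)) (hdet : ρ.DetIsCyclotomic p)
    (L : Submodule (DualNumber k) ρ.V) (b : Module.Basis (Fin 2) (DualNumber k) ρ.V)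
    (hL : L = DualNumber k ∙ b 0) (σ : GQ) (x z : DualNumber k)
    (hx : ∀ w ∈ L, ρ.ρ σ w = x • w) (hz : ∀ v : ρ.V, ρ.ρ σ v - z • v ∈ L)
    (hstr : ∀ (n a : ℕ), (∀ μ : AlgebraicClosure ℚ, μ ^ p ^ n = 1 → σ μ = μ ^ a) →
      x - (a : DualNumber k) * z ∈ Ideal.span {((p ^ n : ℕ) : DualNumber k)}) :
    x.snd = 0 ∧ z.snd = 0 ∧ x.fst ≠ 0 ∧ z.fst ≠ 0 := by
  have : NeZero (p ^ 1) := ⟨pow_ne_zero _ (Fact.out : p.Prime).ne_zero⟩
  obtain ⟨a, ha⟩ := strace_exists_exp (p ^ 1) σ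
  have hp0 : (((p ^ 1 : ℕ)) : DualNumber k) = 0 := by
    rw [pow_one]; exact sord_p_eq_zero p
  -- `x = a z`
  have h1 := hstr 1 a ha
  rw [hp0, Ideal.span_singleton_eq_bot.mpr rfl, Ideal.mem_bot, sub_eq_zero] at h1
  -- `det = a`
  have h2 := hdet.2 1 σ a ha
  rw [hp0, Ideal.span_singleton_eq_bot.mpr rfl, Ideal.mem_bot, sub_eq_zero] at h2
  -- `det = x z`
  have hb0 : b 0 ∈ L := by rw [hL]; exact Submodule.mem_span_singleton_self _
  have h3 : LinearMap.det (ρ.ρ σ) = x * z := by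
    refine sord_det_eq_mul b (ρ.ρ σ) x z (hx _ hb0) ?_
    have := hz (b 1)
    rw [hL, Submodule.mem_span_singleton] at this
    obtain ⟨c, hc⟩ := this
    exact ⟨c, hc.symm⟩
  -- `det` is a unit
  have h4 : LinearMap.det (ρ.ρ σ) * LinearMap.det (ρ.ρ σ⁻¹) = 1 := by
    rw [← map_mul, ← map_mul, mul_inv_cancel, map_one, map_one]
  rw [h2] at h3 h4
  -- `a ≠ 0` in `k`
  have ha0 : ((a : ℕ) : k) ≠ 0 := by
    intro h0
    have h5 := congrArg TrivSqZeroExt.fst h4
    rw [TrivSqZeroExt.fst_mul, TrivSqZeroExt.fst_natCast, h0, zero_mul,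
      TrivSqZeroExt.fst_one] at h5
    exact zero_ne_one h5
  -- components
  have hx0 : x.fst = (a : k) * z.fst := by
    have := congrArg TrivSqZeroExt.fst h1
    rwa [TrivSqZeroExt.fst_mul, TrivSqZeroExt.fst_natCast] at this
  have hx1 : x.snd = (a : k) * z.snd := by
    have := congrArg TrivSqZeroExt.snd h1
    rw [TrivSqZeroExt.snd_mul, TrivSqZeroExt.fst_natCast, TrivSqZeroExt.snd_natCast] at this
    simpa using this
  have hd0 : (a : k) = x.fst * z.fst := by
    have := congrArg TrivSqZeroExt.fst h3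
    rwa [TrivSqZeroExt.fst_mul, TrivSqZeroExt.fst_natCast] at this
  have hd1 : 0 = x.fst * z.snd + z.fst * x.snd := by
    have := congrArg TrivSqZeroExt.snd h3
    rw [TrivSqZeroExt.snd_mul, TrivSqZeroExt.snd_natCast] at this
    simpa [mul_comm] using this
  have hz0 : z.fst ≠ 0 := by
    intro h0
    rw [h0, mul_zero] at hd0
    exact ha0 hd0
  have hx0' : x.fst ≠ 0 := by
    rw [hx0]
    exact mul_ne_zero ha0 hz0
  have h2k : (2 : k) ≠ 0 := by
    intro h0
    have h3 : ((2 : ℕ) : k) = 0 := by exact_mod_cast h0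
    rw [CharP.cast_eq_zero_iff k p] at h3
    have hp := (Fact.out : p.Prime)
    exact hp2 ((Nat.prime_dvd_prime_iff_eq hp Nat.prime_two).mp h3)
  have hz1 : z.snd = 0 := by
    rw [hx0, hx1] at hd1
    have h6 : (2 : k) * ((a : k) * z.fst) * z.snd = 0 := by
      rw [hd1]; ring
    rcases mul_eq_zero.mp h6 with h7 | h7
    · exact absurd h7 (mul_ne_zero h2k (mul_ne_zero ha0 hz0))
    · exact h7
  refine ⟨?_, hz1, hx0', hz0⟩
  rw [hx1, hz1, mul_zero]

/-- an element of the dual numbers without `ε`-part is a constant -/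
lemma sord_eq_inl (x : DualNumber k) (h : x.snd = 0) : x = TrivSqZeroExt.inl x.fst := by
  refine TrivSqZeroExt.ext ?_ ?_
  · rw [TrivSqZeroExt.fst_inl]
  · rw [TrivSqZeroExt.snd_inl, h]

/-- **O1**: the characters of a strictly ordinary deformation with cyclotomic determinant on the
ordinary line and on the quotient take values in `k`. -/
theorem stmtOrdScalar (p : ℕ) [Fact p.Prime] [CharP k p] (hp2 : p ≠ 2)
    (ρ : GaloisRepAdic (DualNumber k)) (hdet : ρ.DetIsCyclotomic p)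
    (hord : ρ.IsStrictOrdinaryAt p) :
    ∃ L : Submodule (DualNumber k) ρ.V,
      (∃ b : Module.Basis (Fin 2) (DualNumber k) ρ.V, L = DualNumber k ∙ b 0) ∧
      (∀ σ ∈ (padicPlace p).decompositionSubgroup ℚ, ∀ v ∈ L, ρ.ρ σ v ∈ L) ∧
      (∀ σ ∈ (padicPlace p).inertiaSubgroupIn ℚ, ∀ v : ρ.V, ρ.ρ σ v - v ∈ L) ∧
      ∀ σ ∈ (padicPlace p).decompositionSubgroup ℚ, ∃ x z : k, x ≠ 0 ∧ z ≠ 0 ∧
        (∀ w ∈ L, ρ.ρ σ w = (TrivSqZeroExt.inl x : DualNumber k) • w) ∧
        (∀ v : ρ.V, ρ.ρ σ v - (TrivSqZeroExt.inl z : DualNumber k) • v ∈ L) := by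
  obtain ⟨L, ⟨b, hb⟩, hD, hI, hS⟩ := hord.2 (padicPlace p) (lfrobex_liesOverPrime p)
  refine ⟨L, ⟨b, hb⟩, hD, hI, fun σ hσ => ?_⟩
  obtain ⟨x, z, hx, hz, hstr⟩ := hS σ hσ
  obtain ⟨h1, h2, h3, h4⟩ := sord_scalar p hp2 ρ hdet L b hb σ x z hx hz hstr
  refine ⟨x.fst, z.fst, h3, h4, ?_, ?_⟩
  · rw [← sord_eq_inl x h1]; exact hx
  · rw [← sord_eq_inl z h2]; exact hz

end sordScalar

end Fermat.Agent.TW.S

end
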