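/-
TW-S / S-ord, GLUE (helper48): the unconditional `stmtOrdRed : StmtOrdRed`
(O1 `stmtOrdScalar` + O2 `sord_red` + `stmtOrdRed_of`).
-/
import Fermat.Agent.TW.S.OrdGlue
import Fermat.Agent.TW.S.OrdScalar
import Fermat.Agent.TW.S.OrdRed

set_option autoImplicit false

noncomputable section

namespace Fermat.Agent.TW.S

open CategoryTheory groupCohomology IsLocalRing
open Fermat.Agent.PT Fermat.Agent.PT.B Fermat.Agent.S53 Fermat.Agent.TW.L ExtCitation

/-- **O1** in the shape of `OrdPlan.lean`. -/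
theorem stmtOrdScalar' : StmtOrdScalar :=
  fun _ _ p _ _ hp2 ρ hdet hord => stmtOrdScalar p hp2 ρ hdet hord

/-- **GLUE of S-ord**, unconditional. -/
theorem stmtOrdRed : StmtOrdRed :=
  stmtOrdRed_of stmtOrdScalar'
    (fun 𝒪 _ _ p _ _ ρbar D ρ c Lbar hp2 hdet hLbar e he L b hL hD hI =>
      sord_red 𝒪 p ρbar D ρ c Lbar hp2 hdet hLbar e he L b hL hD hI)

end Fermat.Agent.TW.S

end
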