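import Fermat.Agent.TW.S.OrdMove
import Fermat.Agent.TW.S.OrdGlueFinal

/-!
# TW-S / S-ord: the final statement

`stmtOrd : StmtOrd`, unconditional: O1 (`stmtOrdScalar`, helper48) + O2 (`sord_red`, helper22) +
glue (`stmtOrdRed`, helper48) + O3/O4 (`stmtOrd_of_red`, helper24).
-/

set_option autoImplicit false

namespace Fermat.Agent.TW.S

/-- **S-ord.** -/
theorem stmtOrd : StmtOrd := stmtOrd_of_red stmtOrdRed

end Fermat.Agent.TW.S
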