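/-
TW-S piece S-conj (helper87): ramification of `ρ̄` at `v` is seen at the place `padicPlace v`.

`stmtConj : StmtConj`: if `ρ̄` is ramified at `v` (some inertia group at some place over `v` acts
non-trivially), then the inertia group of `padicPlace v` acts non-trivially.

Proof.  `ρ̄` factors through a finite Galois `L/ℚ`.  The primes of `𝓞 L` below the two places are
conjugate under `Gal(L/ℚ)` (`twc_exists_smul_eq`); lift `g₀` to `g ∈ G_ℚ`.  If `σ` is in the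
inertia group of `A`, then `g σ g⁻¹` is `≡ 1` on `𝓞 L` modulo the prime below `P = padicPlace v`,
so by the inertia lifting lemma it agrees on `L` with an element of the inertia group of `P`.
-/
import Fermat.Agent.TW.S.Plan
import Fermat.Agent.TW.ChebPrime
import Fermat.Agent.TW.L.FrobExists
import Fermat.Agent.PT.B.NormalClosure
import Fermat.Agent.Common.InertiaLift

set_option autoImplicit false
set_option linter.style.haveILetI false

noncomputable section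

namespace Fermat.Agent.TW.S

open NumberField Fermat.Agent.TW Fermat.Agent.TW.L
open scoped Pointwise

/-- Transport of inertia to another place over the same prime, on a finite Galois level. -/
theorem sconj_transport (L : IntermediateField ℚ (AlgebraicClosure ℚ))
    [FiniteDimensional ℚ L] [IsGalois ℚ L]
    (A P : ValuationSubring (AlgebraicClosure ℚ)) {q : ℕ} (hq : q.Prime)
    (hA : A.LiesOverPrime q) (hP : P.LiesOverPrime q)
    (σ : TwGQ) (hσ : σ ∈ A.inertiaSubgroupIn ℚ) :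
    ∃ g σ' : TwGQ, σ' ∈ P.inertiaSubgroupIn ℚ ∧ ∀ x ∈ L, σ' x = (g * σ * g⁻¹) x := by
  obtain ⟨g₀, hg₀⟩ := twc_exists_smul_eq L A P hq hA hP
  obtain ⟨g, hg⟩ := twc_exists_lift L g₀
  obtain ⟨-, hσI⟩ := (Fermat.Agent.PT.B.mem_inertiaSubgroupIn_iff A σ).mp hσ
  have key : ∀ x ∈ L, IsIntegral ℤ x → (g * σ * g⁻¹) x - x ∈ P.nonunits := by
    intro x hx hint
    -- `y = g⁻¹ x`
    have hyL : g⁻¹ x ∈ L := twc_apply_mem L g⁻¹ hx
    have hyint : IsIntegral ℤ (g⁻¹ x) :=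
      hint.map ((g⁻¹ : TwGQ) : AlgebraicClosure ℚ →ₐ[ℚ] AlgebraicClosure ℚ).toRingHom.toIntAlgHom
    obtain ⟨y, hy⟩ := twc_exists_int L hyL hyint
    have hyA : g⁻¹ x ∈ A := hy ▸ Cheb.intEmb_mem L A y
    -- `z = σ y - y`
    have hzA : σ (g⁻¹ x) - g⁻¹ x ∈ A.nonunits := hσI _ hyA
    have hzL : σ (g⁻¹ x) - g⁻¹ x ∈ L := sub_mem (twc_apply_mem L σ hyL) hyL
    have hzint : IsIntegral ℤ (σ (g⁻¹ x) - g⁻¹ x) :=
      (hyint.map (σ : AlgebraicClosure ℚ →ₐ[ℚ] AlgebraicClosure ℚ).toRingHom.toIntAlgHom).sub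
        hyint
    obtain ⟨z, hz⟩ := twc_exists_int L hzL hzint
    have hzp : z ∈ twcPrime L A := by
      rw [twc_mem_prime, hz]
      exact hzA
    have hgz : g₀ • z ∈ twcPrime L P := by
      rw [← hg₀]
      exact Ideal.smul_mem_pointwise_smul g₀ z _ hzp
    rw [twc_mem_prime, twc_intEmb_smul L g₀ g hg, hz, map_sub] at hgz
    have e1 : g (g⁻¹ x) = x := g.apply_symm_apply x
    rw [e1] at hgz
    exact hgz
  obtain ⟨σ', hσ'I, hσ'F⟩ :=
    Fermat.Agent.Common.exists_mem_inertiaSubgroupIn_of_congr L q hq P hP (g * σ * g⁻¹) key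
  exact ⟨g, σ', hσ'I, hσ'F⟩

/-- **S-conj**. -/
theorem stmtConj : StmtConj := by
  intro k _ ρbar v hv hram
  have hex : ∃ A : ValuationSubring (AlgebraicClosure ℚ), A.LiesOverPrime v ∧
      ∃ σ ∈ A.inertiaSubgroupIn ℚ, ρbar.ρ σ ≠ 1 := by
    by_contra h
    apply hram
    intro A hA σ hσ
    by_contra h1
    exact h ⟨A, hA, σ, hσ, h1⟩
  obtain ⟨A, hA, σ, hσ, hρσ⟩ := hex
  obtain ⟨L₀, hL₀fin, hL₀⟩ := ρbar.factorsThroughFiniteLevel
  haveI := hL₀fin
  obtain ⟨L, hLfin, hLgal, hle, -, -⟩ := twc_exists_galois_hull L₀ L₀ L₀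
  haveI := hLfin
  haveI := hLgal
  obtain ⟨g, σ', hσ'I, hσ'F⟩ := sconj_transport L A (padicPlace v) hv.out hA
    (lfrobex_liesOverPrime v) σ hσ
  refine ⟨σ', hσ'I, fun h1 => hρσ ?_⟩
  -- `ρ̄ σ' = ρ̄ (g σ g⁻¹)`
  have h2 : ρbar.ρ ((g * σ * g⁻¹)⁻¹ * σ') = 1 := by
    apply hL₀
    intro x hx
    show (g * σ * g⁻¹)⁻¹ (σ' x) = x
    rw [hσ'F x (hle hx)]
    exact (g * σ * g⁻¹).symm_apply_apply x
  have h2' : ρbar.ρ (g * σ * g⁻¹) = 1 := by
    have e : σ' = (g * σ * g⁻¹) * ((g * σ * g⁻¹)⁻¹ * σ') := by group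
    have := congrArg ρbar.ρ e
    rw [map_mul, h2, mul_one, h1] at this
    exact this.symm
  rw [map_mul, map_mul] at h2'
  -- `ρ g * ρ σ * ρ g⁻¹ = 1`
  have h3 : ρbar.ρ g⁻¹ * ρbar.ρ g = 1 := by rw [← map_mul, inv_mul_cancel, map_one]
  calc ρbar.ρ σ = (ρbar.ρ g⁻¹ * ρbar.ρ g) * ρbar.ρ σ * (ρbar.ρ g⁻¹ * ρbar.ρ g) := by
        rw [h3, one_mul, mul_one]
    _ = ρbar.ρ g⁻¹ * (ρbar.ρ g * ρbar.ρ σ * ρbar.ρ g⁻¹) * ρbar.ρ g := by
        simp only [mul_assoc]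
    _ = 1 := by rw [h2', mul_one, h3]

end Fermat.Agent.TW.S

end
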