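/-
TW-S, piece S-frame (helper54): every deformation of `ρ̄` to `k[ε]` has a cocycle.
-/
import Fermat.Agent.TW.S.Core
import Fermat.Agent.TW.S.Plan

set_option autoImplicit false
set_option linter.unusedSectionVars false
set_option linter.style.haveILetI false

noncomputable section

namespace Fermat.Agent.TW.S

open CategoryTheory groupCohomology IsLocalRing
open Fermat.Agent.PT Fermat.Agent.PT.B Fermat.Agent.S53 ExtCitation

section

variable {𝒪 : Type} [CommRing 𝒪] [IsLocalRing 𝒪] (p : ℕ) [Fact p.Prime]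
  [CharP (ResidueField 𝒪) p] {ρbar : ResidualGaloisRep (ResidueField 𝒪)}
  (D : RigidDatum 𝒪 ρbar)

/-- a framed matrix representation over `k[ε]` has constant part `ρm` -/
lemma sframe_dnFst (r : Gal →* M2 (DualNumber (ResidueField 𝒪)))
    (hf : @Framed 𝒪 _ _ (DualNumber (ResidueField 𝒪)) _ _ (dnAlg 𝒪) D.ρm r) (σ : GQ) :
    dnFst (r σ) = D.ρm σ := by
  letI := dnAlg 𝒪
  ext i j
  obtain ⟨x, hx⟩ := residue_surjective (D.ρm σ i j)
  have h1 := hf σ i j x hx
  rw [dnAlg_algebraMap, hx] at h1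
  have h2 : (r σ i j - TrivSqZeroExt.inl (D.ρm σ i j)).fst = 0 := by
    by_contra hne
    exact h1 ((TrivSqZeroExt.isUnit_iff_isUnit_fst).2 (IsUnit.mk0 _ hne))
  rw [TrivSqZeroExt.fst_sub, TrivSqZeroExt.fst_inl, sub_eq_zero] at h2
  exact h2

/-- a framed matrix representation over `k[ε]` is `(1 + εc)ρ̄` -/
lemma sframe_exists (r : Gal →* M2 (DualNumber (ResidueField 𝒪)))
    (hf : @Framed 𝒪 _ _ (DualNumber (ResidueField 𝒪)) _ _ (dnAlg 𝒪) D.ρm r) :
    ∃ c : GQ → (adRep p ρbar).V, ∀ σ, r σ = liftMat p D c σ := by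
  choose c hc using fun σ : GQ => adMat_surjective p D (dnSnd (r σ) * D.ρm σ⁻¹)
  refine ⟨c, fun σ => ?_⟩
  rw [eq_liftMat_iff]
  refine ⟨sframe_dnFst D r hf σ, ?_⟩
  rw [hc σ, mul_assoc, rhom_inv_mul, mul_one]

end

/-- **S-frame.** -/
theorem stmtFrame : StmtFrame := by
  intro 𝒪 _ _ p _ _ ρbar D ρ h
  letI := dnAlg 𝒪
  letI := dnResAlg 𝒪
  obtain ⟨r, hr, hf, he⟩ := exists_framed_of_residual_isEquiv (A := DualNumber (ResidueField 𝒪)) D
    ((IsLocalRing.residue (DualNumber (ResidueField 𝒪))).comp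
      (algebraMap (ResidueField 𝒪) (DualNumber (ResidueField 𝒪)))) (fun x => rfl) ρ h
  obtain ⟨c, hc⟩ := sframe_exists p D r hf
  exact ⟨c, r, hr, he, hc⟩

end Fermat.Agent.TW.S

end
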