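/-
TW-S, piece S-iso (helper54): cohomologous cocycles belong to equivalent deformations.
-/
import Fermat.Agent.TW.S.Core
import Fermat.Agent.TW.S.Plan

set_option autoImplicit false
set_option linter.unusedSectionVars false
set_option linter.style.haveILetI false

noncomputable section

namespace Fermat.Agent.TW.S

open CategoryTheory groupCohomology IsLocalRing
open Fermat.Agent.PT Fermat.Agent.PT.B Fermat.Agent.S53 ExtCitation

section

variable {k : Type} [Field k]

/-- the matrix `1 + εX` over the dual numbers -/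
def sisoOnePlus (X : M2 k) : M2 (DualNumber k) :=
  (1 : M2 k).map (TrivSqZeroExt.inl : k → DualNumber k) +
    X.map (TrivSqZeroExt.inr : k → DualNumber k)

lemma dnFst_sisoOnePlus (X : M2 k) : dnFst (sisoOnePlus X) = 1 := by
  unfold sisoOnePlus
  rw [dnFst_add, dnFst_map_inl, dnFst_map_inr, add_zero]

lemma dnSnd_sisoOnePlus (X : M2 k) : dnSnd (sisoOnePlus X) = X := by
  unfold sisoOnePlus
  rw [dnSnd_add, dnSnd_map_inl, dnSnd_map_inr, zero_add]

lemma sisoOnePlus_mul (X Y : M2 k) : sisoOnePlus X * sisoOnePlus Y = sisoOnePlus (X + Y) := by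
  apply dn_ext
  · rw [dnFst_mul, dnFst_sisoOnePlus, dnFst_sisoOnePlus, dnFst_sisoOnePlus, one_mul]
  · rw [dnSnd_mul, dnFst_sisoOnePlus, dnSnd_sisoOnePlus, dnSnd_sisoOnePlus, dnFst_sisoOnePlus,
      dnSnd_sisoOnePlus, one_mul, mul_one, add_comm]

lemma sisoOnePlus_zero : sisoOnePlus (0 : M2 k) = 1 := by
  apply dn_ext
  · rw [dnFst_sisoOnePlus, dnFst_one]
  · rw [dnSnd_sisoOnePlus, dnSnd_one]

lemma isUnit_sisoOnePlus (X : M2 k) : IsUnit (sisoOnePlus X) :=
  ⟨⟨sisoOnePlus X, sisoOnePlus (-X), by rw [sisoOnePlus_mul, add_neg_cancel, sisoOnePlus_zero],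
    by rw [sisoOnePlus_mul, neg_add_cancel, sisoOnePlus_zero]⟩, rfl⟩

end

/-- **S-iso.** -/
theorem stmtIso : StmtIso := by
  intro 𝒪 _ _ p _ _ ρbar D ρ ρ' c c' h h' hx
  obtain ⟨x, hx⟩ := hx
  obtain ⟨r, hr, he, hlift⟩ := h
  obtain ⟨r', hr', he', hlift'⟩ := h'
  have hconj : Conj r r' := by
    refine ⟨sisoOnePlus (adMat p D x), isUnit_sisoOnePlus _, fun σ => ?_⟩
    rw [hlift σ, hlift' σ]
    have hx' := congrArg (adMat p D) (hx σ)
    rw [adMat_sub, adMat_sub, adMat_ρ] at hx'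
    apply dn_ext
    · rw [dnFst_mul, dnFst_mul, dnFst_sisoOnePlus, dnFst_liftMat, dnFst_liftMat, one_mul,
        mul_one]
    · rw [dnSnd_mul, dnSnd_mul, dnFst_sisoOnePlus, dnSnd_sisoOnePlus, dnFst_liftMat,
        dnSnd_liftMat, dnFst_liftMat, dnSnd_liftMat, one_mul]
      have h1 : adMat p D (c σ) = adMat p D (c' σ) +
          (D.ρm σ * adMat p D x * D.ρm σ⁻¹ - adMat p D x) := by
        rw [← hx']
        abel
      rw [h1, add_mul, sub_mul, mul_assoc (D.ρm σ * adMat p D x), rhom_inv_mul]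
      simp only [mul_one]
      abel
  exact GaloisRepAdic_isEquiv_trans he
    (GaloisRepAdic_isEquiv_trans (isEquiv_of_conj hr hr' hconj)
      (GaloisRepAdic_isEquiv_symm he'))

end Fermat.Agent.TW.S

end
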