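import Fermat.Agent.TW.S.Plan
import Fermat.Agent.TW.S.Core
import Fermat.Agent.PT.B.KernelField

/-!
# TW-S / S-lev

`stmtLev : StmtLev`: the cocycle of a deformation of `ρ̄` to `k[ε]` which is unramified outside
`T` is constant modulo a level of the tower `towerS T`.

Proof.  `N := {g | (1 + ε c(g)) ρ̄(g) = 1}` is a normal subgroup of `G_ℚ` containing `Gal(ℚ̄/F)` for
a finite `F/ℚ` (`isCocOf_exists_level`) and the inertia groups outside `T`; by
`PT.B.isTowerField_fixedField_of_normal` it is a member of the tower, and `c(g s) = c(g)` for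
`s ∈ N` by multiplicativity of the matrix form.
-/

set_option autoImplicit false

noncomputable section

namespace Fermat.Agent.TW.S

open CategoryTheory groupCohomology IsLocalRing
open Fermat.Agent.PT Fermat.Agent.PT.B Fermat.Agent.S53 Fermat.Agent.TW.L ExtCitation

/-- the cocycle is right-invariant under the kernel of the matrix form -/
theorem slev_invariant {𝒪 : Type} [CommRing 𝒪] [IsLocalRing 𝒪] (p : ℕ) [Fact p.Prime]
    [CharP (ResidueField 𝒪) p] {ρbar : ResidualGaloisRep (ResidueField 𝒪)}
    (D : RigidDatum 𝒪 ρbar) {ρ : GaloisRepAdic (DualNumber (ResidueField 𝒪))}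
    {c : GQ → (adRep p ρbar).V} (h : IsCocOf p D ρ c) (g s : GQ)
    (hs : liftMat p D c s = 1) : c (g * s) = c g := by
  have hmul := isCocOf_mul p D h g s
  rw [hs, mul_one] at hmul
  have h0 : D.ρm (g * s) = D.ρm g := by
    rw [← dnFst_liftMat p D c (g * s), hmul, dnFst_liftMat]
  have h1 : adMat p D (c (g * s)) * D.ρm (g * s) = adMat p D (c g) * D.ρm g := by
    rw [← dnSnd_liftMat p D c (g * s), hmul, dnSnd_liftMat]
  rw [h0] at h1
  apply adMat_injective p D
  have h2 := congrArg (· * D.ρm g⁻¹) h1
  simp only [mul_assoc, rhom_mul_inv, mul_one] at h2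
  exact h2

/-- **S-lev.** -/
theorem stmtLev : StmtLev := by
  intro 𝒪 _ _ p _ _ _ ρbar D ρ c T hcoc hur
  obtain ⟨F, hF, hFtriv⟩ := isCocOf_exists_level p D hcoc
  let N : Subgroup GQ :=
    { carrier := {g | liftMat p D c g = 1}
      one_mem' := isCocOf_one p D hcoc
      mul_mem' := fun {a b} ha hb => by
        show liftMat p D c (a * b) = 1
        rw [isCocOf_mul p D hcoc, (ha : liftMat p D c a = 1), (hb : liftMat p D c b = 1),
          one_mul]
      inv_mem' := fun {a} ha => by
        show liftMat p D c a⁻¹ = 1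
        have h1 : liftMat p D c a⁻¹ * liftMat p D c a = 1 := by
          rw [← isCocOf_mul p D hcoc, inv_mul_cancel, isCocOf_one p D hcoc]
        rw [(ha : liftMat p D c a = 1), mul_one] at h1
        exact h1 }
  have : N.Normal := ⟨fun n hn g => by
    show liftMat p D c (g * n * g⁻¹) = 1
    rw [isCocOf_mul p D hcoc, isCocOf_mul p D hcoc, (hn : liftMat p D c n = 1), mul_one,
      ← isCocOf_mul p D hcoc, mul_inv_cancel, isCocOf_one p D hcoc]⟩
  obtain ⟨hT, hfix⟩ := isTowerField_fixedField_of_normal T N F hF (fun s hs => hFtriv s hs)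
    (fun q hq A hA g hg =>
      (isCocOf_rho_eq_one_iff p D hcoc g).mp (hur q hq A hA g hg))
  refine ⟨N, ⟨IntermediateField.fixedField N, hT.1, hfix.symm⟩, fun g s hs => ?_⟩
  exact slev_invariant p D hcoc g s hs

end Fermat.Agent.TW.S

end
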