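/-
TW-S / S-min (helper48), linear algebra: for a nonzero nilpotent `N` on a plane (`char ≠ 2`),
every `M` with `N M + M N = 0` is `N x - x N` with `tr x = 0`.
-/
import Mathlib

set_option autoImplicit false
set_option linter.style.haveILetI false

namespace Fermat.Agent.TW.S

section sminLA

variable {k : Type} [Field k] {V : Type} [AddCommGroup V] [Module k V]

/-- a basis `(N e, e)` for a nonzero nilpotent `N` on a plane -/
theorem smin_exists_basis (hV : Module.finrank k V = 2) (N : Module.End k V) (hN : N ≠ 0)
    (hN2 : N * N = 0) :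
    ∃ b : Module.Basis (Fin 2) k V, N (b 0) = 0 ∧ N (b 1) = b 0 := by
  haveI : Module.Finite k V := Module.finite_of_finrank_eq_succ hV
  obtain ⟨e, he⟩ : ∃ e : V, N e ≠ 0 := by
    by_contra hcon
    simp only [not_exists, not_not] at hcon
    exact hN (LinearMap.ext hcon)
  have hNN : N (N e) = 0 := by
    have := LinearMap.congr_fun hN2 e
    simpa using this
  have hli : LinearIndependent k ![N e, e] := by
    rw [LinearIndependent.pair_iff]
    intro s t hst
    have h1 : t • N e = 0 := by
      have := congrArg N hst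
      rw [map_add, map_smul, map_smul, hNN, smul_zero, zero_add, map_zero] at this
      exact this
    have ht : t = 0 := (smul_eq_zero.mp h1).resolve_right he
    refine ⟨?_, ht⟩
    rw [ht, zero_smul, add_zero] at hst
    exact (smul_eq_zero.mp hst).resolve_right he
  let b : Module.Basis (Fin 2) k V :=
    basisOfLinearIndependentOfCardEqFinrank hli (by simp [hV])
  have hb : ⇑b = ![N e, e] := coe_basisOfLinearIndependentOfCardEqFinrank hli _
  have hb0 : b 0 = N e := by rw [hb]; rfl
  have hb1 : b 1 = e := by rw [hb]; rfl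
  exact ⟨b, by rw [hb0]; exact hNN, by rw [hb1, hb0]⟩

/-- `N v = (coefficient of v along b 1) • b 0` -/
lemma smin_N_apply (b : Module.Basis (Fin 2) k V) (N : Module.End k V) (h0 : N (b 0) = 0)
    (h1 : N (b 1) = b 0) (v : V) : N v = b.repr v 1 • b 0 := by
  conv_lhs => rw [← b.sum_repr v]
  rw [Fin.sum_univ_two, map_add, map_smul, map_smul, h0, h1, smul_zero, zero_add]

/-- **The linear algebra of S-min.** -/
theorem smin_exists_solution (hV : Module.finrank k V = 2) (h2 : (2 : k) ≠ 0)
    (N M : Module.End k V) (hN : N ≠ 0) (hN2 : N * N = 0) (hNM : N * M + M * N = 0) :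
    ∃ x : Module.End k V, LinearMap.trace k V x = 0 ∧ M = N * x - x * N := by
  obtain ⟨b, h0, h1⟩ := smin_exists_basis hV N hN hN2
  have hNv := smin_N_apply b N h0 h1
  have hb0 : b 0 ≠ 0 := b.ne_zero 0
  -- the coefficients of `M`
  have e0 : N (M (b 0)) = 0 := by
    have := LinearMap.congr_fun hNM (b 0)
    simpa [h0] using this
  have e1 : N (M (b 1)) + M (b 0) = 0 := by
    have := LinearMap.congr_fun hNM (b 1)
    simpa [h1] using this
  have c10 : b.repr (M (b 0)) 1 = 0 := by
    rw [hNv] at e0
    exact (smul_eq_zero.mp e0).resolve_right hb0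
  have c11 : b.repr (M (b 1)) 1 = -b.repr (M (b 0)) 0 := by
    rw [hNv] at e1
    have := congrArg (fun v => b.repr v 0) e1
    simp only [map_add, map_smul, Finsupp.add_apply, Finsupp.smul_apply,
      Module.Basis.repr_self, Finsupp.single_eq_same, smul_eq_mul, mul_one, map_zero,
      Finsupp.zero_apply] at this
    exact eq_neg_of_add_eq_zero_left this
  set a : k := b.repr (M (b 0)) 0 with ha
  set β : k := b.repr (M (b 1)) 0 with hβ
  have hM0 : M (b 0) = a • b 0 := by
    conv_lhs => rw [← b.sum_repr (M (b 0))]
    rw [Fin.sum_univ_two, c10, zero_smul, add_zero]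
  have hM1 : M (b 1) = β • b 0 - a • b 1 := by
    conv_lhs => rw [← b.sum_repr (M (b 1))]
    rw [Fin.sum_univ_two, c11, neg_smul, sub_eq_add_neg]
  -- the solution
  let x : Module.End k V := b.constr k ![(-(β / 2)) • b 0 + a • b 1, (β / 2) • b 1]
  have hx0 : x (b 0) = (-(β / 2)) • b 0 + a • b 1 := by
    show b.constr k _ (b 0) = _
    rw [Module.Basis.constr_basis]
    rfl
  have hx1 : x (b 1) = (β / 2) • b 1 := by
    show b.constr k _ (b 1) = _
    rw [Module.Basis.constr_basis]
    rfl
  refine ⟨x, ?_, ?_⟩
  · rw [LinearMap.trace_eq_matrix_trace k b, Matrix.trace_fin_two, LinearMap.toMatrix_apply,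
      LinearMap.toMatrix_apply, hx0, hx1]
    simp
  · apply b.ext
    intro i
    fin_cases i
    · show M (b 0) = (N * x - x * N) (b 0)
      rw [LinearMap.sub_apply, Module.End.mul_apply, Module.End.mul_apply, h0, map_zero x,
        sub_zero, hx0, map_add, map_smul, map_smul, h0, h1, smul_zero, zero_add, hM0]
    · show M (b 1) = (N * x - x * N) (b 1)
      rw [LinearMap.sub_apply, Module.End.mul_apply, Module.End.mul_apply, h1, hx0, hx1,
        map_smul, h1, hM1]
      have h3 : β = β / 2 + β / 2 := by field_simp; ring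
      conv_lhs => rw [h3]
      module

end sminLA

end Fermat.Agent.TW.S
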