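/-
TW-S, pieces S-unr and S-coc (helper54).
-/
import Fermat.Agent.TW.S.Core
import Fermat.Agent.TW.S.Plan

set_option autoImplicit false
set_option linter.unusedSectionVars false

noncomputable section

namespace Fermat.Agent.TW.S

open CategoryTheory groupCohomology IsLocalRing
open Fermat.Agent.PT Fermat.Agent.PT.B Fermat.Agent.S53 ExtCitation

section

variable {𝒪 : Type} [CommRing 𝒪] [IsLocalRing 𝒪] (p : ℕ) [Fact p.Prime]
  [CharP (ResidueField 𝒪) p] {ρbar : ResidualGaloisRep (ResidueField 𝒪)}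
  (D : RigidDatum 𝒪 ρbar)
  {ρ : GaloisRepAdic (DualNumber (ResidueField 𝒪))} {c : GQ → (adRep p ρbar).V}

/-- where the matrix form is trivial, so are `ρ̄` and the cocycle -/
lemma sunr_of_liftMat_eq_one (σ : GQ) (h1 : liftMat p D c σ = 1) : ρbar.ρ σ = 1 ∧ c σ = 0 := by
  have h0 : D.ρm σ = 1 := by
    rw [← dnFst_liftMat p D c σ, h1, dnFst_one]
  have hs : adMat p D (c σ) * D.ρm σ = 0 := by
    rw [← dnSnd_liftMat p D c σ, h1, dnSnd_one]
  rw [h0, mul_one] at hs
  refine ⟨?_, (adMat_eq_zero_iff p D _).1 hs⟩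
  apply (LinearMap.toMatrix D.b D.b).injective
  rw [toMatrix_rho, h0, LinearMap.toMatrix_one]

/-- cancel `B * B' = 1` in the middle of a product -/
lemma scoc_cancel {R : Type} [Monoid R] {B B' : R} (h : B * B' = 1) (M N : R) :
    M * B * (B' * N) = M * N := by
  rw [mul_assoc, ← mul_assoc B, h, one_mul]

/-- the cocycle identity -/
lemma scoc_mul (h : IsCocOf p D ρ c) (g g' : GQ) :
    c (g * g') = (adRep p ρbar).ρ g (c g') + c g := by
  apply adMat_injective p D
  have h1 := congrArg dnSnd (isCocOf_mul p D h g g')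
  rw [dnSnd_liftMat, dnSnd_mul, dnFst_liftMat, dnSnd_liftMat, dnSnd_liftMat, dnFst_liftMat,
    map_mul] at h1
  rw [adMat_add, adMat_ρ]
  have hB := rhom_mul_inv D g'
  have hA := rhom_mul_inv D g
  have h2 : adMat p D (c (g * g')) =
      (adMat p D (c (g * g')) * (D.ρm g * D.ρm g')) * (D.ρm g'⁻¹ * D.ρm g⁻¹) := by
    rw [← mul_assoc (adMat p D (c (g * g'))), scoc_cancel hB, mul_assoc, hA, mul_one]
  rw [h2, h1, add_mul]
  congr 1
  · rw [← mul_assoc (D.ρm g), scoc_cancel hB]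
  · rw [scoc_cancel hB, mul_assoc, hA, mul_one]

end

/-- **S-unr.** -/
theorem stmtUnr : StmtUnr := by
  intro 𝒪 _ _ p _ _ ρbar D ρ c h σ hσ
  exact sunr_of_liftMat_eq_one p D σ ((isCocOf_rho_eq_one_iff p D h σ).1 hσ)

/-- **S-coc.** -/
theorem stmtCoc : StmtCoc := by
  intro 𝒪 _ _ p _ _ ρbar D ρ c h
  refine ⟨fun g g' => scoc_mul p D h g g', ?_⟩
  obtain ⟨F, hF, hF1⟩ := isCocOf_exists_level p D h
  refine ⟨F, hF, fun g s hs => ?_⟩
  have h1 := (sunr_of_liftMat_eq_one p D s (hF1 s hs)).2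
  rw [scoc_mul p D h g s, h1, map_zero, zero_add]

end Fermat.Agent.TW.S

end
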