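/-
TW-S / S-min (helper48): the unconditional form `stmtMin : StmtMin`
(`stmtMin_of` + tame inertia `TW.L.stmtTameGrp` + `TW.L.stmtDecFull`).
-/
import Fermat.Agent.TW.S.Min
import Fermat.Agent.TW.L.Tame
import Fermat.Agent.TW.L.DecFull

set_option autoImplicit false

namespace Fermat.Agent.TW.S

/-- **S-min**, unconditional. -/
theorem stmtMin : StmtMin := stmtMin_of TW.L.stmtTameGrp TW.L.stmtDecFull

end Fermat.Agent.TW.S
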