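/-
TW-S, piece S-asm (helper54), part 1: generic lemmas on level cocycles.

* `sasm_subCob f x`        : the cocycle `τ ↦ f τ - (τ·x - x)`, same class as `f`;
* `sasm_resCoc`            : restriction of a cocycle of `G_ℚ` to `G_{ℚ_q}`, and its class;
* `sasm_mem_unrH1`, `sasm_mem_levH1_loc` : membership in TW-L's local conditions.
-/
import Fermat.Agent.TW.S.Plan

set_option autoImplicit false
set_option linter.unusedSectionVars false

noncomputable section

namespace Fermat.Agent.TW.S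

open CategoryTheory groupCohomology IsLocalRing
open Fermat.Agent.PT Fermat.Agent.PT.B Fermat.Agent.S53 Fermat.Agent.TW.L ExtCitation

section Generic

variable {R : Type} [CommRing R] {G : Type} [Group G] (M : Rep.{0} R G)

/-- the coboundary of `x` as a function -/
def sasmCob (x : M) : G → M := fun g => M.ρ g x - x

lemma sasmCob_mem_coboundaries (x : M) : sasmCob M x ∈ coboundaries₁ M :=
  ⟨x, rfl⟩

lemma sasmCob_mem_cocycles (x : M) : sasmCob M x ∈ cocycles₁ M := by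
  rw [mem_cocycles₁_iff]
  intro g h
  simp only [sasmCob, map_mul, Module.End.mul_apply, map_sub]
  abel

/-- `f - d x` as a cocycle -/
def sasmSubCob (f : cocycles₁ M) (x : M) : cocycles₁ M :=
  f - ⟨sasmCob M x, sasmCob_mem_cocycles M x⟩

lemma sasmSubCob_apply (f : cocycles₁ M) (x : M) (g : G) :
    (sasmSubCob M f x : G → M) g = (f : G → M) g - (M.ρ g x - x) := rfl

lemma sasm_H1π_subCob (f : cocycles₁ M) (x : M) :
    (H1π M).hom (sasmSubCob M f x) = (H1π M).hom f := by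
  have h : H1π M (sasmSubCob M f x) = H1π M f := by
    rw [H1π_eq_iff]
    have : (⇑(sasmSubCob M f x) - ⇑f : G → M) = -sasmCob M x := by
      funext g
      simp only [Pi.sub_apply, Pi.neg_apply, sasmSubCob_apply, sasmCob]
      abel
    rw [this]
    exact (coboundaries₁ M).neg_mem (sasmCob_mem_coboundaries M x)
  exact h

lemma sasm_isLevel_cob (𝒯 : Tower G) (x : M) (hM : ∃ U ∈ 𝒯.lev, ∀ s ∈ U, M.ρ s = 1) :
    IsLevel₁ 𝒯 (sasmCob M x) := by
  obtain ⟨U, hU, h⟩ := hM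
  refine ⟨U, hU, fun g s hs => ?_⟩
  simp only [sasmCob, map_mul, Module.End.mul_apply, h s hs, Module.End.one_apply]

lemma sasm_isLevel_subCob (𝒯 : Tower G) (f : cocycles₁ M) (x : M)
    (hM : ∃ U ∈ 𝒯.lev, ∀ s ∈ U, M.ρ s = 1) (hf : IsLevel₁ 𝒯 (f : G → M)) :
    IsLevel₁ 𝒯 (sasmSubCob M f x : G → M) := by
  obtain ⟨U, hU, h⟩ := hf
  obtain ⟨U', hU', h'⟩ := sasm_isLevel_cob M 𝒯 x hM
  refine ⟨U ⊓ U', 𝒯.inf_mem U U' hU hU', fun g s hs => ?_⟩
  have h1 := h g s hs.1
  have h2 := h' g s hs.2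
  simp only [sasmCob] at h2
  rw [sasmSubCob_apply, sasmSubCob_apply, h1, h2]

end Generic

section Res

variable {R : Type} [CommRing R] (q : ℕ) [Fact q.Prime] (A : Rep.{0} R GQ)

/-- restriction of a cocycle of `G_ℚ` to `G_{ℚ_q}` -/
def sasmRes (c : cocycles₁ A) : cocycles₁ (locRep q A) :=
  (mapCocycles₁ (localGaloisToGlobal q) (𝟙 (locRep q A))).hom c

lemma sasmRes_apply (c : cocycles₁ A) (τ : GQq q) :
    (sasmRes q A c : GQq q → A) τ = (c : GQ → A) (localGaloisToGlobal q τ) := rfl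

lemma sasm_locRes_H1π (c : cocycles₁ A) :
    (groupCohomology.map (localGaloisToGlobal q) (𝟙 (locRep q A)) 1).hom ((H1π A).hom c) =
      (H1π (locRep q A)).hom (sasmRes q A c) :=
  H1π_comp_map_apply (localGaloisToGlobal q) (𝟙 (locRep q A)) c

/-- a cocycle which is constant modulo `Gal(ℚ̄/F)`, `F/ℚ` finite, restricts to a level cocycle -/
lemma sasm_isLevel_res (c : cocycles₁ A)
    (hc : ∃ F : QbarField, FiniteDimensional ℚ F ∧
      ∀ g s : GQ, s ∈ F.fixingSubgroup → (c : GQ → A) (g * s) = (c : GQ → A) g) :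
    IsLevel₁ (towerLoc q) (sasmRes q A c : GQq q → A) := by
  obtain ⟨F, hF, h⟩ := hc
  refine ⟨F.fixingSubgroup.comap (localGaloisToGlobal q), ⟨F, hF, rfl⟩, fun g s hs => ?_⟩
  rw [sasmRes_apply, sasmRes_apply, map_mul]
  exact h _ _ hs

/-- a representation of `G_ℚ` which is trivial on `Gal(ℚ̄/F)` is smooth on `G_{ℚ_q}` -/
lemma sasm_smooth_loc
    (hA : ∃ F : QbarField, FiniteDimensional ℚ F ∧ ∀ s ∈ F.fixingSubgroup, A.ρ s = 1) :
    ∃ U ∈ (towerLoc q).lev, ∀ s ∈ U, (locRep q A).ρ s = 1 := by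
  obtain ⟨F, hF, h⟩ := hA
  exact ⟨F.fixingSubgroup.comap (localGaloisToGlobal q), ⟨F, hF, rfl⟩, fun s hs => h _ hs⟩

end Res

end Fermat.Agent.TW.S

end
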