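/-
TW-S, piece S-asm (helper54): THE ASSEMBLY.  The number of pairwise inequivalent deformations of
`ρ̄` to `k[ε]` of type `𝒟` is at most the order of the Selmer group.

* `sasm_main`            : generic form (any condition `𝒟` with cyclotomic determinant, unramified
                           outside `Smin ∪ Q`, unipotent on inertia at `Smin ∖ p`, whose classes at
                           `p` lie in `Lp`);
* `stmtSelCardFlat`      : the flat case (`Lp` = any subspace containing the flat classes);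
* `stmtSelCardOrd_of`    : the ordinary case, from S-ord.
-/
import Fermat.Agent.TW.S.SelCardAux
import Fermat.Agent.TW.S.Frame
import Fermat.Agent.TW.S.Unr
import Fermat.Agent.TW.S.Iso
import Fermat.Agent.TW.S.Trace
import Fermat.Agent.TW.S.Conj
import Fermat.Agent.TW.S.Lev
import Fermat.Agent.TW.S.MinFinal
import Fermat.Agent.TW.L.FrobExists

set_option autoImplicit false
set_option linter.unusedSectionVars false
set_option linter.unusedVariables false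

noncomputable section

namespace Fermat.Agent.TW.S

open CategoryTheory groupCohomology IsLocalRing
open Fermat.Agent.PT Fermat.Agent.PT.B Fermat.Agent.S53 Fermat.Agent.TW.L ExtCitation

section Coc

variable {𝒪 : Type} [CommRing 𝒪] [IsLocalRing 𝒪] (p : ℕ) [Fact p.Prime]
  [CharP (ResidueField 𝒪) p] {ρbar : ResidualGaloisRep (ResidueField 𝒪)}
  (D : RigidDatum 𝒪 ρbar)

lemma sasm_ad0Incl_injective : Function.Injective (ad0Incl p ρbar).hom := by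
  intro x y h
  apply ad0Val_injective p ρbar
  have := congrArg (adVal p ρbar) h
  simpa using this

/-- the trace-zero cocycle of a deformation with cyclotomic determinant -/
lemma sasm_exists_coc0 (ρ : GaloisRepAdic (DualNumber (ResidueField 𝒪)))
    (c : GQ → (adRep p ρbar).V) (hc : IsCocOf p D ρ c) (hdet : ρ.DetIsCyclotomic p) :
    ∃ c0 : cocycles₁ (ad0Rep p ρbar),
      (fun σ => (ad0Incl p ρbar).hom ((c0 : GQ → (ad0Rep p ρbar).V) σ)) = c := by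
  have htr := stmtTrace 𝒪 p ρbar D ρ c hc hdet
  have hcoc := (stmtCoc 𝒪 p ρbar D ρ c hc).1
  have hex : ∀ σ : GQ, ∃ x : (ad0Rep p ρbar).V, (ad0Incl p ρbar).hom x = c σ := by
    intro σ
    obtain ⟨x, hx⟩ := exists_ad0Val_eq p ρbar (adVal p ρbar (c σ)) (htr σ)
    refine ⟨x, ?_⟩
    apply adVal_injective p ρbar
    rw [adVal_ad0Incl, hx]
  choose f hf using hex
  have hmem : f ∈ cocycles₁ (ad0Rep p ρbar) := by
    rw [mem_cocycles₁_iff]
    intro g h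
    apply sasm_ad0Incl_injective p
    rw [map_add, hf, hf, hcoc g h, ← hf h]
    rfl
  exact ⟨⟨f, hmem⟩, funext hf⟩

end Coc

section Loc

variable {𝒪 : Type} [CommRing 𝒪] [IsLocalRing 𝒪] (p : ℕ) [Fact p.Prime]
  [CharP (ResidueField 𝒪) p] {ρbar : ResidualGaloisRep (ResidueField 𝒪)}
  (D : RigidDatum 𝒪 ρbar)
  (ρ : GaloisRepAdic (DualNumber (ResidueField 𝒪))) (c0 : cocycles₁ (ad0Rep p ρbar))
  (hc : IsCocOf p D ρ (fun σ => (ad0Incl p ρbar).hom ((c0 : GQ → (ad0Rep p ρbar).V) σ)))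

/-- `ad⁰` is trivial on `Gal(ℚ̄/F)` for a finite `F/ℚ`. -/
lemma sasm_ad0_smooth (ρbar : ResidualGaloisRep (ResidueField 𝒪)) :
    ∃ F : QbarField, FiniteDimensional ℚ F ∧
      ∀ s ∈ F.fixingSubgroup, (ad0Rep p ρbar).ρ s = 1 := by
  obtain ⟨F, hF, h⟩ := ρbar.factorsThroughFiniteLevel
  refine ⟨F, hF, fun s hs => ?_⟩
  have h1 : ρbar.ρ s = 1 := h s (fun x hx => (IntermediateField.mem_fixingSubgroup_iff F s).1 hs x hx)
  have h2 : ρbar.ρ s⁻¹ = 1 :=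
    h s⁻¹ (fun x hx => (IntermediateField.mem_fixingSubgroup_iff F s⁻¹).1
      (F.fixingSubgroup.inv_mem hs) x hx)
  apply LinearMap.ext
  intro x
  apply ad0Val_injective p ρbar
  rw [ad0Val_ρ, h1, h2, one_mul, mul_one]
  rfl

include hc in
/-- `c0` is constant modulo `Gal(ℚ̄/F)` for a finite `F/ℚ`. -/
lemma sasm_coc0_level : ∃ F : QbarField, FiniteDimensional ℚ F ∧
    ∀ g s : GQ, s ∈ F.fixingSubgroup →
      (c0 : GQ → (ad0Rep p ρbar).V) (g * s) = (c0 : GQ → (ad0Rep p ρbar).V) g := by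
  obtain ⟨F, hF, h⟩ := (stmtCoc 𝒪 p ρbar D ρ _ hc).2
  exact ⟨F, hF, fun g s hs => sasm_ad0Incl_injective p (h g s hs)⟩

include hc in
/-- `c0` is a level cocycle for `towerS T` if `ρ` is unramified outside `T`. -/
lemma sasm_coc0_isLevel [Finite (ResidueField 𝒪)] (T : Finset Nat.Primes)
    (hunr : ∀ q : Nat.Primes, q ∉ T → ρ.IsUnramifiedAt (q : ℕ)) :
    IsLevel₁ (towerS T) (c0 : GQ → (ad0Rep p ρbar).V) := by
  obtain ⟨U, hU, h⟩ := stmtLev 𝒪 p ρbar D ρ _ T hc hunr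
  exact ⟨U, hU, fun g s hs => sasm_ad0Incl_injective p (h g s hs)⟩

/-- the restriction of the class to `G_{ℚ_q}` is a level class -/
lemma sasm_loc_lev (q : ℕ) [Fact q.Prime] (c0 : cocycles₁ (ad0Rep p ρbar))
    (hc : IsCocOf p D ρ (fun σ => (ad0Incl p ρbar).hom ((c0 : GQ → (ad0Rep p ρbar).V) σ))) :
    (groupCohomology.map (localGaloisToGlobal q) (𝟙 (locRep q (ad0Rep p ρbar))) 1).hom
        ((H1π (ad0Rep p ρbar)).hom c0) ∈ levH1 (towerLoc q) (locRep q (ad0Rep p ρbar)) := by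
  rw [sasm_locRes_H1π, mem_levH1_iff]
  exact ⟨sasmRes q (ad0Rep p ρbar) c0,
    sasm_isLevel_res q (ad0Rep p ρbar) c0 (sasm_coc0_level p D ρ c0 hc), rfl⟩

/-- at `q ≠ p` where `ρ̄` is ramified and `ρ` is unipotent on inertia, the restriction of the
class is unramified -/
lemma sasm_loc_unr (hp2 : p ≠ 2) (q : ℕ) [Fact q.Prime] (hq : q ≠ p)
    (c0 : cocycles₁ (ad0Rep p ρbar))
    (hc : IsCocOf p D ρ (fun σ => (ad0Incl p ρbar).hom ((c0 : GQ → (ad0Rep p ρbar).V) σ)))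
    (hdet : ρ.DetIsCyclotomic p)
    (hram : ¬ ρbar.IsUnramifiedAt q) (hunip : ρ.IsUnipotentOnInertiaAt q) :
    (groupCohomology.map (localGaloisToGlobal q) (𝟙 (locRep q (ad0Rep p ρbar))) 1).hom
        ((H1π (ad0Rep p ρbar)).hom c0) ∈ unrH1 q (locRep q (ad0Rep p ρbar)) := by
  obtain ⟨x, hx⟩ := stmtMin 𝒪 p ρbar D ρ _ q hp2 hq hc
    (stmtTrace 𝒪 p ρbar D ρ _ hc hdet)
    (fun σ hσ => hunip (padicPlace q) (lfrobex_liesOverPrime q) σ hσ)
    (stmtConj (ResidueField 𝒪) ρbar q hram)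
  rw [sasm_locRes_H1π, mem_unrH1]
  refine ⟨sasmSubCob (locRep q (ad0Rep p ρbar)) (sasmRes q (ad0Rep p ρbar) c0) x, ?_, ?_, ?_⟩
  · exact sasm_isLevel_subCob (locRep q (ad0Rep p ρbar)) (towerLoc q) _ x
      (sasm_smooth_loc q (ad0Rep p ρbar) (sasm_ad0_smooth p ρbar))
      (sasm_isLevel_res q (ad0Rep p ρbar) c0 (sasm_coc0_level p D ρ c0 hc))
  · intro τ hτ
    rw [sasmSubCob_apply, sasmRes_apply, sub_eq_zero]
    apply sasm_ad0Incl_injective p
    rw [hx τ hτ]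
    rfl
  · exact sasm_H1π_subCob (locRep q (ad0Rep p ρbar)) (sasmRes q (ad0Rep p ρbar) c0) x

end Loc

section Main

variable {𝒪 : Type} [CommRing 𝒪] [IsDomain 𝒪] [IsDiscreteValuationRing 𝒪]
  [IsAdicComplete (maximalIdeal 𝒪) 𝒪] (p : ℕ) [Fact p.Prime]
  [CharP (ResidueField 𝒪) p] [Finite (ResidueField 𝒪)]
  {ρbar : ResidualGaloisRep (ResidueField 𝒪)} (D : RigidDatum 𝒪 ρbar)

/-- the local condition at `q`, for the class of a deformation -/
lemma sasm_loc_mem (hp2 : p ≠ 2) (Smin : Finset ℕ)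
    (hSmin : ∀ q : ℕ, q.Prime → q ≠ p → (q ∈ Smin ↔ ¬ ρbar.IsUnramifiedAt q))
    (Lp : Submodule (ZMod p) (H1 (locRep p (ad0Rep p ρbar))))
    (ρ : GaloisRepAdic (DualNumber (ResidueField 𝒪))) (c0 : cocycles₁ (ad0Rep p ρbar))
    (hc : IsCocOf p D ρ (fun σ => (ad0Incl p ρbar).hom ((c0 : GQ → (ad0Rep p ρbar).V) σ)))
    (hdet : ρ.DetIsCyclotomic p)
    (hmin : ∀ q ∈ Smin, q.Prime → q ≠ p → ρ.IsUnipotentOnInertiaAt q)
    (hLp : (groupCohomology.map (localGaloisToGlobal p) (𝟙 (locRep p (ad0Rep p ρbar))) 1).hom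
        ((H1π (ad0Rep p ρbar)).hom c0) ∈ Lp)
    (q : ℕ) [hq : Fact q.Prime] :
    (groupCohomology.map (localGaloisToGlobal q) (𝟙 (locRep q (ad0Rep p ρbar))) 1).hom
        ((H1π (ad0Rep p ρbar)).hom c0) ∈ locCond p ρbar Smin Lp q := by
  by_cases h : q = p
  · subst h
    have h1 : locCond q ρbar Smin Lp q = Lp := locCond_self q ρbar Smin Lp
    rw [h1]
    exact hLp
  · by_cases hm : q ∈ Smin
    · rw [locCond_of_mem p ρbar Smin Lp q h hm]
      exact sasm_loc_unr p D ρ hp2 q h c0 hc hdet ((hSmin q hq.out h).1 hm) (hmin q hm hq.out h)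
    · rw [locCond_of_not_mem p ρbar Smin Lp q h hm]
      exact sasm_loc_lev p D ρ q c0 hc

/-- **S-asm, generic form.** -/
theorem sasm_main (hp2 : p ≠ 2) (Smin Q : Finset ℕ)
    (hSmin : ∀ q : ℕ, q.Prime → q ≠ p → (q ∈ Smin ↔ ¬ ρbar.IsUnramifiedAt q))
    (Lp : Submodule (ZMod p) (H1 (locRep p (ad0Rep p ρbar))))
    (𝒟 : ∀ ⦃A : Type⦄ [CommRing A] [IsLocalRing A] [Algebra 𝒪 A], GaloisRepAdic A → Prop)
    (h𝒟det : ∀ ρ : GaloisRepAdic (DualNumber (ResidueField 𝒪)),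
      @𝒟 (DualNumber (ResidueField 𝒪)) _ _ (dnAlg 𝒪) ρ → ρ.DetIsCyclotomic p)
    (h𝒟unr : ∀ ρ : GaloisRepAdic (DualNumber (ResidueField 𝒪)),
      @𝒟 (DualNumber (ResidueField 𝒪)) _ _ (dnAlg 𝒪) ρ →
      ∀ q : ℕ, q.Prime → q ∉ Smin ∪ Q → ρ.IsUnramifiedAt q)
    (h𝒟min : ∀ ρ : GaloisRepAdic (DualNumber (ResidueField 𝒪)),
      @𝒟 (DualNumber (ResidueField 𝒪)) _ _ (dnAlg 𝒪) ρ →
      ∀ q ∈ Smin, q.Prime → q ≠ p → ρ.IsUnipotentOnInertiaAt q)
    (h𝒟p : ∀ (ρ : GaloisRepAdic (DualNumber (ResidueField 𝒪))) (c : cocycles₁ (ad0Rep p ρbar)),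
      IsCocOf p D ρ (fun σ => (ad0Incl p ρbar).hom ((c : GQ → (ad0Rep p ρbar).V) σ)) →
      @𝒟 (DualNumber (ResidueField 𝒪)) _ _ (dnAlg 𝒪) ρ →
      (groupCohomology.map (localGaloisToGlobal p) (𝟙 (locRep p (ad0Rep p ρbar))) 1).hom
        ((H1π (ad0Rep p ρbar)).hom c) ∈ Lp)
    (hfin : Finite ↥(selGroup p ρbar Smin Lp (primesOf (Smin ∪ Q)))) :
    TwTanCard 𝒪 ρbar 𝒟 (Nat.card ↥(selGroup p ρbar Smin Lp (primesOf (Smin ∪ Q)))) := by
  intro ι _ t ht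
  have hex : ∀ i : ι, ∃ c0 : cocycles₁ (ad0Rep p ρbar),
      IsCocOf p D (t i).1
        (fun σ => (ad0Incl p ρbar).hom ((c0 : GQ → (ad0Rep p ρbar).V) σ)) := by
    intro i
    obtain ⟨c, hc⟩ := stmtFrame 𝒪 p ρbar D (t i).1 (t i).2.2
    obtain ⟨c0, hc0⟩ := sasm_exists_coc0 p D (t i).1 c hc (h𝒟det _ (t i).2.1)
    exact ⟨c0, by rw [hc0]; exact hc⟩
  choose c0 hc0 using hex
  have hmem : ∀ i, (H1π (ad0Rep p ρbar)).hom (c0 i) ∈
      selGroup p ρbar Smin Lp (primesOf (Smin ∪ Q)) := by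
    intro i
    refine ⟨?_, ?_⟩
    · rw [SetLike.mem_coe, mem_levH1_iff]
      refine ⟨c0 i, sasm_coc0_isLevel p D _ (c0 i) (hc0 i) _ (fun q hq => ?_), rfl⟩
      refine h𝒟unr _ (t i).2.1 q q.2 (fun hmem => hq ?_)
      exact Finset.mem_subtype.2 hmem
    · rw [SetLike.mem_coe, mem_selmer_iff]
      intro v
      have : Fact ((v : Nat.Primes) : ℕ).Prime := ⟨(v : Nat.Primes).2⟩
      exact sasm_loc_mem p D hp2 Smin hSmin Lp (t i).1 (c0 i) (hc0 i) (h𝒟det _ (t i).2.1)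
        (h𝒟min _ (t i).2.1) (h𝒟p _ (c0 i) (hc0 i) (t i).2.1) ((v : Nat.Primes) : ℕ)
  refine Nat.card_le_card_of_injective
    (fun i => (⟨(H1π (ad0Rep p ρbar)).hom (c0 i), hmem i⟩ :
      ↥(selGroup p ρbar Smin Lp (primesOf (Smin ∪ Q))))) ?_
  intro i j hij
  apply ht
  have h1 : H1π (ad0Rep p ρbar) (c0 i) = H1π (ad0Rep p ρbar) (c0 j) := congrArg Subtype.val hij
  rw [H1π_eq_iff] at h1
  obtain ⟨x, hx⟩ := h1
  refine stmtIso 𝒪 p ρbar D _ _ _ _ (hc0 i) (hc0 j) ⟨(ad0Incl p ρbar).hom x, fun σ => ?_⟩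
  have h2 := congrFun hx σ
  rw [← map_sub]
  have h3 : ((c0 i : GQ → (ad0Rep p ρbar).V) σ) - ((c0 j : GQ → (ad0Rep p ρbar).V) σ) =
      (ad0Rep p ρbar).ρ σ x - x := h2.symm
  rw [h3, map_sub]
  rfl

/-- **S-asm (flat)**, unconditional. -/
theorem stmtSelCardFlat : StmtSelCardFlat := by
  intro 𝒪 _ _ _ _ p _ _ _ ρbar D hp2 Smin Q hpS hSmin Lp hflat hfin
  exact sasm_main p D hp2 Smin Q hSmin Lp (condFlat 𝒪 p Smin Q)
    (fun ρ h => h.1.1) (fun ρ h => h.1.2.2) (fun ρ h => h.2)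
    (fun ρ c hc h => hflat ρ c hc h.1.1 h.1.2.1) hfin

/-- **S-asm (ord)**, from S-ord. -/
theorem stmtSelCardOrd_of (hord : StmtOrd) : StmtSelCardOrd := by
  intro 𝒪 _ _ _ _ p _ _ _ ρbar hp2 habs Smin Q hpS hSmin Lbar hLbar hfin
  obtain ⟨D⟩ := nonempty_rigidDatum (𝒪 := 𝒪) ρbar habs
  refine sasm_main p D hp2 Smin Q hSmin (ordH1 p ρbar Lbar p) (condOrd 𝒪 p Smin Q)
    (fun ρ h => h.1.1) (fun ρ h => h.1.2.2) (fun ρ h => h.2) (fun ρ c hc h => ?_) hfin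
  obtain ⟨x, hx⟩ := hord 𝒪 p ρbar D ρ _ Lbar hp2 hc h.1.1 h.1.2.1 hLbar
  rw [sasm_locRes_H1π, mem_ordH1]
  refine ⟨sasmSubCob (locRep p (ad0Rep p ρbar)) (sasmRes p (ad0Rep p ρbar) c) x, ?_, ?_, ?_⟩
  · exact sasm_isLevel_subCob (locRep p (ad0Rep p ρbar)) (towerLoc p) _ x
      (sasm_smooth_loc p (ad0Rep p ρbar) (sasm_ad0_smooth p ρbar))
      (sasm_isLevel_res p (ad0Rep p ρbar) c (sasm_coc0_level p D ρ c hc))
  · intro τ
    obtain ⟨n, hn, hxn⟩ := hx τ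
    have h1 : (sasmSubCob (locRep p (ad0Rep p ρbar)) (sasmRes p (ad0Rep p ρbar) c) x :
        GQq p → (ad0Rep p ρbar).V) τ = n := by
      rw [sasmSubCob_apply, sasmRes_apply]
      apply sasm_ad0Incl_injective p
      rw [map_sub, hxn]
      have h2 : (ad0Incl p ρbar).hom
          ((locRep p (ad0Rep p ρbar)).ρ τ x - x) =
          (adRep p ρbar).ρ (localGaloisToGlobal p τ) ((ad0Incl p ρbar).hom x) -
            (ad0Incl p ρbar).hom x := by
        rw [map_sub]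
        rfl
      rw [h2]
      abel
    rw [h1]
    exact hn
  · exact sasm_H1π_subCob (locRep p (ad0Rep p ρbar)) (sasmRes p (ad0Rep p ρbar) c) x

end Main

end Fermat.Agent.TW.S

end
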