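/-
TW-S, FINAL (helper54): the two counting statements of TW-S, unconditional.
Import this file to use TW-S.

  `stmtSelCardOrd  : StmtSelCardOrd`   (S-asm + S-ord `stmtOrd`)
  `stmtSelCardFlat : StmtSelCardFlat`  (TW/S/SelCard.lean)
-/
import Fermat.Agent.TW.S.SelCard
import Fermat.Agent.TW.S.Ord

set_option autoImplicit false

namespace Fermat.Agent.TW.S

/-- **S-asm (ord)**, unconditional. -/
theorem stmtSelCardOrd : StmtSelCardOrd := stmtSelCardOrd_of stmtOrd

end Fermat.Agent.TW.S
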