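/-
TW-S, piece S-tow (helper40): `stmtTow : StmtTow` (change of tower).

`c` a cocycle, level for `towerS T'`, `A` trivial on `G_K` (`K` Galois, unramified outside `T`).
`N := {g ∈ G_K | c g = 0}` is a normal subgroup of `G_ℚ` (`c` is a homomorphism on `G_K`), contains
`Gal(ℚ̄/E)` for a finite Galois `E`, and contains the inertia groups at all places outside `T`:
outside `T'` by the level of `c`; at `q ∈ T' ∖ T` by the local condition at `padicPlace q`
(`TW.L.stmtDecFull`) and conjugacy of the places over `q` (`stow_inertia_le`).  Hence `N = G_L` with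
`L` unramified outside `T` (`PT.B.isTowerField_fixedField_of_normal`) and `c` is constant mod `N`.
-/
import Fermat.Agent.TW.S.Plan
import Fermat.Agent.TW.L.DecFull
import Fermat.Agent.TW.L.FrobExists
import Fermat.Agent.TW.ChebPrime
import Fermat.Agent.PT.B.NormalClosure
import Fermat.Agent.PT.B.KernelField

set_option autoImplicit false
set_option linter.unusedSectionVars false
set_option linter.style.haveILetI false

noncomputable section

namespace Fermat.Agent.TW.S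

open CategoryTheory groupCohomology IsLocalRing NumberField
open Fermat.Agent.PT Fermat.Agent.PT.B Fermat.Agent.TW.L ExtCitation
open scoped Pointwise

/-- **Inertia groups over the same prime are conjugate**, in the form: a normal subgroup of `G_ℚ`
which is open (contains `Gal(ℚ̄/E)`, `E` finite Galois) and contains the inertia group of one place
over `q` contains the inertia group of every place over `q`. -/
theorem stow_inertia_le (N : Subgroup GQ) [N.Normal] (E : QbarField) [FiniteDimensional ℚ E]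
    [IsGalois ℚ E] (hE : E.fixingSubgroup ≤ N) {q : ℕ} (hq : q.Prime)
    (P A : ValuationSubring (AlgebraicClosure ℚ)) (hP : P.LiesOverPrime q)
    (hA : A.LiesOverPrime q) (hPN : P.inertiaSubgroupIn ℚ ≤ N) :
    A.inertiaSubgroupIn ℚ ≤ N := by
  intro σ hσ
  obtain ⟨-, hσI⟩ := (mem_inertiaSubgroupIn_iff A σ).mp hσ
  obtain ⟨g₀, hg₀⟩ := Fermat.Agent.TW.twc_exists_smul_eq E P A hq hP hA
  obtain ⟨g, hg⟩ := Fermat.Agent.TW.twc_exists_lift E g₀
  set σ₀ : GQ := g⁻¹ * σ * g with hσ₀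
  have key : ∀ x ∈ E, IsIntegral ℤ x → σ₀ x - x ∈ P.nonunits := by
    intro x hx hint
    have hyE : g x ∈ E := Fermat.Agent.TW.twc_apply_mem E g hx
    have hyint : IsIntegral ℤ (g x) :=
      hint.map (g : AlgebraicClosure ℚ →ₐ[ℚ] AlgebraicClosure ℚ).toRingHom.toIntAlgHom
    obtain ⟨y, hy⟩ := Fermat.Agent.TW.twc_exists_int E hyE hyint
    have h1 : Cheb.intEmb E ((MulSemiringAction.toAlgHom ℤ (𝓞 E) (σ.restrictNormal E)) y) =
        σ (Cheb.intEmb E y) := AlgEquiv.restrictNormal_commutes σ E (y : E)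
    have hz : (MulSemiringAction.toAlgHom ℤ (𝓞 E) (σ.restrictNormal E)) y - y ∈
        Fermat.Agent.TW.twcPrime E A := by
      rw [Fermat.Agent.TW.twc_mem_prime, map_sub, h1]
      exact hσI _ (Cheb.intEmb_mem E A y)
    rw [← hg₀, Ideal.mem_pointwise_smul_iff_inv_smul_mem, Fermat.Agent.TW.twc_mem_prime,
      Fermat.Agent.TW.twc_intEmb_inv_smul E g₀ g hg, map_sub, h1, hy, map_sub] at hz
    have h2 : g⁻¹ (g x) = x := g.symm_apply_apply x
    rw [h2] at hz
    exact hz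
  obtain ⟨σ', hσ', hσ'E⟩ :=
    Fermat.Agent.Common.exists_mem_inertiaSubgroupIn_of_congr E q hq P hP σ₀ key
  have h1 : σ' ∈ N := hPN hσ'
  have h2 : σ'⁻¹ * σ₀ ∈ E.fixingSubgroup := by
    rw [IntermediateField.mem_fixingSubgroup_iff]
    intro x hx
    show σ'⁻¹ (σ₀ x) = x
    rw [← hσ'E x hx]
    exact σ'.symm_apply_apply x
  have h3 : σ₀ ∈ N := by
    have := N.mul_mem h1 (hE h2)
    rwa [mul_inv_cancel_left] at this
  have h4 : g * σ₀ * g⁻¹ ∈ N := Subgroup.Normal.conj_mem inferInstance σ₀ h3 g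
  have h5 : g * σ₀ * g⁻¹ = σ := by rw [hσ₀]; group
  rwa [h5] at h4

/-- the kernel of a cocycle on a subgroup which acts trivially -/
def stow_ker {k : Type} [CommRing k] (A : Rep.{0} k GQ) (c : cocycles₁ A) (V : Subgroup GQ)
    (hV : ∀ s ∈ V, A.ρ s = 1) : Subgroup GQ where
  carrier := {g | g ∈ V ∧ c g = 0}
  one_mem' := ⟨V.one_mem, cocycles₁_map_one c⟩
  mul_mem' := by
    rintro a b ⟨ha, hca⟩ ⟨hb, hcb⟩
    refine ⟨V.mul_mem ha hb, ?_⟩
    rw [(mem_cocycles₁_iff c).1 c.2 a b, hcb, map_zero, hca, add_zero]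
  inv_mem' := by
    rintro a ⟨ha, hca⟩
    refine ⟨V.inv_mem ha, ?_⟩
    have := cocycles₁_map_inv c a
    rw [hV a ha, hca, neg_zero] at this
    exact this

theorem stow_mem_ker {k : Type} [CommRing k] (A : Rep.{0} k GQ) (c : cocycles₁ A)
    (V : Subgroup GQ) (hV : ∀ s ∈ V, A.ρ s = 1) (g : GQ) :
    g ∈ stow_ker A c V hV ↔ g ∈ V ∧ c g = 0 := Iff.rfl

theorem stow_ker_normal {k : Type} [CommRing k] (A : Rep.{0} k GQ) (c : cocycles₁ A)
    (V : Subgroup GQ) [hVn : V.Normal] (hV : ∀ s ∈ V, A.ρ s = 1) :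
    (stow_ker A c V hV).Normal := by
  refine ⟨fun n hn g => ?_⟩
  obtain ⟨hnV, hcn⟩ := hn
  refine ⟨hVn.conj_mem n hnV g, ?_⟩
  rw [(mem_cocycles₁_iff c).1 c.2 (g * n) g⁻¹, (mem_cocycles₁_iff c).1 c.2 g n, hcn, map_zero,
    zero_add, map_mul, Module.End.mul_apply, hV n hnV, Module.End.one_apply,
    cocycles₁_map_inv, neg_add_cancel]

/-- **S-tow**. -/
theorem stmtTow : StmtTow := by
  intro p _ T T' hTT A _ hA x hx hloc
  obtain ⟨U₀, hU₀, hU₀A⟩ := hA
  obtain ⟨V, hV, hVU₀, hVn⟩ := (towerS T).exists_normal U₀ hU₀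
  obtain ⟨K, hK, rfl⟩ := hV
  rw [mem_levH1_iff] at hx ⊢
  obtain ⟨c, hc, rfl⟩ := hx
  obtain ⟨U', hU', hcU'⟩ := hc
  obtain ⟨F', hF', rfl⟩ := hU'
  refine ⟨c, ?_, rfl⟩
  have hVA : ∀ s ∈ K.fixingSubgroup, A.ρ s = 1 := fun s hs => hU₀A s (hVU₀ hs)
  set N := stow_ker A c K.fixingSubgroup hVA with hN
  haveI : N.Normal := stow_ker_normal A c K.fixingSubgroup hVA
  have hF'K : (F' ⊔ K).IsUnramifiedOutside T' := hF'.sup (hK.mono hTT)
  obtain ⟨E, hEle, hE⟩ := stmtNormalClosure T' (F' ⊔ K) hF'K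
  haveI : FiniteDimensional ℚ E := hE.1.1
  haveI : IsGalois ℚ E := hE.2
  have hEN : E.fixingSubgroup ≤ N := by
    intro s hs
    refine ⟨IntermediateField.fixingSubgroup_antitone (le_sup_right.trans hEle) hs, ?_⟩
    have h1 : s ∈ F'.fixingSubgroup :=
      IntermediateField.fixingSubgroup_antitone (le_sup_left.trans hEle) hs
    have h2 := hcU' 1 s h1
    rw [one_mul] at h2
    rw [h2]
    exact cocycles₁_map_one c
  have hI : ∀ q : Nat.Primes, q ∉ T → ∀ A' : ValuationSubring (AlgebraicClosure ℚ),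
      A'.LiesOverPrime (q : ℕ) → A'.inertiaSubgroupIn ℚ ≤ N := by
    intro q hq A' hA'
    by_cases hqT' : q ∈ T'
    · haveI : Fact ((q : Nat.Primes) : ℕ).Prime := ⟨q.2⟩
      apply stow_inertia_le N E hEN q.2 (padicPlace (q : ℕ)) A'
        (lfrobex_liesOverPrime (q : ℕ)) hA'
      intro σ hσ
      have hσK : σ ∈ K.fixingSubgroup := hK.2 q hq _ (lfrobex_liesOverPrime (q : ℕ)) hσ
      refine ⟨hσK, ?_⟩
      obtain ⟨τ, rfl⟩ := stmtDecFull (q : ℕ) σ ((mem_inertiaSubgroupIn_iff _ σ).mp hσ).1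
      have hτ : τ ∈ inertiaQ (q : ℕ) := hσ
      have hl := hloc q hqT' hq
      rw [mem_unrH1] at hl
      obtain ⟨cq, -, hcq, hcqx⟩ := hl
      have h1 := H1π_comp_map_apply (A := A) (B := locRep (q : ℕ) A)
        (localGaloisToGlobal (q : ℕ)) (𝟙 _) c
      have h3 := (H1π_eq_iff cq (mapCocycles₁ (localGaloisToGlobal (q : ℕ)) (𝟙 _) c)).mp
        (hcqx.trans h1)
      obtain ⟨a, ha⟩ := h3
      have h2 := congrFun ha τ
      rw [Pi.sub_apply, hcq τ hτ, zero_sub] at h2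
      have e1 : (d₀₁ (locRep (q : ℕ) A)).hom a τ = A.ρ (localGaloisToGlobal (q : ℕ) τ) a - a :=
        rfl
      have e2 : (mapCocycles₁ (localGaloisToGlobal (q : ℕ)) (𝟙 (Rep.res (localGaloisToGlobal (q : ℕ)) A))
          c) τ = c (localGaloisToGlobal (q : ℕ) τ) := rfl
      rw [e1, hVA _ hσK, Module.End.one_apply, sub_self] at h2
      have h4 := neg_eq_zero.mp h2.symm
      rw [← e2]
      exact h4
    · intro σ hσ
      exact hEN (hE.1.2 q hqT' A' hA' hσ)
  obtain ⟨hT, hfix⟩ := isTowerField_fixedField_of_normal T N E hE.1.1 hEN hI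
  refine ⟨N, ⟨IntermediateField.fixedField N, hT.1, hfix.symm⟩, fun g s hs => ?_⟩
  rw [(mem_cocycles₁_iff c).1 c.2 g s, hs.2, map_zero, zero_add]

end Fermat.Agent.TW.S
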