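import Fermat.Agent.TW.S.OrdPlan
import Fermat.Agent.TW.S.Trace

/-!
# TW-S / S-ord, pieces O3 + O4

`stmtOrd_of_red : StmtOrdRed → StmtOrd`: the cocycle of a strictly ordinary deformation with
cyclotomic determinant is, on `G_{ℚ_p}`, cohomologous to a cocycle with values in
`N = Hom(V̄/L̄, L̄)`.

In the coordinates of the matrix form `(1 + ε c(σ)) ρ̄(σ)` the ordinary line is generated by
`w₀ + ε w₁` (`StmtOrdRed`).  Choose a trace-zero `Y` with `Y w₀ = -w₁` (`sordm_exists_Y`); then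
`1 + ε Y` moves the line to the constant line `k[ε] w₀`, and `c(σ) - (σ·Y - Y)` kills `w₀` and has
image in `k w₀` (`sordm_core`), because the two characters of the decomposition group have values
in `k`.
-/

set_option autoImplicit false

noncomputable section

namespace Fermat.Agent.TW.S

open CategoryTheory groupCohomology IsLocalRing
open Fermat.Agent.PT Fermat.Agent.PT.B Fermat.Agent.S53 Fermat.Agent.TW.L ExtCitation

section Alg

variable {k : Type} [Field k]

/-- a trace-zero matrix with prescribed value on a nonzero vector -/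
theorem sordm_exists_Y (w0 u : Fin 2 → k) (hw0 : w0 ≠ 0) :
    ∃ Y : M2 k, Y.trace = 0 ∧ Y.mulVec w0 = u := by
  by_cases h0 : w0 0 = 0
  · have h1 : w0 1 ≠ 0 := by
      intro h1
      apply hw0
      funext i
      fin_cases i
      · exact h0
      · exact h1
    refine ⟨!![-(u 1 / w0 1), u 0 / w0 1; 0, u 1 / w0 1], ?_, ?_⟩
    · simp [Matrix.trace_fin_two]
    · funext i
      fin_cases i
      · simp [Matrix.mulVec, dotProduct, Fin.sum_univ_two, h0]
        field_simp
      · simp [Matrix.mulVec, dotProduct, Fin.sum_univ_two, h0]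
        field_simp
  · refine ⟨!![u 0 / w0 0, 0; (u 1 + u 0 / w0 0 * w0 1) / w0 0, -(u 0 / w0 0)], ?_, ?_⟩
    · simp [Matrix.trace_fin_two]
    · funext i
      fin_cases i
      · simp [Matrix.mulVec, dotProduct, Fin.sum_univ_two]
        field_simp
      · simp [Matrix.mulVec, dotProduct, Fin.sum_univ_two]
        field_simp
        ring

/-- **O3 + O4**, in coordinates: after moving the line to the constant line, the cocycle takes
values in `Hom(V̄/L̄, L̄)`. -/
theorem sordm_core (P Pinv C Y : M2 k) (hPP : P * Pinv = 1) (hPP' : Pinv * P = 1)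
    (w0 w1 : Fin 2 → k) (x z : k) (hx : x ≠ 0) (hz : z ≠ 0)
    (H1 : P.mulVec w0 = x • w0)
    (H2 : P.mulVec w1 + (C * P).mulVec w0 = x • w1)
    (H3 : ∀ v0 : Fin 2 → k, ∃ t0 t1 : k,
      P.mulVec v0 - z • v0 = t0 • w0 ∧ (C * P).mulVec v0 = t0 • w1 + t1 • w0)
    (hY : Y.mulVec w0 = -w1) :
    (C - (P * Y * Pinv - Y)).mulVec w0 = 0 ∧
      ∀ u : Fin 2 → k, ∃ s : k, (C - (P * Y * Pinv - Y)).mulVec u = s • w0 := by
  have hPinv_w0 : Pinv.mulVec w0 = x⁻¹ • w0 := by
    have h := congrArg (fun v => Pinv.mulVec v) H1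
    simp only [Matrix.mulVec_mulVec, hPP', Matrix.one_mulVec, Matrix.mulVec_smul] at h
    calc Pinv.mulVec w0 = x⁻¹ • (x • Pinv.mulVec w0) := by
          rw [smul_smul, inv_mul_cancel₀ hx, one_smul]
      _ = x⁻¹ • w0 := by rw [← h]
  have hC_w0 : x • C.mulVec w0 = x • w1 - P.mulVec w1 := by
    have h : (C * P).mulVec w0 = x • C.mulVec w0 := by
      rw [← Matrix.mulVec_mulVec, H1, Matrix.mulVec_smul]
    rw [← h, ← H2]
    abel
  constructor
  · have e1 : (P * Y * Pinv).mulVec w0 = -(x⁻¹ • P.mulVec w1) := by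
      rw [← Matrix.mulVec_mulVec, hPinv_w0, Matrix.mulVec_smul, ← Matrix.mulVec_mulVec, hY,
        Matrix.mulVec_neg, smul_neg]
    have e2 : C.mulVec w0 = w1 - x⁻¹ • P.mulVec w1 := by
      calc C.mulVec w0 = x⁻¹ • (x • C.mulVec w0) := by
            rw [smul_smul, inv_mul_cancel₀ hx, one_smul]
        _ = x⁻¹ • (x • w1 - P.mulVec w1) := by rw [hC_w0]
        _ = w1 - x⁻¹ • P.mulVec w1 := by
            rw [smul_sub, smul_smul, inv_mul_cancel₀ hx, one_smul]
    rw [Matrix.sub_mulVec, Matrix.sub_mulVec, e1, e2, hY]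
    abel
  · intro u
    obtain ⟨t0, t1, h3a, h3b⟩ := H3 (Pinv.mulVec u)
    obtain ⟨t0', -, h3a', -⟩ := H3 (Y.mulVec u)
    obtain ⟨t0'', -, h3a'', -⟩ := H3 w1
    have hPu : P.mulVec (Pinv.mulVec u) = u := by
      rw [Matrix.mulVec_mulVec, hPP, Matrix.one_mulVec]
    have hCu : C.mulVec u = t0 • w1 + t1 • w0 := by
      rw [← h3b, ← Matrix.mulVec_mulVec, hPu]
    rw [hPu] at h3a
    have hPinv_u : Pinv.mulVec u = z⁻¹ • (u - t0 • w0) := by
      rw [← h3a, sub_sub_cancel, smul_smul, inv_mul_cancel₀ hz, one_smul]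
    have hPYu : P.mulVec (Y.mulVec u) = z • Y.mulVec u + t0' • w0 := by
      rw [← h3a']; abel
    have hPw1 : P.mulVec w1 = z • w1 + t0'' • w0 := by
      rw [← h3a'']; abel
    have e1 : (P * Y * Pinv).mulVec u =
        Y.mulVec u + (z⁻¹ * t0') • w0 + t0 • w1 + (z⁻¹ * t0 * t0'') • w0 := by
      rw [← Matrix.mulVec_mulVec, hPinv_u, Matrix.mulVec_smul, ← Matrix.mulVec_mulVec,
        Matrix.mulVec_sub, Matrix.mulVec_smul, hY, Matrix.mulVec_sub, Matrix.mulVec_smul,
        Matrix.mulVec_neg, hPYu, hPw1]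
      simp only [smul_sub, smul_add, smul_neg, smul_smul]
      rw [inv_mul_cancel₀ hz, one_smul]
      have : z⁻¹ * (t0 * z) = t0 := by field_simp
      rw [this]
      have : z⁻¹ * (t0 * t0'') = z⁻¹ * t0 * t0'' := by ring
      rw [this]
      abel
    refine ⟨t1 - z⁻¹ * t0' - z⁻¹ * t0 * t0'', ?_⟩
    rw [Matrix.sub_mulVec, Matrix.sub_mulVec, e1, hCu]
    simp only [sub_smul]
    abel

/-- constant part of a matrix–vector product over the dual numbers -/
theorem sordm_fst_mulVec (M : M2 (DualNumber k)) (v : Fin 2 → DualNumber k) (i : Fin 2) :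
    (M.mulVec v i).fst = (dnFst M).mulVec (fun j => (v j).fst) i := by
  simp [Matrix.mulVec, dotProduct, Fin.sum_univ_two]

/-- `ε`-part of a matrix–vector product over the dual numbers -/
theorem sordm_snd_mulVec (M : M2 (DualNumber k)) (v : Fin 2 → DualNumber k) (i : Fin 2) :
    (M.mulVec v i).snd =
      (dnFst M).mulVec (fun j => (v j).snd) i + (dnSnd M).mulVec (fun j => (v j).fst) i := by
  simp only [Matrix.mulVec, dotProduct, Fin.sum_univ_two, TrivSqZeroExt.snd_add,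
    TrivSqZeroExt.snd_mul, dnFst_apply, dnSnd_apply, smul_eq_mul, MulOpposite.smul_eq_mul_unop,
    MulOpposite.unop_op]
  ring

theorem sordm_vec_fst (w0 w1 : Fin 2 → k) (j : Fin 2) : (sordVec w0 w1 j).fst = w0 j := by
  simp [sordVec]

theorem sordm_vec_snd (w0 w1 : Fin 2 → k) (j : Fin 2) : (sordVec w0 w1 j).snd = w1 j := by
  simp [sordVec]

end Alg

section Main

variable {𝒪 : Type} [CommRing 𝒪] [IsLocalRing 𝒪] (p : ℕ) [Fact p.Prime]
  [CharP (ResidueField 𝒪) p] {ρbar : ResidualGaloisRep (ResidueField 𝒪)}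
  (D : RigidDatum 𝒪 ρbar)

/-- the element of `ad⁰` with a given trace-zero matrix -/
theorem sordm_exists_ad0 (Y : M2 (ResidueField 𝒪)) (hY : Y.trace = 0) :
    ∃ y : (ad0Rep p ρbar).V, ad0Val p ρbar y = Matrix.toLin D.b D.b Y ∧
      adMat p D ((ad0Incl p ρbar).hom y) = Y := by
  have htr : LinearMap.trace (ResidueField 𝒪) ρbar.V (Matrix.toLin D.b D.b Y) = 0 := by
    rw [LinearMap.trace_eq_matrix_trace (ResidueField 𝒪) D.b, LinearMap.toMatrix_toLin, hY]
  obtain ⟨y, hy⟩ := exists_ad0Val_eq p ρbar (Matrix.toLin D.b D.b Y) htr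
  refine ⟨y, hy, ?_⟩
  unfold adMat
  rw [adVal_ad0Incl, hy, LinearMap.toMatrix_toLin]

/-- the three coordinate identities for one element of the decomposition group -/
theorem sordm_parts (c : GQ → (adRep p ρbar).V) (σ : GQ) (w0 w1 : Fin 2 → ResidueField 𝒪)
    (x z : ResidueField 𝒪)
    (hw : (liftMat p D c σ).mulVec (sordVec w0 w1) =
      (TrivSqZeroExt.inl x : DualNumber (ResidueField 𝒪)) • sordVec w0 w1)
    (hv : ∀ v : Fin 2 → DualNumber (ResidueField 𝒪), ∃ t : DualNumber (ResidueField 𝒪),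
      (liftMat p D c σ).mulVec v - (TrivSqZeroExt.inl z : DualNumber (ResidueField 𝒪)) • v =
        t • sordVec w0 w1) :
    (D.ρm σ).mulVec w0 = x • w0 ∧
    (D.ρm σ).mulVec w1 + (adMat p D (c σ) * D.ρm σ).mulVec w0 = x • w1 ∧
    ∀ v0 : Fin 2 → ResidueField 𝒪, ∃ t0 t1 : ResidueField 𝒪,
      (D.ρm σ).mulVec v0 - z • v0 = t0 • w0 ∧
        (adMat p D (c σ) * D.ρm σ).mulVec v0 = t0 • w1 + t1 • w0 := by
  refine ⟨?_, ?_, ?_⟩
  · funext i
    have h := congrArg TrivSqZeroExt.fst (congrFun hw i)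
    rw [sordm_fst_mulVec, dnFst_liftMat] at h
    simpa [sordm_vec_fst, sordm_vec_snd] using h
  · funext i
    have h := congrArg TrivSqZeroExt.snd (congrFun hw i)
    rw [sordm_snd_mulVec, dnFst_liftMat, dnSnd_liftMat] at h
    simpa [sordm_vec_fst, sordm_vec_snd] using h
  · intro v0
    obtain ⟨t, ht⟩ := hv (fun j => TrivSqZeroExt.inl (v0 j))
    refine ⟨t.fst, t.snd, ?_, ?_⟩
    · funext i
      have h := congrArg TrivSqZeroExt.fst (congrFun ht i)
      rw [Pi.sub_apply, TrivSqZeroExt.fst_sub, sordm_fst_mulVec, dnFst_liftMat] at h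
      simpa [sordm_vec_fst, sordm_vec_snd] using h
    · funext i
      have h := congrArg TrivSqZeroExt.snd (congrFun ht i)
      rw [Pi.sub_apply, TrivSqZeroExt.snd_sub, sordm_snd_mulVec, dnFst_liftMat,
        dnSnd_liftMat] at h
      simp only [TrivSqZeroExt.snd_inl, Pi.smul_apply, smul_eq_mul, TrivSqZeroExt.snd_mul,
        TrivSqZeroExt.fst_inl, TrivSqZeroExt.snd_inl, smul_zero, MulOpposite.smul_eq_mul_unop,
        MulOpposite.unop_op, mul_zero, add_zero, sub_zero, sordm_vec_fst, sordm_vec_snd,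
        TrivSqZeroExt.fst_inl] at h
      have h0 : (D.ρm σ).mulVec (fun _ : Fin 2 => (0 : ResidueField 𝒪)) i = 0 := by
        simp [Matrix.mulVec, dotProduct]
      rw [h0, zero_add] at h
      rw [h]
      simp only [Pi.add_apply, Pi.smul_apply, smul_eq_mul]

/-- **O3 + O4.** -/
theorem stmtOrd_of_red (hred : StmtOrdRed) : StmtOrd := by
  intro 𝒪 _ _ p _ _ ρbar D ρ c Lbar hp2 hcoc hdet hord hLbar
  obtain ⟨w0, w1, hw0, hw0L, hσ⟩ := hred 𝒪 p ρbar D ρ c Lbar hp2 hcoc hdet hord hLbar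
  obtain ⟨Y, hYtr, hYw⟩ := sordm_exists_Y w0 (-w1) hw0
  obtain ⟨y, hy, hyM⟩ := sordm_exists_ad0 p D Y hYtr
  refine ⟨y, fun τ => ?_⟩
  set σ : GQ := localGaloisToGlobal p τ with hσdef
  have hσD : σ ∈ (padicPlace p).decompositionSubgroup ℚ :=
    localGaloisToGlobal_mem_decompositionSubgroup p τ
  obtain ⟨x, z, hx, hz, hw, hv⟩ := hσ σ hσD
  obtain ⟨H1, H2, H3⟩ := sordm_parts p D c σ w0 w1 x z hw hv
  obtain ⟨hN0, hNim⟩ := sordm_core (D.ρm σ) (D.ρm σ⁻¹) (adMat p D (c σ)) Y (rhom_mul_inv D σ)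
    (rhom_inv_mul D σ) w0 w1 x z hx hz H1 H2 H3 hYw
  -- the matrix of `n`
  have hNtr : (adMat p D (c σ) - (D.ρm σ * Y * D.ρm σ⁻¹ - Y)).trace = 0 := by
    have h1 : (adMat p D (c σ)).trace = 0 := by
      rw [← trace_adVal p D]
      exact stmtTrace 𝒪 p ρbar D ρ c hcoc hdet σ
    have h2 : (D.ρm σ * Y * D.ρm σ⁻¹).trace = Y.trace := by
      rw [Matrix.trace_mul_comm, ← mul_assoc, rhom_inv_mul, one_mul]
    rw [Matrix.trace_sub, Matrix.trace_sub, h1, h2, sub_self, sub_zero]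
  obtain ⟨n, hn, hnM⟩ := sordm_exists_ad0 p D _ hNtr
  have hv0 : D.b.equivFun.symm w0 ≠ 0 := by
    intro h
    apply hw0
    have := congrArg D.b.equivFun h
    rwa [LinearEquiv.apply_symm_apply, map_zero] at this
  have hval : ∀ v : ρbar.V, ad0Val p ρbar n v =
      D.b.equivFun.symm
        ((adMat p D (c σ) - (D.ρm σ * Y * D.ρm σ⁻¹ - Y)).mulVec (D.b.repr v)) := by
    intro v
    rw [hn, Matrix.toLin_apply, Module.Basis.equivFun_symm_apply]
  refine ⟨n, ⟨fun v => ?_, fun v hvL => ?_⟩, ?_⟩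
  · obtain ⟨s, hs⟩ := hNim (D.b.repr v)
    rw [hval, hs, map_smul]
    exact Lbar.smul_mem s hw0L
  · -- `v` is a multiple of the generator
    have hfr : Module.finrank (ResidueField 𝒪) Lbar = 1 := hLbar.1
    obtain ⟨a, ha⟩ := (finrank_eq_one_iff_of_nonzero' (⟨D.b.equivFun.symm w0, hw0L⟩ : Lbar)
      (fun h => hv0 (congrArg Subtype.val h))).mp hfr ⟨v, hvL⟩
    have ha' : v = a • D.b.equivFun.symm w0 := by
      have := congrArg Subtype.val ha
      simpa using this.symm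
    have hrepr : (D.b.repr v : Fin 2 → ResidueField 𝒪) = a • w0 := by
      rw [ha']
      have : D.b.equivFun (a • D.b.equivFun.symm w0) = a • w0 := by
        rw [map_smul, LinearEquiv.apply_symm_apply]
      exact this
    rw [hval, hrepr, Matrix.mulVec_smul, hN0, smul_zero, map_zero]
  · apply adMat_injective p D
    rw [adMat_add, adMat_sub, adMat_ρ, hyM, hnM]
    abel

end Main

end Fermat.Agent.TW.S

end
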