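/-
TW-Core, piece C-adrank (helper22): `dim_{𝔽_p} ad⁰ ρ̄ = 3 f`, `f = [k : 𝔽_p]`.
(`ad⁰` is the kernel of the trace on `End_k V̄`, of `k`-dimension `4 - 1 = 3`; then count.)
-/
import Fermat.Agent.TW.Core.Plan

set_option autoImplicit false
set_option linter.unusedSectionVars false
set_option linter.unusedVariables false

noncomputable section

namespace Fermat.Agent.TW.S

open Module

/-- `dim_k ad⁰ = 3`. -/
theorem sadr_finrank_ad0Sub {k : Type} [Field k] (ρbar : ResidualGaloisRep k) :
    finrank k ↥(ad0Sub ρbar) = 3 := by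
  have h4 : finrank k (Module.End k ρbar.V) = 4 := by
    rw [Module.finrank_linearMap, ρbar.finrank_eq]
  have hsurj : Function.Surjective (LinearMap.trace k ρbar.V) := by
    apply LinearMap.surjective_of_ne_zero
    intro h0
    have b := Module.finBasisOfFinrankEq k ρbar.V ρbar.finrank_eq
    have h1 := LinearMap.trace_eq_matrix_trace k b (Matrix.toLin b b (Matrix.single 0 0 1))
    rw [LinearMap.toMatrix_toLin, Matrix.trace_single_eq_same, h0] at h1
    exact zero_ne_one h1
  have hr : finrank k ↥(LinearMap.range (LinearMap.trace k ρbar.V)) = 1 := by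
    rw [LinearMap.range_eq_top.mpr hsurj, finrank_top, finrank_self]
  have h := LinearMap.finrank_range_add_finrank_ker (LinearMap.trace k ρbar.V)
  rw [hr] at h
  have h' : 1 + finrank k ↥(LinearMap.ker (LinearMap.trace k ρbar.V)) = 4 := h.trans h4
  have hk : finrank k ↥(ad0Sub ρbar)
      = finrank k ↥(LinearMap.ker (LinearMap.trace k ρbar.V)) := rfl
  rw [hk]
  omega

/-- **C-adrank.** -/
theorem stmtAdRank : Fermat.Agent.TW.Core.StmtAdRank := by
  intro p _ k _ _ _ _ ρbar
  have hp : p.Prime := Fact.out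
  have : Finite (Module.End k ρbar.V) := Module.finite_of_finite k
  have : Finite ↥(ad0Sub ρbar) := inferInstance
  have hfin : Finite (ad0Rep p ρbar).V := (inferInstance : Finite ↥(ad0Sub ρbar))
  have c1 : Nat.card ↥(ad0Sub ρbar) = Nat.card k ^ 3 := by
    rw [natCard_eq_pow_finrank (K := k), sadr_finrank_ad0Sub]
  have c2 : Nat.card k = p ^ finrank (ZMod p) k := by
    rw [natCard_eq_pow_finrank (K := ZMod p) (V := k), Nat.card_zmod]
  have c3 : Nat.card (ad0Rep p ρbar).V = p ^ finrank (ZMod p) (ad0Rep p ρbar).V := by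
    rw [natCard_eq_pow_finrank (K := ZMod p) (V := (ad0Rep p ρbar).V), Nat.card_zmod]
  have c4 : Nat.card (ad0Rep p ρbar).V = Nat.card ↥(ad0Sub ρbar) := rfl
  have h : p ^ finrank (ZMod p) (ad0Rep p ρbar).V = p ^ (3 * finrank (ZMod p) k) := by
    rw [← c3, c4, c1, c2, ← pow_mul, mul_comm]
  exact Nat.pow_right_injective hp.two_le h

end Fermat.Agent.TW.S

end
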